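import Mathlib.AlgebraicGeometry.EllipticCurve.DivisionPolynomial.Basic
import Mathlib.Algebra.Polynomial.Degree.Lemmas

/-!
# The fifth division polynomial in characteristic five
-/

set_option autoImplicit false

open Polynomial

namespace Fermat.Agent.EllLocal

variable {R : Type*} [CommRing R] (W : WeierstrassCurve R)

/-- In characteristic five the fifth division polynomial is a polynomial in `X ^ 5` with leading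
coefficient `b₂ ^ 2 + b₄`. -/
theorem preΨ'_five_eq (h5 : (5 : R) = 0) :
    W.preΨ' 5 = C (W.b₂ ^ 2 + W.b₄) * X ^ 10 +
      (4 * C W.b₄ ^ 2 * C W.b₆ + C W.b₂ * C W.b₄ ^ 3 + 3 * C W.b₂ ^ 2 * C W.b₄ * C W.b₆ +
        C W.b₂ ^ 3 * C W.b₄ ^ 2 + 4 * C W.b₂ ^ 4 * C W.b₆) * X ^ 5 +
      (4 * C W.b₆ ^ 4 + C W.b₄ ^ 3 * C W.b₆ ^ 2 + 4 * C W.b₄ ^ 6 +
        4 * C W.b₂ * C W.b₄ * C W.b₆ ^ 3 + 3 * C W.b₂ * C W.b₄ ^ 4 * C W.b₆ +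
        2 * C W.b₂ ^ 2 * C W.b₄ ^ 2 * C W.b₆ ^ 2 + C W.b₂ ^ 3 * C W.b₆ ^ 3) := by
  have h5' : (5 : R[X]) = 0 := by rw [← map_ofNat (C : R →+* R[X]) 5, h5, map_zero]
  have hb₈ : W.b₈ = W.b₄ ^ 2 - W.b₂ * W.b₆ := by
    linear_combination -W.b_relation + W.b₈ * h5
  have h := W.preΨ'_odd 0
  norm_num at h
  rw [h, WeierstrassCurve.Ψ₂Sq, WeierstrassCurve.Ψ₃, WeierstrassCurve.preΨ₄, hb₈]
  simp only [map_ofNat, map_sub, map_add, map_mul, map_pow]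
  generalize C W.b₂ = c2
  generalize C W.b₄ = c4
  generalize C W.b₆ = c6
  linear_combination ((-1)*c6^4 + (-1)*c4^6 + (-1)*c2*c4*c6^3 + (-1)*c2^2*c4^2*c6^2 + (-1)*X*c4*c6^3 + (-1)*X*c4^4*c6 + 3*X*c2*c4^2*c6^2 + (-2)*X*c2^2*c6^3 + (-5)*X^2*c4^2*c6^2 + (-1)*X^2*c4^5 + 3*X^2*c2*c6^3 + 4*X^2*c2*c4^3*c6 + (-3)*X^2*c2^2*c4*c6^2 + (-5)*X^3*c6^3 + (-2)*X^3*c4^3*c6 + 1*X^3*c2*c4^4 + (-1)*X^3*c2^3*c6^2 + (-12)*X^4*c4*c6^2 + 4*X^4*c4^4 + (-1)*X^4*c2*c4^2*c6 + (-4)*X^4*c2^2*c6^2 + 1*X^4*c2^2*c4^3 + (-1)*X^4*c2^3*c4*c6 + (-3)*X^5*c4^2*c6 + (-8)*X^5*c2*c6^2 + 9*X^5*c2*c4^3 + (-10)*X^5*c2^2*c4*c6 + (-1)*X^5*c2^4*c6 + (-3)*X^6*c6^2 + 23*X^6*c4^3 + (-26)*X^6*c2*c4*c6 + 3*X^6*c2^2*c4^2 + (-3)*X^6*c2^3*c6 + 6*X^7*c4*c6 + 15*X^7*c2*c4^2 + (-15)*X^7*c2^2*c6 + 28*X^8*c4^2 + (-19)*X^8*c2*c6 + 19*X^9*c6 + 2*X^9*c2*c4 + 6*X^10*c4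 + 1*X^11*c2 + 1*X^12) * h5'

/-- A curve in characteristic five with nonzero `c₄` has nonconstant fifth division polynomial. -/
theorem natDegree_ΨSq_five_pos [IsDomain R] (h5 : (5 : R) = 0) (hc₄ : W.c₄ ≠ 0) :
    0 < (W.ΨSq (5 : ℕ)).natDegree := by
  have hH : (W.preΨ' 5).coeff 10 = W.c₄ := by
    rw [preΨ'_five_eq W h5, WeierstrassCurve.c₄]
    simp only [← map_ofNat (C : R →+* R[X]), ← map_pow, ← map_mul, ← map_add, coeff_add,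
      coeff_C_mul_X_pow, coeff_C]
    norm_num
    linear_combination (5 * W.b₄) * h5
  have h10 : 10 ≤ (W.preΨ' 5).natDegree := le_natDegree_of_ne_zero (by rw [hH]; exact hc₄)
  rw [WeierstrassCurve.ΨSq_ofNat, if_neg (by decide), mul_one, natDegree_pow]
  omega

end Fermat.Agent.EllLocal
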