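import Fermat.Agent.EllLocal.Ordinary
import Fermat.Agent.EllLocal.CharFive
import Fermat.Agent.EllFrobenius.FiniteField
import Fermat.Agent.MultRed.Frey
import Mathlib.Algebra.CharP.Frobenius

/-!
# The criterion for ordinary reduction, the unit root, and the Frey curve at five
-/

set_option autoImplicit false

open Polynomial WeierstrassCurve
open scoped WeierstrassCurve.Affine Pointwise

namespace Fermat.Agent.EllLocal

local notation "ℚ̄" => AlgebraicClosure ℚ

attribute [local instance] instDecEqKA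

/-- Good reduction with nonconstant `p`-th division polynomial modulo `p`. -/
def IsGoodOrdinary (W : WeierstrassCurve ℤ) (p : ℕ) : Prop :=
  W.IsGoodPrimeFor p ∧ 0 < ((W.reductionMod p).ΨSq (p : ℤ)).natDegree

variable {W : WeierstrassCurve ℤ} {A : ValuationSubring ℚ̄} {p : ℕ} [hpF : Fact p.Prime]

lemma curveK_eq_map (hA : A.LiesOverPrime p) :
    haveI := charP_kA hpF.out hA
    (curveK W A : WeierstrassCurve (kA A)) =
      (W.reductionMod p).map (ZMod.castHom (dvd_refl p) (kA A)) := by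
  rw [WeierstrassCurve.reductionMod, WeierstrassCurve.map_map]
  exact congrArg W.map (RingHom.ext_int _ _)

lemma isElliptic_reductionMod (hgood : W.IsGoodPrimeFor p) : (W.reductionMod p).IsElliptic := by
  refine ⟨?_⟩
  rw [WeierstrassCurve.reductionMod, WeierstrassCurve.map_Δ, isUnit_iff_ne_zero, eq_intCast, Ne,
    ZMod.intCast_zmod_eq_zero_iff_dvd]
  exact hgood

/-- Ordinary reduction does not depend on the place. -/
theorem ordinaryRedAt_iff (hA : A.LiesOverPrime p) (hgood : W.IsGoodPrimeFor p) :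
    OrdinaryRedAt W A p ↔ IsGoodOrdinary W p := by
  have := charP_kA hpF.out hA
  have := isElliptic_curveK hpF.out hA hgood
  have := isElliptic_reductionMod hgood
  have := isAlgClosed_residueField A
  have h0 : (W.reductionMod p).ΨSq (p : ℤ) ≠ 0 :=
    EllTorsion.ΨSq_ne_zero_of_isElliptic (W := (W.reductionMod p).toAffine) hpF.out.ne_zero
  have hΨ : (curveK W A : WeierstrassCurve (kA A)).ΨSq (p : ℤ) =
      ((W.reductionMod p).ΨSq (p : ℤ)).map (ZMod.castHom (dvd_refl p) (kA A)) := by
    rw [curveK_eq_map hA, WeierstrassCurve.map_ΨSq]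
  have hdeg : ((curveK W A : WeierstrassCurve (kA A)).ΨSq (p : ℤ)).natDegree =
      ((W.reductionMod p).ΨSq (p : ℤ)).natDegree := by
    rw [hΨ, natDegree_map]
  constructor
  · rintro ⟨Q, hQ0, hQ⟩
    refine ⟨hgood, ?_⟩
    rcases Q with _ | ⟨a, b, h⟩
    · exact absurd rfl hQ0
    rw [EllTorsion.nsmul_eq_zero_iff] at hQ
    by_contra hd
    rw [not_lt, Nat.le_zero, ← hdeg] at hd
    rw [eq_C_of_natDegree_eq_zero hd, eval_C] at hQ
    refine h0 ((Polynomial.map_eq_zero_iff
      (RingHom.injective (ZMod.castHom (dvd_refl p) (kA A)))).1 ?_)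
    rw [← hΨ, eq_C_of_natDegree_eq_zero hd, hQ, C_0]
  · rintro ⟨-, hd⟩
    obtain ⟨a, ha⟩ := IsAlgClosed.exists_root ((curveK W A : WeierstrassCurve (kA A)).ΨSq (p : ℤ))
      (fun h => by
        rw [← hdeg, natDegree_eq_zero_iff_degree_le_zero.2 h.le] at hd
        exact lt_irrefl _ hd)
    obtain ⟨b, hb⟩ := EllTorsion.exists_point (W := curveK W A) a
    exact ⟨.some a b hb, nofun, (EllTorsion.nsmul_eq_zero_iff hb p).2 ha⟩

variable (hA : A.LiesOverPrime p) (hgood : W.IsGoodPrimeFor p)

/-- The `p`-power map on the residue field. -/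
noncomputable def residueFrob : kA A →+* kA A :=
  haveI := charP_kA hpF.out hA
  haveI : ExpChar (kA A) p := ExpChar.prime hpF.out
  frobenius (kA A) p

lemma residueFrob_apply (x : kA A) : residueFrob hA x = x ^ p := rfl

/-- A Frobenius element reduces to the `p`-power endomorphism. -/
theorem redAt_frobenius_smul {σ : ℚ̄ ≃ₐ[ℚ] ℚ̄} (hσ : A.IsFrobeniusAt σ p)
    (P : PtQ (W.map (Int.castRingHom ℚ))) :
    redAt hA hgood (σ • P) = resMap W (residueFrob hA) (redAt hA hgood P) := by
  rw [redAt, residueRed_smul hpF.out hA hgood hσ.mem_decompositionSubgroup]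
  congr 2
  exact RingHom.ext fun x => hσ.smul_residue_eq x

include hgood in
/-- The characteristic equation of Frobenius on the reduced curve. -/
theorem residueFrob_relation (Q : (curveK W A).Point) :
    resMap W (residueFrob hA) (resMap W (residueFrob hA) Q) -
      W.apOfModel p • resMap W (residueFrob hA) Q + (p : ℤ) • Q = 0 := by
  have := charP_kA hpF.out hA
  let := ZMod.algebra (kA A) p
  have := isAlgClosed_residueField A
  have := isElliptic_reductionMod hgood
  have e : ((W.reductionMod p).toAffine⁄(kA A)).toAffine = curveK W A := by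
    show ((W.reductionMod p).map _ : WeierstrassCurve (kA A)) = _
    rw [curveK_eq_map hA]
    exact congrArg (W.reductionMod p).map (RingHom.ext_zmod _ _)
  have hc : ∀ T : ((W.reductionMod p).toAffine⁄(kA A)).Point,
      EllTorsion.pointCongr e
          (Affine.Point.map (FiniteField.frobeniusAlgHom (ZMod p) (kA A)) T) =
        resMap W (residueFrob hA) (EllTorsion.pointCongr e T) := by
    rintro (_ | ⟨a, b, h⟩)
    · rw [← Affine.Point.zero_def, map_zero, map_zero, map_zero]
    · rw [Affine.Point.map_some, EllTorsion.pointCongr_some, EllTorsion.pointCongr_some]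
      obtain ⟨h', he⟩ := resMap_some W (residueFrob hA) (a := a) (b := b) (Eq.subst (motive :=
        fun V : WeierstrassCurve.Affine (kA A) => V.Nonsingular a b) e h)
      rw [he]
      simp only [FiniteField.coe_frobeniusAlgHom, ZMod.card, residueFrob_apply]
  obtain ⟨T, rfl⟩ := (EllTorsion.pointCongr e).surjective Q
  have h := congrArg (EllTorsion.pointCongr e)
    (EllFrobenius.frobenius_relation (K := kA A) (W.reductionMod p) T)
  rw [map_add, map_sub, map_zsmul, map_zsmul, map_zero, hc, hc, ZMod.card] at h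
  exact h

/-- The characteristic equation of a Frobenius element after reduction. -/
theorem redAt_frobenius_relation {σ : ℚ̄ ≃ₐ[ℚ] ℚ̄} (hσ : A.IsFrobeniusAt σ p)
    (P : PtQ (W.map (Int.castRingHom ℚ))) :
    redAt hA hgood (σ • σ • P - W.apOfModel p • (σ • P) + (p : ℤ) • P) = 0 := by
  rw [map_add, map_sub, map_zsmul, map_zsmul, redAt_frobenius_smul hA hgood hσ,
    redAt_frobenius_smul hA hgood hσ]
  exact residueFrob_relation hA hgood _

section Adapted

variable [(W.map (Int.castRingHom ℚ)).IsElliptic]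
  {b : Module.Basis (Fin 2) ℤ_[p] (tateModule (W.map (Int.castRingHom ℚ)) p)}
  (hb₀ : ∀ n, redAt hA hgood ((b 0).1 n) = 0) (hb₁ : redAt hA hgood ((b 1).1 1) ≠ 0)

omit [(W.map (Int.castRingHom ℚ)).IsElliptic] in
include hb₀ hb₁ in
/-- The quotient character takes unit values. -/
theorem isUnit_repr_rho_one {σ : ℚ̄ ≃ₐ[ℚ] ℚ̄} (hσ : σ ∈ A.decompositionSubgroup ℚ) :
    IsUnit (b.repr (tateAct σ (b 1)) 1) := by
  by_contra h
  have h' : PadicInt.toZModPow 1 (b.repr (tateAct σ (b 1)) 1) = 0 := by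
    rw [← RingHom.mem_ker, PadicInt.ker_toZModPow, pow_one, ← PadicInt.maximalIdeal_eq_span_p,
      IsLocalRing.mem_maximalIdeal]
    exact h
  have h0 : redAt hA hgood (σ • (b 1).1 1) = 0 :=
    (redAt_eq_zero_iff_toZModPow hA hgood hb₀ hb₁ (tateAct σ (b 1)) 1).2 h'
  have := redAt_smul_eq_zero hA hgood (inv_mem hσ) h0
  rw [inv_smul_smul] at this
  exact hb₁ this

omit [(W.map (Int.castRingHom ℚ)).IsElliptic] in
include hb₀ hb₁ in
/-- A Frobenius element acts on the quotient by a root of `X² - a_p X + p`. -/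
theorem frobenius_quotient_root {σ : ℚ̄ ≃ₐ[ℚ] ℚ̄} (hσ : A.IsFrobeniusAt σ p) :
    b.repr (tateAct σ (b 1)) 1 ^ 2 - (W.apOfModel p : ℤ_[p]) * b.repr (tateAct σ (b 1)) 1 +
      (p : ℤ_[p]) = 0 := by
  set z := b.repr (tateAct σ (b 1)) 1 with hz
  have h2 : b.repr (tateAct σ (tateAct σ (b 1))) 1 = z * z := by
    have hx : b.repr (tateAct σ (b 0)) 1 = 0 :=
      (repr_one_eq_zero_iff hA hgood hb₀ hb₁ _).2 fun n =>
        redAt_smul_eq_zero hA hgood hσ.mem_decompositionSubgroup (hb₀ n)
    conv_lhs =>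
      rw [← b.sum_repr (tateAct σ (b 1)), Fin.sum_univ_two, map_add, map_smul, map_smul]
    simp [hx, ← hz]
  have h := (repr_one_eq_zero_iff hA hgood hb₀ hb₁
    (tateAct σ (tateAct σ (b 1)) - W.apOfModel p • tateAct σ (b 1) + (p : ℤ) • b 1)).2
      fun n => redAt_frobenius_relation hA hgood hσ ((b 1).1 n)
  rw [map_add, map_sub, map_zsmul, map_zsmul, Finsupp.add_apply, Finsupp.sub_apply,
    Finsupp.smul_apply, Finsupp.smul_apply, h2, Module.Basis.repr_self, Finsupp.single_eq_same,
    ← hz, zsmul_eq_mul, zsmul_eq_mul, Int.cast_natCast, mul_one] at h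
  rw [sq]
  exact h

omit [(W.map (Int.castRingHom ℚ)).IsElliptic] in
include hb₀ hb₁ in
/-- Ordinary good reduction makes the trace of Frobenius prime to `p`. -/
theorem not_dvd_apOfModel {σ : ℚ̄ ≃ₐ[ℚ] ℚ̄} (hσ : A.IsFrobeniusAt σ p) :
    ¬ (p : ℤ) ∣ W.apOfModel p := by
  intro ⟨c, hc⟩
  have hu := isUnit_repr_rho_one hA hgood hb₀ hb₁ hσ.mem_decompositionSubgroup
  have h := frobenius_quotient_root hA hgood hb₀ hb₁ hσ
  rw [hc, Int.cast_mul, Int.cast_natCast] at h
  refine PadicInt.prime_p.not_isUnit (isUnit_of_dvd_unit ?_ (hu.pow 2))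
  exact ⟨c * b.repr (tateAct σ (b 1)) 1 - 1, by linear_combination h⟩

end Adapted

/-- At a prime `5` of good reduction the Frey curve is ordinary. -/
theorem freyCurveInt_isGoodOrdinary_five (P : FreyPackage)
    (hgood : P.freyCurveInt.IsGoodPrimeFor 5) : IsGoodOrdinary P.freyCurveInt 5 := by
  have key : ∀ x y : ZMod 5, x ^ 2 + x * y + y ^ 2 = 0 → x = 0 ∧ y = 0 := by decide
  have : Fact (Nat.Prime 5) := ⟨by norm_num⟩
  refine ⟨hgood, natDegree_ΨSq_five_pos (P.freyCurveInt.reductionMod 5) (by decide) ?_⟩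
  rw [WeierstrassCurve.reductionMod, WeierstrassCurve.map_c₄, MultRed.freyCurveInt_c₄ P]
  intro h
  simp only [eq_intCast, Int.cast_add, Int.cast_mul, Int.cast_pow] at h
  obtain ⟨ha, hb⟩ := key _ _ h
  have hp0 : P.p ≠ 0 := by have := P.hp5; omega
  rw [pow_eq_zero_iff hp0, ZMod.intCast_zmod_eq_zero_iff_dvd] at ha hb
  exact Int.prime_iff_natAbs_prime.2 (by norm_num : Nat.Prime (5 : ℤ).natAbs) |>.not_isUnit
    ((MultRed.frey_coprime_ab P).isUnit_of_dvd' (by exact_mod_cast ha) (by exact_mod_cast hb))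

end Fermat.Agent.EllLocal
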