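import Fermat.Agent.EllTorsion.Galois
import Fermat.Agent.EllTorsion.Structure
import Fermat.Prelude.Def_GaloisRep_Adic
import Mathlib.NumberTheory.Padics.RingHoms

/-!
# The Tate module of an elliptic curve over `ℚ`
-/

set_option autoImplicit false

open WeierstrassCurve
open scoped WeierstrassCurve.Affine

namespace Fermat.Agent.EllLocal

local notation "ℚ̄" => AlgebraicClosure ℚ

/-- Points over `ℚ̄`. -/
abbrev PtQ (W : WeierstrassCurve ℚ) : Type := (W⁄(AlgebraicClosure ℚ)).Point

variable (W : WeierstrassCurve ℚ) (p : ℕ)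

/-- Compatible systems of `p`-power torsion points. -/
noncomputable def tateModule : AddSubgroup (ℕ → PtQ W) where
  carrier := {f | ∀ n, p ^ n • f n = 0 ∧ p • f (n + 1) = f n}
  zero_mem' n := ⟨nsmul_zero _, nsmul_zero _⟩
  add_mem' {f g} hf hg n := by
    simp only [Pi.add_apply, nsmul_add, (hf n).1, (hf n).2, (hg n).1, (hg n).2, add_zero, and_self]
  neg_mem' {f} hf n := by
    simp only [Pi.neg_apply, neg_nsmul, (hf n).1, (hf n).2, neg_zero, and_self]

variable {W p}

lemma tateModule_pow (f : tateModule W p) (n : ℕ) : p ^ n • f.1 n = 0 := (f.2 n).1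

lemma tateModule_pow_add (f : tateModule W p) (n : ℕ) :
    ∀ k, p ^ k • f.1 (n + k) = f.1 n := by
  intro k
  induction k with
  | zero => simp
  | succ k ih =>
    rw [pow_succ, mul_nsmul', ← add_assoc, (f.2 (n + k)).2, ih]

lemma nsmul_congr_of_cast {G : Type*} [AddCommGroup G] {N a b : ℕ} {P : G} (hP : N • P = 0)
    (h : (a : ZMod N) = b) : a • P = b • P :=
  nsmul_eq_nsmul_iff_modEq.2 (((ZMod.natCast_eq_natCast_iff _ _ _).1 h).of_dvd
    (addOrderOf_dvd_iff_nsmul_eq_zero.2 hP))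

variable [Fact p.Prime]

/-- Component of a scalar multiple. -/
noncomputable def coeffNat (a : ℤ_[p]) (n : ℕ) : ℕ := (PadicInt.toZModPow n a).val

lemma coeffNat_cast (a : ℤ_[p]) (n : ℕ) :
    ((coeffNat a n : ℕ) : ZMod (p ^ n)) = PadicInt.toZModPow n a := by
  have : NeZero (p ^ n) := ⟨pow_ne_zero n (Fact.out : p.Prime).ne_zero⟩
  exact ZMod.natCast_zmod_val _

lemma coeffNat_cast_succ (a : ℤ_[p]) (n : ℕ) :
    ((coeffNat a (n + 1) : ℕ) : ZMod (p ^ n)) = PadicInt.toZModPow n a := by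
  rw [← PadicInt.cast_toZModPow n (n + 1) n.le_succ a, ← coeffNat_cast a (n + 1),
    ZMod.cast_natCast (pow_dvd_pow p n.le_succ)]

noncomputable instance tateSMul : SMul ℤ_[p] (tateModule W p) where
  smul a f := ⟨fun n => coeffNat a n • f.1 n, fun n => ⟨by
    rw [← mul_nsmul', mul_comm, mul_nsmul', tateModule_pow, nsmul_zero], by
    rw [← mul_nsmul', mul_comm, mul_nsmul', (f.2 n).2]
    exact nsmul_congr_of_cast (tateModule_pow f n) (by rw [coeffNat_cast_succ, coeffNat_cast])⟩⟩

lemma smul_apply (a : ℤ_[p]) (f : tateModule W p) (n : ℕ) :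
    (a • f).1 n = coeffNat a n • f.1 n := rfl

lemma smul_apply_eq (a : ℤ_[p]) (f : tateModule W p) (n m : ℕ)
    (h : (m : ZMod (p ^ n)) = PadicInt.toZModPow n a) : (a • f).1 n = m • f.1 n :=
  nsmul_congr_of_cast (tateModule_pow f n) (by rw [coeffNat_cast, h])

noncomputable instance tateModuleInst : Module ℤ_[p] (tateModule W p) where
  one_smul f := Subtype.ext (funext fun n => by
    rw [smul_apply_eq 1 f n 1 (by rw [Nat.cast_one, map_one]), one_nsmul])
  mul_smul a b f := Subtype.ext (funext fun n => by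
    rw [smul_apply_eq (a * b) f n (coeffNat a n * coeffNat b n)
      (by rw [Nat.cast_mul, coeffNat_cast, coeffNat_cast, map_mul]), smul_apply, smul_apply,
      mul_nsmul'])
  smul_zero a := Subtype.ext (funext fun n => by
    rw [smul_apply, AddSubgroup.coe_zero, Pi.zero_apply, nsmul_zero])
  smul_add a f g := Subtype.ext (funext fun n => by
    simp only [smul_apply, AddSubgroup.coe_add, Pi.add_apply, nsmul_add])
  add_smul a b f := Subtype.ext (funext fun n => by
    rw [smul_apply_eq (a + b) f n (coeffNat a n + coeffNat b n)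
      (by rw [Nat.cast_add, coeffNat_cast, coeffNat_cast, map_add]), add_nsmul]
    rfl)
  zero_smul f := Subtype.ext (funext fun n => by
    rw [smul_apply_eq 0 f n 0 (by rw [Nat.cast_zero, map_zero]), zero_nsmul,
      AddSubgroup.coe_zero, Pi.zero_apply])

/-- The `n`-th component, in `E[pⁿ]`. -/
noncomputable def tateProj (W : WeierstrassCurve ℚ) (p : ℕ) (n : ℕ) :
    tateModule W p →+ Submodule.torsionBy ℤ (PtQ W) ((p ^ n : ℕ) : ℤ) where
  toFun f := ⟨f.1 n, by rw [Submodule.mem_torsionBy_iff, natCast_zsmul]; exact (f.2 n).1⟩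
  map_zero' := rfl
  map_add' _ _ := rfl

omit [Fact p.Prime] in
@[simp] lemma tateProj_apply (n : ℕ) (f : tateModule W p) :
    (tateProj W p n f : PtQ W) = f.1 n := rfl

/-- The kernel of the `n`-th component is `pⁿ`. -/
theorem exists_eq_pow_smul_of_apply_eq_zero (f : tateModule W p) (n : ℕ) (hf : f.1 n = 0) :
    ∃ g : tateModule W p, ((p : ℤ_[p]) ^ n) • g = f := by
  let g : tateModule W p := ⟨fun m => f.1 (n + m), fun m => ⟨by
    rw [tateModule_pow_add, hf], (f.2 (n + m)).2⟩⟩
  refine ⟨g, Subtype.ext (funext fun m => ?_)⟩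
  rw [smul_apply_eq _ g m (p ^ n) (by rw [map_pow, map_natCast, Nat.cast_pow])]
  show p ^ n • f.1 (n + m) = f.1 m
  rw [add_comm]; exact tateModule_pow_add f m n

section Elliptic

variable [W.IsElliptic]

lemma exists_nsmul_eq {p : ℕ} (hp : p ≠ 0) (P : PtQ W) : ∃ Q : PtQ W, p • Q = P :=
  EllTorsion.nsmul_surjective_baseChange W ℚ̄ hp P

/-- The components are surjective. -/
theorem exists_apply_eq (n : ℕ) {P : PtQ W} (hP : p ^ n • P = 0) :
    ∃ f : tateModule W p, f.1 n = P := by
  have hp : p ≠ 0 := (Fact.out : p.Prime).ne_zero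
  choose lift hlift using fun P : PtQ W => exists_nsmul_eq (W := W) hp P
  let g : ℕ → PtQ W := fun k => Nat.rec P (fun _ Q => lift Q) k
  have hg : ∀ k, p • g (k + 1) = g k := fun k => hlift _
  have hgk : ∀ k, p ^ k • g k = P := by
    intro k
    induction k with
    | zero => simp [g]
    | succ k ih => rw [pow_succ, mul_nsmul', hg, ih]
  refine ⟨⟨fun m => if m ≤ n then p ^ (n - m) • P else g (m - n), fun m => ⟨?_, ?_⟩⟩, by simp⟩
  · simp only
    split_ifs with h
    · rw [← mul_nsmul', ← pow_add, Nat.add_sub_cancel' h, hP]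
    · have hm : m = n + (m - n) := by omega
      conv_lhs => arg 1; rw [hm]
      rw [pow_add, mul_nsmul', hgk, hP]
  · simp only
    rcases lt_trichotomy m n with h | rfl | h
    · rw [if_pos (show m + 1 ≤ n from h), if_pos h.le, ← mul_nsmul', ← pow_succ', show n - m = n - (m + 1) + 1 by omega]
    · rw [if_neg (by omega), if_pos le_rfl, Nat.sub_self, pow_zero, one_nsmul,
        show m + 1 - m = 0 + 1 by omega, hg]
      rfl
    · rw [if_neg (by omega), if_neg (by omega), show m + 1 - n = m - n + 1 by omega, hg]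

variable (W p)

variable {W p}

omit [W.IsElliptic] [Fact p.Prime] in
/-- Compatible systems generating the `p`-torsion generate all `p`-power torsion. -/
theorem exists_eq_add_of_gen_one (b₁ b₂ : tateModule W p)
    (h1 : ∀ P : PtQ W, p • P = 0 → ∃ i j : ℕ, P = i • b₁.1 1 + j • b₂.1 1) :
    ∀ (n : ℕ) (P : PtQ W), p ^ n • P = 0 → ∃ i j : ℕ, P = i • b₁.1 n + j • b₂.1 n := by
  intro n
  induction n with
  | zero => intro P hP; exact ⟨0, 0, by simpa using hP⟩
  | succ n ih =>
    intro P hP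
    obtain ⟨i, j, hij⟩ := ih (p • P) (by rw [← mul_nsmul', ← pow_succ]; exact hP)
    have h0 : p • (P - (i • b₁.1 (n + 1) + j • b₂.1 (n + 1))) = 0 := by
      rw [nsmul_sub, sub_eq_zero, hij, nsmul_add, smul_comm p i, smul_comm p j,
        (b₁.2 n).2, (b₂.2 n).2]
    obtain ⟨u, v, huv⟩ := h1 _ h0
    refine ⟨i + u * p ^ n, j + v * p ^ n, ?_⟩
    rw [sub_eq_iff_eq_add] at huv
    have e₁ := tateModule_pow_add b₁ 1 n
    have e₂ := tateModule_pow_add b₂ 1 n
    rw [Nat.add_comm 1 n] at e₁ e₂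
    rw [huv, add_nsmul, add_nsmul, mul_nsmul', mul_nsmul', e₁, e₂]
    abel

/-- A pair of compatible systems generating the `p`-torsion is a basis. -/
theorem exists_basis_of_gen_one (b₁ b₂ : tateModule W p)
    (h1 : ∀ P : PtQ W, p • P = 0 → ∃ i j : ℕ, P = i • b₁.1 1 + j • b₂.1 1) :
    ∃ b : Module.Basis (Fin 2) ℤ_[p] (tateModule W p), b 0 = b₁ ∧ b 1 = b₂ := by
  classical
  have hp : p.Prime := Fact.out
  let F : ℕ → ℕ × ℕ → PtQ W := fun n c => c.1 • b₁.1 n + c.2 • b₂.1 n
  have hgen : ∀ n, ∀ P : PtQ W, p ^ n • P = 0 → ∃ c, F n c = P := fun n P hP => by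
    obtain ⟨i, j, h⟩ := exists_eq_add_of_gen_one b₁ b₂ h1 n P hP
    exact ⟨(i, j), h.symm⟩
  -- the coordinates are unique modulo `pⁿ`
  have huniq : ∀ n (c c' : ℕ × ℕ), F n c = F n c' →
      (c.1 : ZMod (p ^ n)) = c'.1 ∧ (c.2 : ZMod (p ^ n)) = c'.2 := by
    intro n c c' hcc
    have : NeZero (p ^ n) := ⟨pow_ne_zero n hp.ne_zero⟩
    have := EllTorsion.finite_torsionBy_baseChange W ℚ̄ (pow_ne_zero n hp.ne_zero)
    let G : ZMod (p ^ n) × ZMod (p ^ n) → Submodule.torsionBy ℤ (PtQ W) ((p ^ n : ℕ) : ℤ) :=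
      fun z => ⟨F n (z.1.val, z.2.val), by
        rw [Submodule.mem_torsionBy_iff, natCast_zsmul]
        simp only [F, nsmul_add, ← mul_nsmul', mul_comm (p ^ n)]
        simp only [mul_nsmul', tateModule_pow, nsmul_zero, add_zero]⟩
    have hG : Function.Surjective G := fun P => by
      obtain ⟨c, hc⟩ := hgen n P.1
        (by rw [← natCast_zsmul]; exact (Submodule.mem_torsionBy_iff _ _).mp P.2)
      refine ⟨((c.1 : ZMod (p ^ n)), (c.2 : ZMod (p ^ n))), Subtype.ext ?_⟩
      simp only [G, F, ← hc]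
      congr 1 <;> exact nsmul_congr_of_cast (tateModule_pow _ n) (ZMod.natCast_zmod_val _)
    have hGi : Function.Injective G := (hG.bijective_of_nat_card_le (by
      rw [Nat.card_prod, Nat.card_zmod,
        EllTorsion.natCard_torsionBy_baseChange W ℚ̄ _ (Nat.cast_ne_zero.mpr (NeZero.ne _)),
        sq])).1
    have : G ((c.1 : ZMod (p ^ n)), (c.2 : ZMod (p ^ n))) =
        G ((c'.1 : ZMod (p ^ n)), (c'.2 : ZMod (p ^ n))) := by
      refine Subtype.ext ?_
      simp only [G, F]
      rw [nsmul_congr_of_cast (tateModule_pow b₁ n) (ZMod.natCast_zmod_val (c.1 : ZMod (p ^ n))),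
        nsmul_congr_of_cast (tateModule_pow b₂ n) (ZMod.natCast_zmod_val (c.2 : ZMod (p ^ n))),
        nsmul_congr_of_cast (tateModule_pow b₁ n) (ZMod.natCast_zmod_val (c'.1 : ZMod (p ^ n))),
        nsmul_congr_of_cast (tateModule_pow b₂ n) (ZMod.natCast_zmod_val (c'.2 : ZMod (p ^ n)))]
      exact hcc
    exact Prod.ext_iff.mp (hGi this)
  let φ : (Fin 2 → ℤ_[p]) →ₗ[ℤ_[p]] tateModule W p := Fintype.linearCombination ℤ_[p] ![b₁, b₂]
  have hφ : ∀ a n, (φ a).1 n = F n (coeffNat (a 0) n, coeffNat (a 1) n) := fun a n => by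
    simp [φ, Fintype.linearCombination_apply, Fin.sum_univ_two, smul_apply, F]
  have hinj : Function.Injective φ := fun a a' h => funext fun i => by
    refine PadicInt.ext_of_toZModPow.1 fun n => ?_
    obtain ⟨h₁, h₂⟩ := huniq n (coeffNat (a 0) n, coeffNat (a 1) n)
      (coeffNat (a' 0) n, coeffNat (a' 1) n) (by rw [← hφ, ← hφ, h])
    simp only [coeffNat_cast] at h₁ h₂
    fin_cases i <;> assumption
  have hsurj : Function.Surjective φ := by
    intro f
    choose c hc using fun n => hgen n (f.1 n) (tateModule_pow f n)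
    have hcompat : ∀ {m n : ℕ}, m ≤ n →
        ((c m).1 : ZMod (p ^ m)) = (c n).1 ∧ ((c m).2 : ZMod (p ^ m)) = (c n).2 := by
      intro m n hmn
      refine huniq m _ _ ?_
      obtain ⟨k, rfl⟩ := Nat.exists_eq_add_of_le hmn
      rw [hc, ← tateModule_pow_add f m k, ← hc (m + k)]
      simp only [F, nsmul_add, ← mul_nsmul', mul_comm (p ^ k)]
      simp only [mul_nsmul', tateModule_pow_add]
    have hlim : ∀ g : ℕ → ℕ, (∀ {m n : ℕ}, m ≤ n → (g m : ZMod (p ^ m)) = g n) →
        ∃ a : ℤ_[p], ∀ n, PadicInt.toZModPow n a = (g n : ZMod (p ^ n)) := by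
      intro g hg
      have key : ∀ (n : ℕ) (u v : ℤ_[p]),
          u ≡ v [SMOD (IsLocalRing.maximalIdeal ℤ_[p] ^ n • ⊤ : Submodule ℤ_[p] ℤ_[p])] ↔
            PadicInt.toZModPow n u = PadicInt.toZModPow n v := fun n u v => by
        rw [SModEq.sub_mem, smul_eq_mul, Ideal.mul_top, PadicInt.maximalIdeal_eq_span_p,
          Ideal.span_singleton_pow, ← PadicInt.ker_toZModPow, RingHom.mem_ker, map_sub, sub_eq_zero]
      obtain ⟨a, ha⟩ := (inferInstance :
        IsAdicComplete (IsLocalRing.maximalIdeal ℤ_[p]) ℤ_[p]).toIsPrecomplete.prec'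
        (fun n => (g n : ℤ_[p])) (fun {m n} hmn => (key m _ _).2 (by
          rw [map_natCast, map_natCast]; exact hg hmn))
      exact ⟨a, fun n => by rw [← (key n _ _).1 (ha n), map_natCast]⟩
    obtain ⟨a₀, ha₀⟩ := hlim (fun n => (c n).1) (fun h => (hcompat h).1)
    obtain ⟨a₁, ha₁⟩ := hlim (fun n => (c n).2) (fun h => (hcompat h).2)
    refine ⟨![a₀, a₁], Subtype.ext (funext fun n => ?_)⟩
    rw [hφ, ← hc n]
    simp only [F, Matrix.cons_val_zero, Matrix.cons_val_one]
    congr 1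
    · exact nsmul_congr_of_cast (tateModule_pow b₁ n) (by rw [coeffNat_cast, ha₀])
    · exact nsmul_congr_of_cast (tateModule_pow b₂ n) (by rw [coeffNat_cast, ha₁])
  refine ⟨Module.Basis.ofEquivFun (LinearEquiv.ofBijective φ ⟨hinj, hsurj⟩).symm, ?_, ?_⟩ <;>
    simp [φ, Fintype.linearCombination_apply]

variable (W p)

/-- A basis of the Tate module. -/
theorem nonempty_basis_tateModule :
    Nonempty (Module.Basis (Fin 2) ℤ_[p] (tateModule W p)) := by
  classical
  have hp : p.Prime := Fact.out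
  have hp1 : (p : ℚ̄) ≠ 0 := Nat.cast_ne_zero.mpr hp.ne_zero
  obtain ⟨e⟩ := EllTorsion.nonempty_addEquiv_torsionBy (W := (W⁄ℚ̄)) (n := p) hp1
  obtain ⟨b₁, hb₁⟩ := exists_apply_eq (W := W) (p := p) 1 (P := (e (1, 0)).1)
    (by rw [pow_one, ← natCast_zsmul]; exact (Submodule.mem_torsionBy_iff _ _).mp (e (1, 0)).2)
  obtain ⟨b₂, hb₂⟩ := exists_apply_eq (W := W) (p := p) 1 (P := (e (0, 1)).1)
    (by rw [pow_one, ← natCast_zsmul]; exact (Submodule.mem_torsionBy_iff _ _).mp (e (0, 1)).2)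
  obtain ⟨b, -, -⟩ := exists_basis_of_gen_one b₁ b₂ fun P hP => by
    obtain ⟨⟨u, v⟩, huv⟩ := e.surjective ⟨P,
      by rw [Submodule.mem_torsionBy_iff, natCast_zsmul]; exact hP⟩
    have : NeZero p := ⟨hp.ne_zero⟩
    refine ⟨u.val, v.val, ?_⟩
    rw [hb₁, hb₂]
    refine ((congrArg Subtype.val huv).symm).trans ?_
    show _ = ((u.val • e (1, 0) + v.val • e (0, 1) : Submodule.torsionBy ℤ (PtQ W) (p : ℤ)) : PtQ W)
    rw [← map_nsmul, ← map_nsmul, ← map_add]
    congr 2
    ext <;> simp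
  exact ⟨b⟩

variable {W p}

/-- Galois acts on the Tate module componentwise. -/
noncomputable def tateAct (σ : ℚ̄ ≃ₐ[ℚ] ℚ̄) : tateModule W p →ₗ[ℤ_[p]] tateModule W p where
  toFun f := ⟨fun n => σ • f.1 n, fun n => by
    constructor
    · rw [← smul_nsmul_point, (f.2 n).1]; rfl
    · rw [← smul_nsmul_point, (f.2 n).2]⟩
  map_add' f g := Subtype.ext (funext fun n => smul_add σ (f.1 n) (g.1 n))
  map_smul' a f := Subtype.ext (funext fun n => by
    simp only [smul_apply, RingHom.id_apply]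
    exact smul_nsmul_point σ _ _)
where
  smul_nsmul_point (σ : ℚ̄ ≃ₐ[ℚ] ℚ̄) (m : ℕ) (P : PtQ W) : σ • (m • P) = m • (σ • P) :=
    (Affine.Point.map σ.toAlgHom).map_nsmul m P

variable (W p)

/-- The `p`-adic representation of an elliptic curve over `ℚ`. -/
noncomputable def tateRep : GaloisRepAdic ℤ_[p] where
  V := tateModule W p
  instFree := Module.Free.of_basis (nonempty_basis_tateModule W p).some
  instFinite := Module.Finite.of_basis (nonempty_basis_tateModule W p).some
  finrank_eq := by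
    rw [Module.finrank_eq_card_basis (nonempty_basis_tateModule W p).some, Fintype.card_fin]
  ρ :=
    { toFun := tateAct
      map_one' := LinearMap.ext fun f => Subtype.ext (funext fun n => one_smul _ (f.1 n))
      map_mul' := fun σ τ =>
        LinearMap.ext fun f => Subtype.ext (funext fun n => mul_smul σ τ (f.1 n)) }
  isAdicContinuous := by
    intro n
    obtain ⟨L, hL, h⟩ :=
      EllTorsion.galoisFactorsThroughFiniteLevel_galoisRepModuleEnd W
        (pow_ne_zero n (Fact.out : p.Prime).ne_zero)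
    refine ⟨L, hL, fun σ hσ v => ?_⟩
    have h0 : ((tateAct σ v - v : tateModule W p)).1 n = 0 := by
      have := congrArg Subtype.val (LinearMap.congr_fun (h σ hσ) (tateProj W p n v))
      simp only [Affine.Point.galoisRepModuleEnd_apply, Module.End.one_apply, tateProj_apply] at this
      show σ • v.1 n - v.1 n = 0
      rw [sub_eq_zero]
      exact this
    obtain ⟨g, hg⟩ := exists_eq_pow_smul_of_apply_eq_zero _ n h0
    rw [MonoidHom.coe_mk, OneHom.coe_mk, ← hg]
    exact Submodule.smul_mem_smul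
      (Ideal.pow_mem_pow (by rw [PadicInt.maximalIdeal_eq_span_p]; exact Ideal.mem_span_singleton_self _) n)
      Submodule.mem_top

variable {W p}

@[simp] lemma tateRep_apply (σ : ℚ̄ ≃ₐ[ℚ] ℚ̄) (f : tateModule W p) (n : ℕ) :
    ((tateRep W p).ρ σ f : tateModule W p).1 n = σ • f.1 n := rfl

end Elliptic

end Fermat.Agent.EllLocal
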