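import Fermat.Agent.EllLocal.IntCurve
import Fermat.Agent.BigImage.Unramified
import Mathlib.RingTheory.RootsOfUnity.Basic

/-!
# The tame fundamental characters

For `ϖ ^ d = q` with `d` prime to `q`, the character `σ ↦ res (σ ϖ / ϖ)` of the inertia group of a
place of `ℚ̄` over `q`: it is multiplicative, independent of choices and onto the `d`-th roots
of unity.
-/

set_option autoImplicit false

open scoped Pointwise

namespace Fermat.Agent.EllLocal

local notation "ℚ̄" => AlgebraicClosure ℚ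

variable {A : ValuationSubring ℚ̄} {q d : ℕ}

/-- The residue of `σ w / w`. -/
noncomputable def kummerRes (A : ValuationSubring (AlgebraicClosure ℚ)) (w : AlgebraicClosure ℚ)
    (σ : AlgebraicClosure ℚ ≃ₐ[ℚ] AlgebraicClosure ℚ) : kA A :=
  resFun A (σ w / w)

lemma smul_div_mem {σ : ℚ̄ ≃ₐ[ℚ] ℚ̄} (hσ : σ ∈ A.decompositionSubgroup ℚ) {w : ℚ̄} (hw : w ≠ 0) :
    A.valuation (σ w / w) = 1 := by
  rw [map_div₀, MultRed.decomp_isometry hσ, div_self (A.valuation.ne_zero_iff.2 hw)]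

lemma resFun_inertia {σ : ℚ̄ ≃ₐ[ℚ] ℚ̄} (hσ : σ ∈ A.inertiaSubgroupIn ℚ) {x : ℚ̄} (hx : x ∈ A) :
    resFun A (σ x) = resFun A x := by
  have hx' : σ x ∈ A := by
    rw [mem_iff_valuation_le, MultRed.decomp_isometry (MultRed.inertia_mem_decomposition hσ)]
    exact mem_iff_valuation_le.1 hx
  exact (resFun_eq_iff hx' hx).2 (MultRed.inertia_residue hσ x (mem_iff_valuation_le.1 hx))

/-- On inertia the residue of `σ w / w` depends only on the value of `w`. -/
theorem kummerRes_eq_of_valuation_eq {σ : ℚ̄ ≃ₐ[ℚ] ℚ̄} (hσ : σ ∈ A.inertiaSubgroupIn ℚ) {w z : ℚ̄}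
    (hw : w ≠ 0) (hz : z ≠ 0) (h : A.valuation z = A.valuation w) :
    kummerRes A z σ = kummerRes A w σ := by
  have hd := MultRed.inertia_mem_decomposition hσ
  have hu : A.valuation (z / w) = 1 := by
    rw [map_div₀, h, div_self (A.valuation.ne_zero_iff.2 hw)]
  have huA : z / w ∈ A := mem_iff_valuation_le.2 hu.le
  have hu0 : z / w ≠ 0 := div_ne_zero hz hw
  have e : σ z / z = σ w / w * (σ (z / w) / (z / w)) := by
    have : σ w ≠ 0 := by simpa using hw
    rw [map_div₀]; field_simp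
  rw [kummerRes, kummerRes, e, resFun_mul (mem_iff_valuation_le.2 (smul_div_mem hd hw).le)
    (mem_iff_valuation_le.2 (smul_div_mem hd hu0).le),
    resFun_div_of_unit (a := σ (z / w))
      (mem_iff_valuation_le.2 (by rw [MultRed.decomp_isometry hd, hu])) hu,
    resFun_inertia hσ huA, div_self, mul_one]
  rw [Ne, resFun_eq_zero_iff huA, hu]
  exact lt_irrefl _

/-- The character is multiplicative on inertia. -/
theorem kummerRes_mul {σ τ : ℚ̄ ≃ₐ[ℚ] ℚ̄} (hσ : σ ∈ A.inertiaSubgroupIn ℚ)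
    (hτ : τ ∈ A.inertiaSubgroupIn ℚ) {w : ℚ̄} (hw : w ≠ 0) :
    kummerRes A w (σ * τ) = kummerRes A w σ * kummerRes A w τ := by
  have hdσ := MultRed.inertia_mem_decomposition hσ
  have hdτ := MultRed.inertia_mem_decomposition hτ
  have hu : τ w / w ∈ A := mem_iff_valuation_le.2 (smul_div_mem hdτ hw).le
  have e : (σ * τ) w / w = σ (τ w / w) * (σ w / w) := by
    have : σ w ≠ 0 := by simpa using hw
    rw [AlgEquiv.mul_apply, map_div₀]; field_simp
  rw [kummerRes, e, resFun_mul ?_ (mem_iff_valuation_le.2 (smul_div_mem hdσ hw).le),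
    resFun_inertia hσ hu, mul_comm]
  · rfl
  · rw [mem_iff_valuation_le, MultRed.decomp_isometry hdσ]
    exact mem_iff_valuation_le.1 hu

lemma kummerRes_one {w : ℚ̄} (hw : w ≠ 0) : kummerRes A w 1 = 1 := by
  rw [kummerRes, AlgEquiv.one_apply, div_self hw, resFun_of_mem A.one_mem]
  exact map_one _

/-- Conjugation by the decomposition group acts on the character through the residue field. -/
theorem kummerRes_conj {σ τ : ℚ̄ ≃ₐ[ℚ] ℚ̄} (hσ : σ ∈ A.decompositionSubgroup ℚ)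
    (hτ : τ ∈ A.inertiaSubgroupIn ℚ) {w : ℚ̄} (hw : w ≠ 0) :
    kummerRes A w (σ * τ * σ⁻¹) =
      (⟨σ, hσ⟩ : A.decompositionSubgroup ℚ) • kummerRes A w τ := by
  have hdτ := MultRed.inertia_mem_decomposition hτ
  set u := σ⁻¹ w with hu
  have hu0 : u ≠ 0 := by simpa [hu] using hw
  have hv : A.valuation u = A.valuation w := MultRed.decomp_isometry (inv_mem hσ) w
  have hsu : σ u = w := σ.apply_symm_apply w
  have e : (σ * τ * σ⁻¹) w / w = σ (τ u / u) := by
    rw [AlgEquiv.mul_apply, AlgEquiv.mul_apply, map_div₀, hsu]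
  have hmem : τ u / u ∈ A := mem_iff_valuation_le.2 (smul_div_mem hdτ hu0).le
  rw [← kummerRes_eq_of_valuation_eq hτ hw hu0 hv, kummerRes, kummerRes, e,
    resFun_of_mem (x := σ (τ u / u)) (mem_iff_valuation_le.2 (by
      rw [MultRed.decomp_isometry hσ]; exact mem_iff_valuation_le.1 hmem)),
    resFun_of_mem hmem]
  exact IsLocalRing.ResidueField.residue_smul (R := A) (A.decompositionSubgroup ℚ) ⟨σ, hσ⟩
    (⟨_, hmem⟩ : A)

variable (hq : q.Prime) (hA : A.LiesOverPrime q) (hqd : ¬ q ∣ d)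
include hq hA hqd

/-- A `d`-th root of unity with residue one is one. -/
theorem eq_one_of_resFun_eq_one {ζ : ℚ̄} (hζ : ζ ^ d = 1) (h : resFun A ζ = 1) : ζ = 1 := by
  have hd : d ≠ 0 := fun h0 => hqd (h0 ▸ dvd_zero q)
  have hζA : ζ ∈ A := by
    rw [mem_iff_valuation_le]
    refine ((pow_left_inj₀ zero_le zero_le hd).1 ?_).le
    rw [← map_pow, hζ, map_one, one_pow]
  by_contra hne
  have hsum : ∑ i ∈ Finset.range d, ζ ^ i = 0 := by
    have h2 := geom_sum_mul ζ d
    rw [hζ, sub_self] at h2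
    exact (mul_eq_zero.1 h2).resolve_right (sub_ne_zero.2 hne)
  have hres : IsLocalRing.residue A (∑ i ∈ Finset.range d, (⟨ζ, hζA⟩ : A) ^ i) = (d : kA A) := by
    have h1 : IsLocalRing.residue A (⟨ζ, hζA⟩ : A) = 1 := (resFun_of_mem hζA).symm.trans h
    simp only [map_sum, map_pow, h1, one_pow, Finset.sum_const, Finset.card_range, nsmul_one]
  rw [show (∑ i ∈ Finset.range d, (⟨ζ, hζA⟩ : A) ^ i) = 0 from
    Subtype.ext (by push_cast; exact hsum), map_zero] at hres
  have := charP_kA hq hA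
  exact hqd ((CharP.cast_eq_zero_iff (kA A) q d).1 hres.symm)

/-- Inertia fixes the `d`-th roots of unity. -/
theorem inertia_rootOfUnity {σ : ℚ̄ ≃ₐ[ℚ] ℚ̄} (hσ : σ ∈ A.inertiaSubgroupIn ℚ) {ζ : ℚ̄}
    (hζ : ζ ^ d = 1) : σ ζ = ζ := by
  have hd : d ≠ 0 := fun h0 => hqd (h0 ▸ dvd_zero q)
  have hv : A.valuation ζ = 1 := (pow_left_inj₀ zero_le zero_le hd).1 (by
    rw [← map_pow, hζ, map_one, one_pow])
  have hζ0 : ζ ≠ 0 := fun h0 => by rw [h0, map_zero] at hv; exact zero_ne_one hv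
  have h := eq_one_of_resFun_eq_one hq hA hqd (ζ := σ ζ / ζ)
    (by rw [div_pow, ← map_pow, hζ, map_one, div_one]) (by
      rw [show resFun A (σ ζ / ζ) = kummerRes A ζ σ from rfl,
        kummerRes_eq_of_valuation_eq hσ one_ne_zero hζ0 (by rw [hv, map_one]), kummerRes,
        map_one, div_one, resFun_of_mem A.one_mem]
      exact map_one _)
  exact (div_eq_one_iff_eq hζ0).1 h

variable {ϖ : ℚ̄} (hϖ : ϖ ^ d = (q : ℚ̄))
include hϖ

omit hA in
lemma ne_zero_of_pow : ϖ ≠ 0 := by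
  have hd : d ≠ 0 := fun h0 => hqd (h0 ▸ dvd_zero q)
  rintro rfl
  rw [zero_pow hd] at hϖ
  exact hq.ne_zero (by exact_mod_cast hϖ.symm)

/-- The values are `d`-th roots of unity. -/
theorem kummerRes_pow {σ : ℚ̄ ≃ₐ[ℚ] ℚ̄} (hσ : σ ∈ A.decompositionSubgroup ℚ) :
    kummerRes A ϖ σ ^ d = 1 := by
  have h0 := ne_zero_of_pow hq hqd hϖ
  have hm : σ ϖ / ϖ ∈ A := mem_iff_valuation_le.2 (smul_div_mem hσ h0).le
  rw [kummerRes, resFun_of_mem hm, ← map_pow,
    show ((⟨_, hm⟩ : A) ^ d) = 1 from Subtype.ext (by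
      push_cast
      rw [div_pow, ← map_pow, hϖ, map_natCast,
        div_self (Nat.cast_ne_zero.2 hq.ne_zero)]), map_one]

/-- The character is onto the `d`-th roots of unity of the residue field. -/
theorem exists_kummerRes_eq {ζ : kA A} (hζ : ζ ^ d = 1) :
    ∃ σ ∈ A.inertiaSubgroupIn ℚ, kummerRes A ϖ σ = ζ := by
  classical
  have hd : d ≠ 0 := fun h0 => hqd (h0 ▸ dvd_zero q)
  have h0 := ne_zero_of_pow hq hqd hϖ
  have : NeZero d := ⟨hd⟩
  let f : A.inertiaSubgroupIn ℚ →* rootsOfUnity d (kA A) :=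
    { toFun := fun σ => rootsOfUnity.mkOfPowEq (kummerRes A ϖ σ.1)
        (kummerRes_pow hq hA hqd hϖ (MultRed.inertia_mem_decomposition σ.2))
      map_one' := Subtype.ext (Units.ext (by simpa using kummerRes_one h0))
      map_mul' := fun σ τ => Subtype.ext (Units.ext (by simpa using kummerRes_mul σ.2 τ.2 h0)) }
  set m := Nat.card f.range with hm
  have hpow : ∀ σ ∈ A.inertiaSubgroupIn ℚ, kummerRes A ϖ σ ^ m = 1 := fun σ hσ => by
    have h := pow_card_eq_one' (x := (⟨f ⟨σ, hσ⟩, ⟨σ, hσ⟩, rfl⟩ : f.range))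
    have h2 := congrArg (fun x : f.range => (((x : rootsOfUnity d (kA A)) : (kA A)ˣ) : kA A)) h
    simpa [f, hm] using h2
  -- `ϖ ^ m` is fixed by inertia, so its value is an integral power of that of `q`
  have hfix : ∀ σ ∈ A.inertiaSubgroupIn ℚ, σ (ϖ ^ m) = ϖ ^ m := by
    intro σ hσ
    have hdσ := MultRed.inertia_mem_decomposition hσ
    have hmem : σ ϖ / ϖ ∈ A := mem_iff_valuation_le.2 (smul_div_mem hdσ h0).le
    have hroot : (σ ϖ / ϖ) ^ d = 1 := by
      rw [div_pow, ← map_pow, hϖ, map_natCast, div_self (Nat.cast_ne_zero.2 hq.ne_zero)]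
    have h1 := eq_one_of_resFun_eq_one hq hA hqd (ζ := (σ ϖ / ϖ) ^ m)
      (by rw [← pow_mul, mul_comm, pow_mul, hroot, one_pow]) (by
        rw [resFun_of_mem (pow_mem hmem m), ← hpow σ hσ, kummerRes, resFun_of_mem hmem, ← map_pow]
        rfl)
    rw [map_pow]
    rwa [div_pow, div_eq_one_iff_eq (pow_ne_zero m h0)] at h1
  have hS : ((fun η : ℚ̄ => η * ϖ ^ m) '' {η | η ^ d = 1}).Finite := by
    refine Set.Finite.image _ ?_
    refine ((Polynomial.nthRootsFinset d (1 : ℚ̄)).finite_toSet).subset fun η hη => ?_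
    exact Finset.mem_coe.2 ((Polynomial.mem_nthRootsFinset (Nat.pos_of_ne_zero hd) _).2 hη)
  obtain ⟨k, hk⟩ := BigImage.exists_valuation_eq_zpow_of_stable hq hA hS
    (fun g s ⟨η, hη, hs⟩ => ⟨g η * (g ϖ / ϖ) ^ m, by
      show (g η * (g ϖ / ϖ) ^ m) ^ d = 1
      rw [mul_pow, ← map_pow, hη, map_one, one_mul, ← pow_mul, mul_comm, pow_mul, div_pow,
        ← map_pow, hϖ, map_natCast, div_self (Nat.cast_ne_zero.2 hq.ne_zero), one_pow], by
      rw [← hs, map_mul, map_pow, div_pow]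
      field_simp⟩)
    (fun σ hσ s ⟨η, hη, hs⟩ => by
      rw [← hs, map_mul, hfix σ hσ, inertia_rootOfUnity hq hA hqd hσ hη])
    (IntermediateField.subset_adjoin ℚ _ ⟨1, one_pow d, one_mul _⟩) (pow_ne_zero m h0)
  have hdm : d ∣ m := by
    have h2 : A.valuation (q : ℚ̄) ^ (m : ℤ) = A.valuation (q : ℚ̄) ^ (k * d) := by
      rw [zpow_mul, ← hk, zpow_natCast, zpow_natCast, ← hϖ, ← map_pow, ← map_pow, ← pow_mul,
        ← pow_mul, mul_comm]
    have h3 := (zpow_right_strictAnti₀ (MultRed.vq_pos hq) (MultRed.vq_lt_one hA)).injective h2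
    exact Int.natCast_dvd_natCast.1 ⟨k, by rw [h3, mul_comm]⟩
  have hcard : Nat.card (rootsOfUnity d (kA A)) ≤ d := by
    exact card_rootsOfUnity _ d
  have hle : m ≤ Nat.card (rootsOfUnity d (kA A)) := Subgroup.card_le_card_group f.range
  have hmpos : 0 < m := Nat.card_pos
  have htop : f.range = ⊤ :=
    Subgroup.eq_top_of_le_card _ (hcard.trans ((Nat.le_of_dvd hmpos hdm)))
  obtain ⟨σ, hσ⟩ := (MonoidHom.range_eq_top.1 htop) (rootsOfUnity.mkOfPowEq ζ hζ)
  exact ⟨σ.1, σ.2, by simpa [f] using congrArg (fun x : rootsOfUnity d (kA A) => ((x : (kA A)ˣ) : kA A)) hσ⟩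

end Fermat.Agent.EllLocal
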