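import Fermat.Agent.EllLocal.TorsionLift
import Fermat.Agent.EllTorsion.Transfer
import Fermat.Agent.MultRed.Galois
import Fermat.Prelude.Def_FLTPrelim_Modularity

/-!
# Reduction of an integral curve at a place of `ℚ̄` over a prime of good reduction
-/

set_option autoImplicit false

open Polynomial WeierstrassCurve
open scoped WeierstrassCurve.Affine Pointwise

namespace Fermat.Agent.EllLocal

/-- The residue field of a valuation subring of an algebraically closed field is algebraically
closed. -/
theorem isAlgClosed_residueField {L : Type*} [Field L] [IsAlgClosed L] (A : ValuationSubring L) :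
    IsAlgClosed (IsLocalRing.ResidueField A) := by
  classical
  refine IsAlgClosed.of_exists_root _ fun p hmon hirr => ?_
  obtain ⟨q, hq, hdeg, hqm⟩ := lifts_and_degree_eq_and_monic
    ((mem_lifts p).2 (map_surjective _ IsLocalRing.residue_surjective p)) hmon
  have hroot : (q.map (IsLocalRing.residue A)).natDegree ≠ 0 := by
    rw [hq]; exact (natDegree_pos_iff_degree_pos.2 (degree_pos_of_irreducible hirr)).ne'
  by_contra hcon
  push Not at hcon
  have hall : ∀ r : L, (q.map A.subtype).IsRoot r → r ∈ A := by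
    intro r hr
    by_contra hrA
    have hlt := not_mem_iff_one_lt.1 hrA
    have hr0 : r ≠ 0 := fun h0 => hrA (h0 ▸ A.zero_mem)
    have hn : 0 < q.natDegree := by
      rw [hqm.natDegree_map] at hroot; omega
    have h := hr.eq_zero
    rw [eval_map, eval₂_eq_sum_range, Finset.sum_range_succ, hqm.coeff_natDegree, map_one,
      one_mul, add_comm, add_eq_zero_iff_eq_neg] at h
    have hle : A.valuation (r ^ q.natDegree) ≤ A.valuation r ^ (q.natDegree - 1) := by
      rw [h, Valuation.map_neg]
      refine A.valuation.map_sum_le fun i hi => ?_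
      rw [map_mul, map_pow]
      exact (mul_le_of_le_one_left zero_le ((A.valuation_le_one _))).trans
        (pow_le_pow_right₀ hlt.le (Nat.le_sub_one_of_lt (Finset.mem_range.1 hi)))
    rw [map_pow] at hle
    exact absurd hle (not_le.2 (pow_lt_pow_right₀ hlt (by omega)))
  obtain ⟨hlift, -⟩ := reduction_roots_of_splits q (IsAlgClosed.splits _)
    (by rw [hq]; exact hmon.ne_zero)
  obtain ⟨r, hr⟩ := IsAlgClosed.exists_root (q.map A.subtype) (by
    rw [degree_eq_natDegree (hqm.map _).ne_zero]
    exact_mod_cast (hqm.natDegree_map A.subtype).trans_ne (hqm.natDegree_map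
      (IsLocalRing.residue A) ▸ hroot))
  have := congrArg (IsLocalRing.residue A) (Subtype.val_injective (p := (· ∈ A))
    (show ((q.eval ⟨r, hall r hr⟩ : A) : L) = ((0 : A) : L) from by
      rw [ZeroMemClass.coe_zero, ← hr.eq_zero, eval_map]
      exact (eval₂_at_apply A.subtype ⟨r, hall r hr⟩).symm))
  rw [map_zero, ← eval₂_at_apply, ← eval_map, hq] at this
  exact hcon _ this

local notation "ℚ̄" => AlgebraicClosure ℚ

/-- The residue field of a place of `ℚ̄`. -/
abbrev kA (A : ValuationSubring (AlgebraicClosure ℚ)) : Type := IsLocalRing.ResidueField A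

noncomputable local instance instDecEqKA (A : ValuationSubring (AlgebraicClosure ℚ)) :
    DecidableEq (kA A) := Classical.decEq _

/-- The reduced curve over the residue field. -/
noncomputable abbrev curveK (W : WeierstrassCurve ℤ) (A : ValuationSubring (AlgebraicClosure ℚ)) :
    WeierstrassCurve.Affine (kA A) :=
  (W.map (Int.castRingHom (kA A))).toAffine

/-- A field endomorphism of the residue field acting on the points of the reduced curve. -/
noncomputable def resMap (W : WeierstrassCurve ℤ) {A : ValuationSubring (AlgebraicClosure ℚ)}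
    (τ : kA A →+* kA A) : (curveK W A).Point →+ (curveK W A).Point :=
  MultRed.pointEndo τ (by
    rw [WeierstrassCurve.map_map]; exact congrArg W.map (RingHom.ext_int _ _))

lemma resMap_some (W : WeierstrassCurve ℤ) {A : ValuationSubring (AlgebraicClosure ℚ)}
    (τ : kA A →+* kA A) {a b : kA A} (h : (curveK W A).Nonsingular a b) :
    ∃ h', resMap W τ (.some a b h) = .some (τ a) (τ b) h' :=
  ⟨_, rfl⟩

variable {W : WeierstrassCurve ℤ} {A : ValuationSubring ℚ̄} {l : ℕ}

/-- The curve over the valuation ring. -/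
noncomputable abbrev curveA (W : WeierstrassCurve ℤ) (A : ValuationSubring (AlgebraicClosure ℚ)) :
    WeierstrassCurve A :=
  W.map (Int.castRingHom A)

lemma natCast_residue_eq_zero (hA : A.LiesOverPrime l) : (l : kA A) = 0 := by
  have : IsLocalRing.residue A (l : A) = 0 :=
    (IsLocalRing.residue_eq_zero_iff _).2 ((A.valuation_lt_one_iff _).2
      (by simpa using MultRed.vq_lt_one hA))
  simpa using this

lemma charP_kA (hl : l.Prime) (hA : A.LiesOverPrime l) : CharP (kA A) l := by
  have := Fact.mk hl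
  exact (CharP.charP_iff_prime_eq_zero hl).2 (natCast_residue_eq_zero hA)

lemma isElliptic_curveA (hl : l.Prime) (hA : A.LiesOverPrime l) (hgood : W.IsGoodPrimeFor l) :
    (curveA W A).IsElliptic := by
  refine ⟨?_⟩
  rw [WeierstrassCurve.map_Δ]
  refine (A.valuation_eq_one_iff _).2 ?_
  simpa using MultRed.vint_eq_one hl hA hgood

lemma genericFibre_curveA :
    ((W.map (Int.castRingHom ℚ))⁄ℚ̄ : WeierstrassCurve.Affine ℚ̄) = genericFibre (curveA W A) := by
  show (W.map _).map _ = (W.map _).map _
  rw [WeierstrassCurve.map_map, WeierstrassCurve.map_map]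
  exact congrArg W.map (RingHom.ext_int _ _)

lemma specialFibre_curveA :
    (specialFibre (curveA W A) : WeierstrassCurve.Affine (kA A)) = curveK W A := by
  show (W.map _).map _ = W.map _
  rw [WeierstrassCurve.map_map]
  exact congrArg W.map (RingHom.ext_int _ _)

/-- An integral curve with good reduction at `l`, seen at the place `A` over `l`. -/
noncomputable def residueRed (hl : l.Prime) (hA : A.LiesOverPrime l) (hgood : W.IsGoodPrimeFor l) :
    ((W.map (Int.castRingHom ℚ))⁄ℚ̄).Point →+ (curveK W A).Point :=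
  haveI := isElliptic_curveA hl hA hgood
  ((EllTorsion.pointCongr specialFibre_curveA).toAddMonoidHom.comp (redHom (curveA W A))).comp
    (EllTorsion.pointCongr genericFibre_curveA).toAddMonoidHom

variable (hl : l.Prime) (hA : A.LiesOverPrime l) (hgood : W.IsGoodPrimeFor l)
include hl hA hgood

/-- The kernel is the subgroup of points reducing to the origin. -/
theorem residueRed_eq_zero_iff (P : ((W.map (Int.castRingHom ℚ))⁄ℚ̄).Point) :
    residueRed hl hA hgood P = 0 ↔ MultRed.InE1At W A P := by
  have := isElliptic_curveA hl hA hgood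
  simp only [residueRed, AddMonoidHom.comp_apply, AddEquiv.coe_toAddMonoidHom,
    EmbeddingLike.map_eq_zero_iff, redHom_apply, redPoint_eq_zero_iff]
  rcases P with _ | ⟨x, y, h⟩
  · rw [show (WeierstrassCurve.Affine.Point.zero :
      ((W.map (Int.castRingHom ℚ))⁄ℚ̄).Point) = 0 from rfl, map_zero]
    exact Iff.rfl
  · rw [EllTorsion.pointCongr_some]; exact Iff.rfl

lemma residueRed_some_of_mem {x y : ℚ̄}
    (h : ((W.map (Int.castRingHom ℚ))⁄ℚ̄).Nonsingular x y) (hx : x ∈ A) :
    ∃ h', residueRed hl hA hgood (.some x y h) = .some (resFun A x) (resFun A y) h' := by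
  have := isElliptic_curveA hl hA hgood
  refine ⟨specialFibre_curveA ▸ Affine.equation_iff_nonsingular.mp
    (equation_resFun (genericFibre_curveA (W := W) (A := A) ▸ h).1 hx), ?_⟩
  simp only [residueRed, AddMonoidHom.comp_apply, AddEquiv.coe_toAddMonoidHom,
    EllTorsion.pointCongr_some, redHom_apply, redPoint_some_of_mem _ hx, Affine.Point.mk]

lemma residueRed_some_of_not_mem {x y : ℚ̄}
    (h : ((W.map (Int.castRingHom ℚ))⁄ℚ̄).Nonsingular x y) (hx : x ∉ A) :
    residueRed hl hA hgood (.some x y h) = 0 :=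
  (residueRed_eq_zero_iff hl hA hgood _).2 (not_mem_iff_one_lt.1 hx)

/-- Reduction is injective on torsion of order prime to `l`. -/
theorem eq_of_residueRed_eq {n : ℕ} (hn : ¬ l ∣ n)
    {P R : ((W.map (Int.castRingHom ℚ))⁄ℚ̄).Point} (hP : n • P = 0) (hR : n • R = 0)
    (h : residueRed hl hA hgood P = residueRed hl hA hgood R) : P = R := by
  rw [← sub_eq_zero, ← map_sub, residueRed_eq_zero_iff] at h
  exact sub_eq_zero.1
    (MultRed.inE1_eq_zero_of_nsmul hl hA h hn (by rw [nsmul_sub, hP, hR, sub_zero]))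

/-- Reduction is surjective on `n`-torsion for every `n ≠ 0`. -/
theorem exists_residueRed_eq {n : ℕ} (hn : n ≠ 0) {Q : (curveK W A).Point} (hQ : n • Q = 0) :
    ∃ P : ((W.map (Int.castRingHom ℚ))⁄ℚ̄).Point, n • P = 0 ∧ residueRed hl hA hgood P = Q := by
  have := isElliptic_curveA hl hA hgood
  obtain ⟨P, hP, hPQ⟩ := exists_redHom_eq_of_nsmul_eq_zero (curveA W A) hn
    (Q := (EllTorsion.pointCongr specialFibre_curveA).symm Q)
    (by rw [← map_nsmul, hQ, map_zero])
  refine ⟨(EllTorsion.pointCongr genericFibre_curveA).symm P,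
    by rw [← map_nsmul, hP, map_zero], ?_⟩
  simp only [residueRed, AddMonoidHom.comp_apply, AddEquiv.coe_toAddMonoidHom,
    AddEquiv.apply_symm_apply, hPQ]

/-- For `n` divisible by `l` there is nonzero `n`-torsion in the kernel of reduction. -/
theorem exists_ne_zero_residueRed_eq_zero {n : ℕ} (hn : n ≠ 0) (hdvd : l ∣ n) :
    ∃ P : ((W.map (Int.castRingHom ℚ))⁄ℚ̄).Point,
      P ≠ 0 ∧ n • P = 0 ∧ residueRed hl hA hgood P = 0 := by
  have := isElliptic_curveA hl hA hgood
  have hk : (n : kA A) = 0 := by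
    obtain ⟨m, rfl⟩ := hdvd
    rw [Nat.cast_mul, natCast_residue_eq_zero hA, zero_mul]
  obtain ⟨P, hP0, hP, hPk⟩ := exists_ne_zero_redHom_eq_zero (curveA W A)
    (hl.two_le.trans (Nat.le_of_dvd (Nat.pos_of_ne_zero hn) hdvd)) (Nat.cast_ne_zero.mpr hn) hk
  refine ⟨(EllTorsion.pointCongr genericFibre_curveA).symm P, ?_, by rw [← map_nsmul, hP, map_zero],
    ?_⟩
  · exact fun h => hP0 (by simpa using h)
  · simp only [residueRed, AddMonoidHom.comp_apply, AddEquiv.coe_toAddMonoidHom,
      AddEquiv.apply_symm_apply, hPk, map_zero]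

/-- Decomposition automorphisms act on the reduction through the residue field. -/
theorem residueRed_smul {σ : ℚ̄ ≃ₐ[ℚ] ℚ̄} (hσ : σ ∈ A.decompositionSubgroup ℚ)
    (P : ((W.map (Int.castRingHom ℚ))⁄ℚ̄).Point) :
    residueRed hl hA hgood (σ • P) =
      resMap W (MulSemiringAction.toRingAut (A.decompositionSubgroup ℚ) (kA A) ⟨σ, hσ⟩).toRingHom
        (residueRed hl hA hgood P) := by
  rcases P with _ | ⟨x, y, h⟩
  · rw [show (WeierstrassCurve.Affine.Point.zero :
      ((W.map (Int.castRingHom ℚ))⁄ℚ̄).Point) = 0 from rfl, show σ • (0 : ((W.map (Int.castRingHom ℚ))⁄ℚ̄).Point) = 0 from rfl,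
      map_zero, map_zero]
  have hmem : ∀ z, σ z ∈ A ↔ z ∈ A := fun z => by
    rw [mem_iff_valuation_le, mem_iff_valuation_le, MultRed.decomp_isometry hσ]
  have hres : ∀ z ∈ A, resFun A (σ z) =
      MulSemiringAction.toRingAut (A.decompositionSubgroup ℚ) (kA A) ⟨σ, hσ⟩ (resFun A z) := by
    intro z hz
    rw [resFun_of_mem hz, resFun_of_mem ((hmem z).2 hz)]
    exact IsLocalRing.ResidueField.residue_smul (R := A) (A.decompositionSubgroup ℚ) ⟨σ, hσ⟩
      (⟨z, hz⟩ : A)
  obtain ⟨h', he⟩ : ∃ h', σ • Affine.Point.some x y h = Affine.Point.some (σ x) (σ y) h' :=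
    ⟨_, rfl⟩
  rw [he]
  by_cases hx : x ∈ A
  · have hy : y ∈ A := mem_iff_valuation_le.2
      (MultRed.vy_le MultRed.intCoeffs_curveQbar h.1 (mem_iff_valuation_le.1 hx))
    obtain ⟨h₁, e₁⟩ := residueRed_some_of_mem hl hA hgood h hx
    obtain ⟨h₂, e₂⟩ := residueRed_some_of_mem hl hA hgood h' ((hmem x).2 hx)
    rw [e₁, e₂]
    obtain ⟨h₃, e₃⟩ := resMap_some W _ h₁
    rw [e₃]
    simp only [Affine.Point.some.injEq]
    exact ⟨hres x hx, hres y hy⟩
  · rw [residueRed_some_of_not_mem hl hA hgood h hx,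
      residueRed_some_of_not_mem hl hA hgood h' (fun hc => hx ((hmem x).1 hc)), map_zero]

/-- Inertia does not change the reduction. -/
theorem residueRed_inertia_smul {σ : ℚ̄ ≃ₐ[ℚ] ℚ̄} (hσ : σ ∈ A.inertiaSubgroupIn ℚ)
    (P : ((W.map (Int.castRingHom ℚ))⁄ℚ̄).Point) :
    residueRed hl hA hgood (σ • P) = residueRed hl hA hgood P := by
  rw [residueRed_smul hl hA hgood (MultRed.inertia_mem_decomposition hσ)]
  obtain ⟨τ, hτ, rfl⟩ := hσ
  have : ∀ z, MulSemiringAction.toRingAut (A.decompositionSubgroup ℚ) (kA A) τ z = z := fun z =>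
    RingEquiv.congr_fun (MonoidHom.mem_ker.1 hτ) z
  generalize residueRed hl hA hgood P = Q
  rcases Q with _ | ⟨a, b, hab⟩
  · rfl
  · obtain ⟨h₃, e₃⟩ := resMap_some W _ hab
    rw [e₃]
    simp only [Affine.Point.some.injEq]
    exact ⟨this a, this b⟩

end Fermat.Agent.EllLocal
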