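import Fermat.Agent.EllLocal.UnitRoot

/-!
# Torsion of a curve with good ordinary reduction as a module over the decomposition group
-/

set_option autoImplicit false

open WeierstrassCurve
open scoped WeierstrassCurve.Affine Pointwise

namespace Fermat.Agent.EllLocal

local notation "ℚ̄" => AlgebraicClosure ℚ

attribute [local instance] instDecEqKA

variable {W : WeierstrassCurve ℤ} {A : ValuationSubring ℚ̄} {p : ℕ} [hpF : Fact p.Prime]
  [(W.map (Int.castRingHom ℚ)).IsElliptic]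
  (hA : A.LiesOverPrime p) (hgood : W.IsGoodPrimeFor p)

omit [(W.map (Int.castRingHom ℚ)).IsElliptic] in
lemma coeff_smul_apply (b : Module.Basis (Fin 2) ℤ_[p] (tateModule (W.map (Int.castRingHom ℚ)) p))
    (σ : ℚ̄ ≃ₐ[ℚ] ℚ̄) (i : Fin 2) (n : ℕ) :
    σ • (b i).1 n = coeffNat (b.repr (tateAct σ (b i)) 0) n • (b 0).1 n +
      coeffNat (b.repr (tateAct σ (b i)) 1) n • (b 1).1 n :=
  apply_eq_coords b (tateAct σ (b i)) n

include hA hgood in
/-- The decomposition group acts on `E[pⁿ]` through a triangular matrix with diagonal `(x, z)`: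
`x z` is cyclotomic, `z` is `1` on inertia and a root of `X² - a_p X + p` at a Frobenius. -/
theorem exists_ordinary_shape (hord : OrdinaryRedAt W A p) (n : ℕ) :
    ∃ P₁ P₂ : PtQ (W.map (Int.castRingHom ℚ)), p ^ n • P₁ = 0 ∧ p ^ n • P₂ = 0 ∧
      (∀ P, p ^ n • P = 0 → ∃ i j : ℕ, P = i • P₁ + j • P₂) ∧
      (∀ i j : ℕ, i • P₁ + j • P₂ = 0 → p ^ n ∣ i ∧ p ^ n ∣ j) ∧
      redAt hA hgood P₁ = 0 ∧ addOrderOf (redAt hA hgood P₂) = p ^ n ∧
      ∀ σ ∈ A.decompositionSubgroup ℚ, ∀ a : ℕ, (∀ μ : ℚ̄, μ ^ p ^ n = 1 → σ μ = μ ^ a) →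
        ∃ x z c : ℕ, σ • P₁ = x • P₁ ∧ σ • P₂ = z • P₂ + c • P₁ ∧
          ((x * z : ℕ) : ZMod (p ^ n)) = a ∧
          (σ ∈ A.inertiaSubgroupIn ℚ → (z : ZMod (p ^ n)) = 1 ∧ (x : ZMod (p ^ n)) = a) ∧
          (A.IsFrobeniusAt σ p → (z : ZMod (p ^ n)) ^ 2 -
            (W.apOfModel p : ZMod (p ^ n)) * (z : ZMod (p ^ n)) + (p : ZMod (p ^ n)) = 0) := by
  obtain ⟨b, hb₀, hb₁⟩ := exists_ordinary_basis hA hgood hord
  refine ⟨(b 0).1 n, (b 1).1 n, tateModule_pow _ n, tateModule_pow _ n, pow_coe_apply b n, ?_,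
    hb₀ n, addOrderOf_redAt hA hgood hb₁ n, fun σ hσ a ha => ?_⟩
  · intro i j hij
    have hj : p ^ n ∣ j := by
      have := congrArg (redAt hA hgood) hij
      rw [map_add, map_nsmul, map_nsmul, hb₀, nsmul_zero, zero_add, map_zero,
        ← addOrderOf_dvd_iff_nsmul_eq_zero, addOrderOf_redAt hA hgood hb₁] at this
      exact this
    refine ⟨?_, hj⟩
    obtain ⟨c, rfl⟩ := hj
    rw [mul_comm (p ^ n) c, mul_nsmul' _ c, tateModule_pow, nsmul_zero, add_zero,
      ← addOrderOf_dvd_iff_nsmul_eq_zero] at hij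
    refine dvd_trans (dvd_of_eq ?_) hij
    rcases n with _ | m
    · rw [pow_zero, eq_comm, AddMonoid.addOrderOf_eq_one_iff]
      simpa using tateModule_pow (b 0) 0
    refine (addOrderOf_eq_prime_pow ?_ (tateModule_pow _ _)).symm
    have h := tateModule_pow_add (b 0) 1 m
    rw [Nat.add_comm 1 m] at h
    rw [h]
    intro h0
    obtain ⟨g, hg⟩ := exists_eq_pow_smul_of_apply_eq_zero (b 0) 1 h0
    have := congrArg (fun v => b.repr v 0) hg
    simp only [pow_one, map_smul, Finsupp.smul_apply, smul_eq_mul, Module.Basis.repr_self,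
      Finsupp.single_eq_same] at this
    exact PadicInt.prime_p.not_isUnit (IsUnit.of_mul_eq_one _ this)
  have hx : b.repr (tateAct σ (b 0)) 1 = 0 := repr_rho_zero_one hA hgood hb₀ hb₁ hσ
  have hd := toZModPow_diagonal hA hgood hb₀ hb₁ hσ ha
  refine ⟨coeffNat (b.repr (tateAct σ (b 0)) 0) n, coeffNat (b.repr (tateAct σ (b 1)) 1) n,
    coeffNat (b.repr (tateAct σ (b 1)) 0) n, ?_, ?_, ?_, fun hI => ?_, fun hF => ?_⟩
  · rw [coeff_smul_apply b σ 0 n, hx, show coeffNat (0 : ℤ_[p]) n = 0 by simp [coeffNat],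
      zero_nsmul, add_zero]
  · rw [coeff_smul_apply b σ 1 n, add_comm]
  · rw [Nat.cast_mul, coeffNat_cast, coeffNat_cast, ← map_mul, hd]
  · have h := repr_rho_sub_one hA hgood hb₀ hb₁ hI (b 1)
    rw [map_sub, Finsupp.sub_apply, sub_eq_zero] at h
    rw [h, Module.Basis.repr_self, Finsupp.single_eq_same, mul_one] at hd
    rw [coeffNat_cast, coeffNat_cast, h, Module.Basis.repr_self, Finsupp.single_eq_same, map_one]
    exact ⟨rfl, hd⟩
  · have h := congrArg (PadicInt.toZModPow n) (frobenius_quotient_root hA hgood hb₀ hb₁ hF)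
    simpa [coeffNat_cast] using h

end Fermat.Agent.EllLocal
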