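import Fermat.Agent.EllLocal.BoundAux
import Fermat.Agent.EllLocal.OrdinaryShape

/-!
# The ramification bound for `E[p]` at an odd prime of good reduction

The field cut out by `E[p]` satisfies Fontaine's property for every `γ > p / (p - 1)`.
-/

set_option autoImplicit false

open Polynomial WeierstrassCurve
open scoped WeierstrassCurve.Affine Pointwise

namespace Fermat.Agent.EllLocal

open Fermat.Agent.MultRed Fermat.Agent.FlatJ0

local notation "ℚ̄" => AlgebraicClosure ℚ

attribute [local instance] instDecEqKA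

/-- The abscissa, with junk value at the origin. -/
noncomputable def xCoord {W : WeierstrassCurve ℚ} : PtQ W → AlgebraicClosure ℚ
  | .zero => 0
  | .some x _ _ => x

lemma xCoord_smul {W : WeierstrassCurve ℚ} (σ : ℚ̄ ≃ₐ[ℚ] ℚ̄) (P : PtQ W) :
    xCoord (σ • P) = σ (xCoord P) := by
  rcases P with _ | ⟨x, y, h⟩
  · exact (map_zero σ).symm
  · rfl

variable {W : WeierstrassCurve ℤ} {A : ValuationSubring ℚ̄} {p : ℕ} [hpF : Fact p.Prime]
  [(W.map (Int.castRingHom ℚ)).IsElliptic]

omit hpF [(W.map (Int.castRingHom ℚ)).IsElliptic] in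
lemma zPar_smul (σ : ℚ̄ ≃ₐ[ℚ] ℚ̄) (P : PtQ (W.map (Int.castRingHom ℚ))) :
    zPar (curveQbar W) (σ • P) = σ (zPar (curveQbar W) P) := by
  rcases P with _ | ⟨x, y, h⟩
  · exact (map_zero σ).symm
  · exact (map_div₀ σ x y).symm

variable (hA : A.LiesOverPrime p) (hp2 : p ≠ 2) (hgood : W.IsGoodPrimeFor p)
include hA hgood

omit [(W.map (Int.castRingHom ℚ)).IsElliptic] in
lemma inE1At_of_redAt {P : PtQ (W.map (Int.castRingHom ℚ))} (h : redAt hA hgood P = 0) :
    InE1 A.valuation (curveQbar W) P :=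
  (residueRed_eq_zero_iff hpF.out hA hgood P).1 h

/-- The parameter of a non-zero point of the kernel of reduction killed by `p`, at a place of
ordinary reduction, has value `|p| ^ (1 / (p - 1))`. -/
theorem valuation_zPar_kernel (hord : OrdinaryRedAt W A p)
    {P : PtQ (W.map (Int.castRingHom ℚ))} (hP : p • P = 0) (h0 : P ≠ 0)
    (hk : redAt hA hgood P = 0) :
    A.valuation (zPar (curveQbar W) P) ^ (p - 1) = A.valuation (p : ℚ̄) := by
  classical
  have hp := hpF.out
  set v := A.valuation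
  have hW : IntCoeffs v (curveQbar W) := intCoeffs_curveQbar
  have hE := inE1At_of_redAt hA hgood hk
  set z := zPar (curveQbar W) P
  obtain ⟨hz1, hz0⟩ := zPar_facts hW hE
  have hz0' : z ≠ 0 := hz0 h0
  have hzpos : 0 < v z := lt_of_le_of_ne zero_le (v.ne_zero_iff.2 hz0').symm
  have hpp : 0 < v (p : ℚ̄) := vq_pos hp
  -- multiples of `P`
  have hmul : ∀ n : ℕ, v (zPar (curveQbar W) (n • P) - (n : ℚ̄) * z) ≤ v z ^ 2 := fun n =>
    (inE1_nsmul hW hE hz1 n).2.2
  have hsq : v z ^ 2 < v z := by rw [pow_two]; exact mul_lt_of_lt_one_left hzpos hz1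
  have hle : v (p : ℚ̄) ≤ v z := by
    have h1 := hmul p
    rw [hP, zPar_zero, zero_sub, Valuation.map_neg, map_mul, pow_two] at h1
    exact le_of_mul_le_mul_right h1 hzpos
  -- inertia acts on `P` by the cyclotomic character
  obtain ⟨P₁, P₂, hP₁, hP₂, hgen, -, hk₁, hord₂, hact⟩ := exists_ordinary_shape hA hgood hord 1
  obtain ⟨i, j, hij⟩ := hgen P (by rw [pow_one]; exact hP)
  have hj : p ^ 1 • P₂ = 0 ∧ P = i • P₁ := by
    have h1 := congrArg (redAt hA hgood) hij
    rw [hk, map_add, map_nsmul, map_nsmul, hk₁, nsmul_zero, zero_add] at h1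
    obtain ⟨c, rfl⟩ := (hord₂ ▸ addOrderOf_dvd_iff_nsmul_eq_zero.2 h1.symm : p ^ 1 ∣ j)
    exact ⟨hP₂, by rw [hij, mul_comm, mul_nsmul', hP₂, nsmul_zero, add_zero]⟩
  have hsmul : ∀ σ ∈ A.inertiaSubgroupIn ℚ, ∀ a : ℕ,
      (∀ μ : ℚ̄, μ ^ p ^ 1 = 1 → σ μ = μ ^ a) → σ • P = a • P := by
    intro σ hσ a ha
    obtain ⟨x, z', c, hx, -, -, hI, -⟩ := hact σ (inertia_mem_decomposition hσ) a ha
    rw [hj.2, Affine.Point.algEquiv_smul_def, map_nsmul, ← Affine.Point.algEquiv_smul_def, hx,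
      nsmul_congr_of_cast hP₁ (hI hσ).2, ← mul_nsmul', ← mul_nsmul', mul_comm]
  -- the value is an integral power
  let F : ℚ̄ := ∏ c : (ZMod p)ˣ, zPar (curveQbar W) ((c : ZMod p).val • P)
  have hvc : ∀ c : (ZMod p)ˣ, v (zPar (curveQbar W) ((c : ZMod p).val • P)) = v z := by
    intro c
    have hc : v (((c : ZMod p).val : ℕ) : ℚ̄) = 1 := vnat_eq_one hp hA fun hd =>
      c.ne_zero ((ZMod.val_eq_zero _).1 (Nat.eq_zero_of_dvd_of_lt hd (ZMod.val_lt _)))
    have h1 := v.map_add_eq_of_lt_left (x := ((c : ZMod p).val : ℚ̄) * z)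
      (y := zPar (curveQbar W) ((c : ZMod p).val • P) - ((c : ZMod p).val : ℚ̄) * z)
      (by rw [map_mul, hc, one_mul]; exact (hmul _).trans_lt hsq)
    rw [add_sub_cancel, map_mul, hc, one_mul] at h1
    exact h1
  have hF : v F = v z ^ (p - 1) := by
    show v (∏ c : (ZMod p)ˣ, _) = _
    rw [map_prod, Finset.prod_congr rfl fun c _ => hvc c, Finset.prod_const, Finset.card_univ,
      ZMod.card_units]
  have hFfix : ∀ σ ∈ A.inertiaSubgroupIn ℚ, σ F = F := by
    intro σ hσ
    obtain ⟨a, ha, -⟩ := exists_exponent_succ (p := p) σ (n := 0) (a := 1) (by simp)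
    have hau : IsUnit (a : ZMod p) := by
      rw [isUnit_iff_ne_zero, Ne, ZMod.natCast_eq_zero_iff]
      intro hd
      obtain ⟨c, rfl⟩ := hd
      refine h0 ((Affine.Point.map_injective (σ : ℚ̄ →ₐ[ℚ] ℚ̄)) ?_)
      rw [map_zero, show Affine.Point.map (σ : ℚ̄ →ₐ[ℚ] ℚ̄) P = σ • P from rfl, hsmul σ hσ _ ha,
        mul_comm, mul_nsmul', hP, nsmul_zero]
    show σ (∏ c : (ZMod p)ˣ, _) = _
    rw [map_prod]
    refine Fintype.prod_equiv (Equiv.mulLeft hau.unit) _ _ fun c => ?_
    rw [← zPar_smul]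
    congr 1
    rw [Affine.Point.algEquiv_smul_def, map_nsmul, ← Affine.Point.algEquiv_smul_def,
      hsmul σ hσ a ha, ← mul_nsmul']
    refine nsmul_congr_of_cast hP ?_
    rw [Nat.cast_mul, ZMod.natCast_zmod_val, ZMod.natCast_zmod_val, Equiv.coe_mulLeft,
      Units.val_mul, IsUnit.unit_spec]
    ring
  have hF0 : F ≠ 0 := fun e => by
    have := hF
    rw [e, map_zero] at this
    exact (pow_pos hzpos _).ne this
  obtain ⟨k, hk'⟩ := exists_valuation_eq_zpow_of_fixed hp hA hF0 hFfix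
  change v F = v (p : ℚ̄) ^ k at hk'
  rw [hF] at hk'
  have hk1 : 1 ≤ k := by
    by_contra hc
    have h1 : (1 : _) ≤ v (p : ℚ̄) ^ k :=
      one_le_zpow_of_nonpos₀ hpp (vq_lt_one hA).le (by omega)
    rw [← hk'] at h1
    exact absurd h1 (not_le.2 (pow_lt_one₀ zero_le hz1 (by have := hp.two_le; omega)))
  have hk2 : k ≤ (p - 1 : ℕ) := by
    have h1 : v (p : ℚ̄) ^ ((p - 1 : ℕ) : ℤ) ≤ v (p : ℚ̄) ^ k := by
      rw [zpow_natCast, ← hk']; exact pow_le_pow_left₀ zero_le hle _
    exact (zpow_le_zpow_iff_right_of_lt_one₀ hpp (vq_lt_one hA)).1 h1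
  obtain ⟨k, rfl⟩ := Int.eq_ofNat_of_zero_le (le_trans zero_le_one hk1)
  rw [zpow_natCast] at hk'
  rw [hk']
  suffices hk : k = 1 by rw [hk, pow_one]
  -- compare the characters
  have hd : ¬ p ∣ p - 1 := fun hd => by
    have := Nat.le_of_dvd (by have := hp.two_le; omega) hd
    omega
  have hd0 : 0 < p - 1 := by have := hp.two_le; omega
  have : NeZero p := ⟨hp.ne_zero⟩
  have : NeZero ((p : ℕ) : ℚ̄) := ⟨Nat.cast_ne_zero.2 hp.ne_zero⟩
  obtain ⟨ζ, hζ⟩ := HasEnoughRootsOfUnity.exists_primitiveRoot ℚ̄ p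
  set π := ζ - 1 with hπ
  have hπ0 : π ≠ 0 := sub_ne_zero.2 (hζ.ne_one hp.one_lt)
  have hζA : ζ ∈ A := FreyReducible.mem_of_isIntegral_int A (hζ.isIntegral hp.pos)
  have hgeom : ∀ i : ℕ, ζ ^ i - 1 = (∑ m ∈ Finset.range i, ζ ^ m) * π := fun i =>
    (geom_sum_mul ζ i).symm
  have hπv : v π ^ (p - 1) = v (p : ℚ̄) := by
    have hunit : ∀ i ∈ Finset.Icc 1 (p - 1), v (1 - ζ ^ i) = v π := by
      intro i hi
      rw [Finset.mem_Icc] at hi
      rw [← neg_sub, Valuation.map_neg]
      have hcop : i.Coprime p := ((Nat.Prime.coprime_iff_not_dvd hp).2 fun hd' => by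
        have := Nat.le_of_dvd (by omega) hd'; omega).symm
      obtain ⟨j', -, hj'⟩ := (hζ.pow_of_coprime i hcop).eq_pow_of_pow_eq_one hζ.pow_eq_one
      refine le_antisymm ?_ ?_
      · rw [hgeom, map_mul]
        exact mul_le_of_le_one_left zero_le (mem_iff_valuation_le.1
          (sum_mem fun m _ => pow_mem hζA m))
      · conv_lhs => rw [hπ, ← hj', ← geom_sum_mul (ζ ^ i) j', map_mul]
        exact mul_le_of_le_one_left zero_le (mem_iff_valuation_le.1
          (sum_mem fun m _ => pow_mem (pow_mem hζA i) m))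
    have hprod : ∏ i ∈ Finset.Icc 1 (p - 1), (1 - ζ ^ i) = (p : ℚ̄) := by
      rw [← Finset.prod_bij (s := Finset.range (p - 1)) (fun i _ => i + 1)
        (fun i hi => by simp only [Finset.mem_range] at hi; simp; omega)
        (fun a _ b _ hab => by omega)
        (fun b hb => by simp at hb; exact ⟨b - 1, by simp; omega, by omega⟩) (fun _ _ => rfl)]
      have := IsPrimitiveRoot.prod_one_sub_pow_eq_order (n := p - 1) (μ := ζ)
        (by rwa [Nat.sub_add_cancel hp.pos])
      rw [Nat.cast_sub hp.one_lt.le, Nat.cast_one, sub_add_cancel] at this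
      exact this
    rw [← hprod, map_prod, Finset.prod_congr rfl hunit, Finset.prod_const, Nat.card_Icc]
    congr 1
  obtain ⟨ϖ, hϖ⟩ := IsAlgClosed.exists_pow_nat_eq (p : ℚ̄) hd0
  have hϖ0 := ne_zero_of_pow hp hd hϖ
  have hϖπ : v ϖ = v π := (pow_left_inj₀ zero_le zero_le hd0.ne').1 (by
    rw [hπv, ← map_pow, hϖ])
  have := isAlgClosed_residueField A
  have := charP_kA hp hA
  have : NeZero ((p - 1 : ℕ) : kA A) := ⟨by rw [Ne, CharP.cast_eq_zero_iff (kA A) p]; exact hd⟩
  obtain ⟨ξ, hξ⟩ := HasEnoughRootsOfUnity.exists_primitiveRoot (kA A) (p - 1)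
  obtain ⟨σ, hσ, hσξ⟩ := exists_kummerRes_eq hp hA hd hϖ hξ.pow_eq_one
  obtain ⟨a, ha, -⟩ := exists_exponent_succ (p := p) σ (n := 0) (a := 1) (by simp)
  have hdσ := inertia_mem_decomposition hσ
  -- the character at `π`
  have hξa : ξ = (a : kA A) := by
    rw [← hσξ, ← kummerRes_eq_of_valuation_eq hσ hϖ0 hπ0 hϖπ.symm, kummerRes, hπ, map_sub, map_one,
      ha ζ (by rw [pow_one]; exact hζ.pow_eq_one), hgeom, mul_div_cancel_right₀ _ hπ0]
    have hζ1 : IsLocalRing.residue A (⟨ζ, hζA⟩ : A) = 1 := by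
      rw [← sub_eq_zero, ← map_one (IsLocalRing.residue A), ← map_sub,
        IsLocalRing.residue_eq_zero_iff, A.valuation_lt_one_iff]
      show v π < 1
      by_contra hc
      push Not at hc
      exact absurd (vq_lt_one hA) (not_lt.2 (hπv ▸ one_le_pow₀ hc))
    rw [resFun_of_mem (sum_mem fun m _ => pow_mem hζA m),
      show (⟨∑ m ∈ Finset.range a, ζ ^ m, _⟩ : A) = ∑ m ∈ Finset.range a, (⟨ζ, hζA⟩ : A) ^ m from
        Subtype.ext (by push_cast; rfl)]
    simp only [map_sum, map_pow, hζ1, one_pow, Finset.sum_const, Finset.card_range, nsmul_one]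
  -- the character at `z`
  have hza : kummerRes A z σ = (a : kA A) := by
    have hna : ((a : ℕ) : ℚ̄) ∈ A := natCast_mem A a
    have hm : σ z / z ∈ A := mem_iff_valuation_le.2 (smul_div_mem hdσ hz0').le
    rw [kummerRes, show (a : kA A) = resFun A (a : ℚ̄) by rw [resFun_of_mem hna]; exact (map_natCast _ a).symm,
      resFun_eq_iff hm hna]
    rw [show σ z / z - (a : ℚ̄) = (σ z - (a : ℚ̄) * z) / z by field_simp, map_div₀, div_lt_one₀ hzpos,
      ← zPar_smul, hsmul σ hσ a ha]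
    exact (hmul a).trans_lt hsq
  -- the character at `π ^ k`
  have hzk : kummerRes A z σ = ξ ^ k := by
    rw [kummerRes_eq_of_valuation_eq hσ (pow_ne_zero k hπ0) hz0', kummerRes_pow_left hdσ hπ0,
      kummerRes_eq_of_valuation_eq hσ hϖ0 hπ0 hϖπ.symm, hσξ]
    refine (pow_left_inj₀ zero_le zero_le hd0.ne').1 ?_
    rw [hk', map_pow, ← pow_mul, mul_comm, pow_mul, hπv]
  by_contra hk
  have h1 : ξ ^ (k - 1) = 1 := by
    have := hza.symm.trans hzk
    rw [← hξa] at this
    refine mul_right_cancel₀ (hξ.ne_zero hd0.ne') ?_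
    rw [← pow_succ, Nat.sub_add_cancel (by omega), ← this, one_mul]
  have := Nat.le_of_dvd (by omega) (hξ.dvd_of_pow_eq_one _ h1)
  omega

omit [(W.map (Int.castRingHom ℚ)).IsElliptic] in
lemma xCoord_mem_of_redAt_ne {Q : PtQ (W.map (Int.castRingHom ℚ))}
    (h : redAt hA hgood Q ≠ 0) : xCoord Q ∈ A := by
  rcases Q with _ | ⟨x, y, hQ⟩
  · exact zero_mem A
  · by_contra hx
    exact h (residueRed_some_of_not_mem hpF.out hA hgood hQ hx)

include hp2

omit [(W.map (Int.castRingHom ℚ)).IsElliptic] in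
/-- Two points killed by `p` with the same non-zero reduction have abscissae as far apart as the
parameter of their difference. -/
theorem valuation_xCoord_sub {Q Q' : PtQ (W.map (Int.castRingHom ℚ))} (hQ : p • Q = 0)
    (hne : redAt hA hgood Q ≠ 0) (heq : redAt hA hgood Q = redAt hA hgood Q') (hQQ : Q ≠ Q') :
    A.valuation (xCoord Q - xCoord Q') =
      A.valuation (zPar (curveQbar W) (Q - Q')) := by
  classical
  have hp := hpF.out
  have hW : IntCoeffs A.valuation (curveQbar W) := intCoeffs_curveQbar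
  set v := A.valuation
  rcases Q with _ | ⟨x, y, hxy⟩
  · exact absurd (map_zero _) hne
  rcases Q' with _ | ⟨x', y', hxy'⟩
  · exact absurd (heq.trans (map_zero _)) hne
  have hx : x ∈ A := xCoord_mem_of_redAt_ne hA hgood hne
  have hx' : x' ∈ A := xCoord_mem_of_redAt_ne hA hgood (Q := .some x' y' hxy') (heq ▸ hne)
  have hy : y ∈ A := mem_iff_valuation_le.2 (vy_le hW hxy.1 (mem_iff_valuation_le.1 hx))
  set y'' := (curveQbar W).toAffine.negY x' y' with hy''
  have hxy'' : (curveQbar W).toAffine.Nonsingular x' y'' := (Affine.nonsingular_neg _ _).2 hxy'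
  have hy''A : y'' ∈ A := mem_iff_valuation_le.2 (vy_le hW hxy''.1 (mem_iff_valuation_le.1 hx'))
  have hneg : -(Affine.Point.some x' y' hxy' : PtQ (W.map (Int.castRingHom ℚ))) =
      Affine.Point.some x' y'' hxy'' := Affine.Point.neg_some hxy'
  obtain ⟨h₁, e₁⟩ := residueRed_some_of_mem hp hA hgood hxy hx
  obtain ⟨h₂, e₂⟩ := residueRed_some_of_mem hp hA hgood hxy'' hx'
  obtain ⟨h₃, e₃⟩ := residueRed_some_of_mem hp hA hgood hxy' hx'
  have hxres : resFun A x = resFun A x' := by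
    have h := e₁.symm.trans (heq.trans e₃)
    rw [Affine.Point.some.injEq] at h
    exact h.1
  have hΔ : v (x - x') < 1 := (resFun_eq_iff hx hx').1 hxres
  have hnum : v (y - y'') = 1 := by
    refine le_antisymm (v.map_sub_le (mem_iff_valuation_le.1 hy) (mem_iff_valuation_le.1 hy''A))
      (not_lt.1 fun hlt => hne ?_)
    have hyres : resFun A y = resFun A y'' := (resFun_eq_iff hy hy''A).2 hlt
    have hself : redAt hA hgood (.some x y hxy) = -redAt hA hgood (.some x y hxy) := by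
      calc redAt hA hgood (.some x y hxy) = redAt hA hgood (.some x' y'' hxy'') := by
            rw [redAt, e₁, e₂]; simp only [hxres, hyres]
        _ = -redAt hA hgood (.some x y hxy) := by rw [heq, ← map_neg, hneg]
    have h2 : 2 • redAt hA hgood (.some x y hxy) = 0 := by
      rw [two_nsmul]; exact eq_neg_iff_add_eq_zero.1 hself
    have hp' : p • redAt hA hgood (.some x y hxy) = 0 := by rw [← map_nsmul, hQ, map_zero]
    obtain ⟨m, hm⟩ := hp.odd_of_ne_two hp2
    have key : ∀ n, n = 2 * m + 1 → n • redAt hA hgood (.some x y hxy) = 0 →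
        redAt hA hgood (.some x y hxy) = 0 := fun n hn hz => by
      rwa [hn, add_nsmul, mul_comm, mul_nsmul', h2, nsmul_zero, zero_add, one_nsmul] at hz
    exact key p hm hp'
  have hxx : x ≠ x' := by
    rintro rfl
    rcases Affine.Y_eq_of_X_eq hxy.1 hxy'.1 rfl with h | h
    · exact hQQ (by simp only [h])
    · rw [h, ← hy'', sub_self, map_zero] at hnum
      exact zero_ne_one hnum
  have hΔpos : 0 < v (x - x') :=
    lt_of_le_of_ne zero_le (v.ne_zero_iff.2 (sub_ne_zero.2 hxx)).symm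
  -- the difference
  set sl := (curveQbar W).toAffine.slope x x' y y'' with hsl
  have hsub : (Affine.Point.some x y hxy : PtQ (W.map (Int.castRingHom ℚ))) -
      Affine.Point.some x' y' hxy' =
        Affine.Point.some _ _ (Affine.nonsingular_add hxy hxy'' fun hc => hxx hc.1) := by
    rw [sub_eq_add_neg, hneg]
    exact Affine.Point.add_of_X_ne hxx
  set x₃ := (curveQbar W).toAffine.addX x x' sl with hx₃
  have hsl' : v sl = (v (x - x'))⁻¹ := by
    rw [hsl, Affine.slope_of_X_ne hxx, map_div₀, hnum, one_div]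
  have hsl1 : 1 < v sl := by rw [hsl']; exact (one_lt_inv₀ hΔpos).2 hΔ
  have hv3 : v x₃ = v sl ^ 2 := by
    rw [hx₃, Affine.addX, ← map_pow,
      show sl ^ 2 + (curveQbar W).toAffine.a₁ * sl - (curveQbar W).toAffine.a₂ - x - x' =
        sl ^ 2 + ((curveQbar W).toAffine.a₁ * sl + (-(curveQbar W).toAffine.a₂ + (-x + -x'))) by ring]
    refine v.map_add_eq_of_lt_left (lt_of_le_of_lt (b := v sl) (v.map_add_le
      (vmul_le_right hW.a₁ le_rfl) (v.map_add_le ?_ (v.map_add_le ?_ ?_))) ?_)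
    · rw [Valuation.map_neg]; exact hW.a₂.trans hsl1.le
    · rw [Valuation.map_neg]; exact (mem_iff_valuation_le.1 hx).trans hsl1.le
    · rw [Valuation.map_neg]; exact (mem_iff_valuation_le.1 hx').trans hsl1.le
    · rw [map_pow, pow_two]; exact lt_mul_of_one_lt_left (lt_trans zero_lt_one hsl1) hsl1
  have h13 : 1 < v x₃ := by rw [hv3]; exact one_lt_pow₀ hsl1 two_ne_zero
  obtain ⟨h32, -⟩ := vy_sq_eq hW
    (Affine.nonsingular_add hxy hxy'' fun hc => hxx hc.1).1 h13
  show v (x - x') = _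
  rw [hsub]
  refine ((pow_left_inj₀ zero_le zero_le two_ne_zero).1 ?_).symm
  show v (x₃ / _) ^ 2 = _
  rw [map_div₀, div_pow, h32, pow_succ (v x₃) 2, div_mul_eq_div_div,
    div_self (pow_ne_zero 2 (ne_of_gt (lt_trans zero_lt_one h13))), one_div, hv3, hsl', inv_pow,
    inv_inv]

/-- The field cut out by `E[p]` has the ramification bound `p / (p - 1)`. -/
theorem hasBound_torsionKer {γ : ℚ} (hγ : (p : ℚ) / (p - 1) < γ) :
    HasBound A p (torsionKer A p (PtQ (W.map (Int.castRingHom ℚ)))) γ := by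
  classical
  have hp := hpF.out
  have hodd : Odd p := hp.odd_of_ne_two hp2
  have hIO : IsOver A p := ⟨hp, hA⟩
  have hp1 : (0 : ℚ) < (p : ℚ) - 1 := by
    have : (2 : ℚ) ≤ p := by exact_mod_cast hp.two_le
    linarith
  have hγ1 : 1 < γ := lt_trans ((one_lt_div hp1).2 (by linarith)) hγ
  have hγ0 : 0 < γ := lt_trans zero_lt_one hγ1
  set N := torsionKer A p (PtQ (W.map (Int.castRingHom ℚ)))
  have hN : N ≤ A.inertiaSubgroupIn ℚ := fun τ hτ => hτ.1
  have hzmem : ∀ P : PtQ (W.map (Int.castRingHom ℚ)), p • P = 0 →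
      InE1 A.valuation (curveQbar W) P → zPar (curveQbar W) P ∈ fixRing A N := fun P hP hE =>
    ⟨mem_iff_valuation_le.2 (zPar_facts intCoeffs_curveQbar hE).1.le,
      fun τ hτ => by rw [← zPar_smul, hτ.2 P hP]⟩
  intro φ hφ σ hσ hfix
  by_cases hord : IsGoodOrdinary W p
  swap
  · -- supersingular
    have hss : IsGoodSupersingular W p := ⟨hgood, hord⟩
    obtain ⟨ϖ, hϖ⟩ := IsAlgClosed.exists_pow_nat_eq (p : ℚ̄) (sq_sub_one_pos (p := p))
    obtain ⟨P, hP0, hP, -⟩ :=
      exists_ne_zero_residueRed_eq_zero hp hA hgood hp.ne_zero (dvd_refl p)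
    have hE : InE1 A.valuation (curveQbar W) P := inE1At_of_nsmul hA hodd hss hP
    have hv := valuation_zPar_pow hA hodd hss hP hP0
    have hk := kummerRes_eq_one_of_hom hIO hγ0 hφ hγ1 (sq_sub_one_pos (p := p)) (hzmem P hP hE)
      hv hσ hfix
    have hϖ0 := ne_zero_of_pow hp not_dvd_sq_sub_one hϖ
    have hvϖ : A.valuation (zPar (curveQbar W) P) = A.valuation ϖ :=
      (pow_left_inj₀ zero_le zero_le (sq_sub_one_pos (p := p)).ne').1
        (by rw [hv, ← map_pow, hϖ])
    rw [kummerRes_eq_of_valuation_eq hσ hϖ0 ((zPar_facts intCoeffs_curveQbar hE).2 hP0) hvϖ] at hk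
    have hall := (inertia_smul_eq_self_iff hA hodd hss hϖ hσ).2 hk
    exact ⟨hσ, fun z hz => congrArg Subtype.val
      (hall ⟨z, by rw [Submodule.mem_torsionBy_iff, natCast_zsmul]; exact hz⟩)⟩
  -- ordinary
  have hordA := (ordinaryRedAt_iff hA hgood).2 hord
  obtain ⟨P₁, P₂, hP₁, hP₂, hgen, hind, hk₁, hord₂, hact⟩ :=
    exists_ordinary_shape hA hgood hordA 1
  simp only [pow_one] at hP₁ hP₂ hgen hind hord₂
  have hP₁0 : P₁ ≠ 0 := fun e => hp.not_dvd_one
    (hind 1 0 (by rw [e, nsmul_zero, zero_nsmul, add_zero])).1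
  obtain ⟨a, ha, -⟩ := exists_exponent_succ (p := p) σ (n := 0) (a := 1) (by simp)
  obtain ⟨x, z', d, hxa, hσP₂, -, hI, -⟩ := hact σ (inertia_mem_decomposition hσ) a ha
  obtain ⟨hz1', hxeq⟩ := hI hσ
  have hW : IntCoeffs A.valuation (curveQbar W) := intCoeffs_curveQbar
  have hE₁ := inE1At_of_redAt hA hgood hk₁
  obtain ⟨hzlt, hzne⟩ := zPar_facts hW hE₁
  set z := zPar (curveQbar W) P₁ with hz
  have hz0 : z ≠ 0 := hzne hP₁0
  have hzpos : 0 < A.valuation z :=
    lt_of_le_of_ne zero_le (A.valuation.ne_zero_iff.2 hz0).symm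
  have hzv : A.valuation z ^ (p - 1) = A.valuation (p : ℚ̄) :=
    valuation_zPar_kernel hA hgood hordA hP₁ hP₁0 hk₁
  have hp0 : 0 < p - 1 := by have := hp.two_le; omega
  -- the kernel of reduction is fixed
  have hk1 := kummerRes_eq_one_of_hom hIO hγ0 hφ hγ1 hp0 (hzmem P₁ hP₁ hE₁) hzv hσ hfix
  have hσP₁ : σ • P₁ = P₁ := by
    have := charP_kA hp hA
    have hm : σ z / z ∈ A :=
      mem_iff_valuation_le.2 (smul_div_mem (inertia_mem_decomposition hσ) hz0).le
    have h2 : kummerRes A z σ = (x : kA A) := by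
      have hnx : ((x : ℕ) : ℚ̄) ∈ A := natCast_mem A x
      rw [kummerRes,
        show (x : kA A) = resFun A (x : ℚ̄) by rw [resFun_of_mem hnx]; exact (map_natCast _ x).symm,
        resFun_eq_iff hm hnx,
        show σ z / z - (x : ℚ̄) = (σ z - (x : ℚ̄) * z) / z by field_simp, map_div₀,
        div_lt_one₀ hzpos, hz, ← zPar_smul, hxa]
      refine (inE1_nsmul hW hE₁ hzlt x).2.2.trans_lt ?_
      rw [pow_two]
      exact mul_lt_of_lt_one_left hzpos hzlt
    rw [hxa]
    conv_rhs => rw [← one_nsmul P₁]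
    refine nsmul_congr_of_cast hP₁ ?_
    rw [ZMod.natCast_eq_natCast_iff, ← CharP.natCast_eq_natCast (kA A) p, ← h2, hk1,
      Nat.cast_one]
  -- the coset of `P₂`
  let Q : ZMod p → PtQ (W.map (Int.castRingHom ℚ)) := fun c => P₂ + c.val • P₁
  have hQp : ∀ c, p • Q c = 0 := fun c => by
    show p • (P₂ + c.val • P₁) = 0
    rw [nsmul_add, hP₂, smul_comm, hP₁, nsmul_zero, add_zero]
  have hQred : ∀ c, redAt hA hgood (Q c) = redAt hA hgood P₂ := fun c => by
    show redAt hA hgood (P₂ + c.val • P₁) = _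
    rw [map_add, map_nsmul, hk₁, nsmul_zero, add_zero]
  have hP₂red : redAt hA hgood P₂ ≠ 0 := fun e => by
    rw [e, addOrderOf_zero] at hord₂
    exact hp.one_lt.ne hord₂
  let e : ZMod p → ℚ̄ := fun c => xCoord (Q c)
  have heA : ∀ c, e c ∈ A := fun c =>
    xCoord_mem_of_redAt_ne hA hgood (by rw [hQred]; exact hP₂red)
  -- inertia permutes the coset
  have hperm : ∀ τ ∈ A.inertiaSubgroupIn ℚ, ∃ π : ZMod p ≃ ZMod p, ∀ c, τ (e c) = e (π c) := by
    intro τ hτ
    obtain ⟨b, hb, -⟩ := exists_exponent_succ (p := p) τ (n := 0) (a := 1) (by simp)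
    obtain ⟨x', z'', d', hx', hy', -, hI', -⟩ := hact τ (inertia_mem_decomposition hτ) b hb
    have hz'' : z'' • P₂ = P₂ := by
      conv_rhs => rw [← one_nsmul P₂]
      exact nsmul_congr_of_cast (N := p ^ 1) (by rw [pow_one]; exact hP₂)
        (by rw [(hI' hτ).1, Nat.cast_one])
    have hbij : Function.Bijective fun c : ZMod p => (d' : ZMod p) + (x' : ZMod p) * c := by
      refine Finite.injective_iff_bijective.1 fun c c' hcc => ?_
      refine mul_left_cancel₀ ?_ (add_left_cancel hcc)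
      rw [Ne, ZMod.natCast_eq_zero_iff]
      rintro ⟨m, rfl⟩
      refine hP₁0 (smul_left_cancel τ ?_)
      rw [hx', mul_comm, mul_nsmul', hP₁, nsmul_zero]
      exact (smul_zero τ).symm
    refine ⟨Equiv.ofBijective _ hbij, fun c => ?_⟩
    show τ (xCoord (Q c)) = xCoord (Q ((d' : ZMod p) + (x' : ZMod p) * c))
    rw [← xCoord_smul]
    congr 1
    show τ • (P₂ + c.val • P₁) = P₂ + ((d' : ZMod p) + (x' : ZMod p) * c).val • P₁
    rw [Affine.Point.algEquiv_smul_def, map_add, map_nsmul, ← Affine.Point.algEquiv_smul_def,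
      ← Affine.Point.algEquiv_smul_def, hy', hx', hz'', add_assoc, ← mul_nsmul', ← add_nsmul]
    congr 1
    refine nsmul_congr_of_cast hP₁ ?_
    rw [Nat.cast_add, Nat.cast_mul, ZMod.natCast_zmod_val, ZMod.natCast_zmod_val]
    ring
  let g : ℚ̄[X] := ∏ c : ZMod p, (X - C (e c))
  have hg : ∀ i, g.coeff i ∈ fixRing A (A.inertiaSubgroupIn ℚ) := by
    intro i
    refine ⟨?_, fun τ hτ => ?_⟩
    · have : g = (∏ c : ZMod p, (X - C (⟨e c, heA c⟩ : A))).map A.subtype := by
        simp [g, Polynomial.map_prod]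
      rw [this, coeff_map]
      exact SetLike.coe_mem _
    · obtain ⟨π, hπ⟩ := hperm τ hτ
      have : g.map (τ : ℚ̄ →+* ℚ̄) = g := by
        simp only [g, Polynomial.map_prod, Polynomial.map_sub, map_X, map_C, RingHom.coe_coe, hπ]
        exact π.prod_comp fun c => X - C (e c)
      conv_rhs => rw [← this, coeff_map]
      rfl
  set x₂ := xCoord P₂ with hx₂
  have he0 : e 0 = x₂ := by simp [e, Q, hx₂]
  have hx₂N : x₂ ∈ fixRing A N :=
    ⟨he0 ▸ heA 0, fun τ hτ => by rw [hx₂, ← xCoord_smul, hτ.2 P₂ hP₂]⟩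
  have hnear : Near A p γ (∏ c : ZMod p, (φ x₂ - e c)) := by
    have h1 := hom_eval hIO hN hφ g hg hx₂N
    have h0 : g.eval x₂ = 0 := by
      simp only [g, eval_prod, eval_sub, eval_X, eval_C]
      exact Finset.prod_eq_zero (Finset.mem_univ 0) (by rw [he0, sub_self])
    have h2 : g.eval (φ x₂) = ∏ c : ZMod p, (φ x₂ - e c) := by simp [g, eval_prod]
    rw [h0, h2] at h1
    have h3 := hIO.near_sub (hom_zero hφ) h1
    rwa [sub_sub_cancel] at h3
  have hordz : ord A p z = 1 / ((p : ℚ) - 1) := by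
    rw [hIO.ord_eq (d := p - 1) (z := 1) hp0 (by rw [zpow_one]; exact hzv),
      Nat.cast_sub hp.one_lt.le]
    simp
  have hexists : ∃ c, A.valuation (φ x₂ - e c) < A.valuation z := by
    by_contra hall
    push Not at hall
    have hprod : A.valuation (z ^ p) ≤ A.valuation (∏ c : ZMod p, (φ x₂ - e c)) := by
      rw [map_prod, map_pow,
        show A.valuation z ^ p = ∏ _c : ZMod p, A.valuation z by
          rw [Finset.prod_const, Finset.card_univ, ZMod.card]]
      exact Finset.prod_le_prod' fun c _ => hall c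
    have hne : ∏ c : ZMod p, (φ x₂ - e c) ≠ 0 := fun e0 => by
      rw [e0, map_zero, map_pow] at hprod
      exact absurd hprod (not_le.2 (pow_pos hzpos p))
    rw [hIO.valuation_le_iff (pow_ne_zero p hz0) hne, hIO.ord_pow hz0, hordz, mul_one_div] at hprod
    exact absurd ((hnear.resolve_left hne).trans hprod) (not_le.2 hγ)
  obtain ⟨c, hc⟩ := hexists
  have hfixd : A.valuation (σ (φ x₂) - φ x₂) < A.valuation z := by
    rcases hfix x₂ hx₂N with h0 | h0
    · rw [h0, map_zero]; exact hzpos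
    rcases eq_or_ne (σ (φ x₂) - φ x₂) 0 with e0 | e0
    · rw [e0, map_zero]; exact hzpos
    rw [hIO.valuation_lt_iff e0 hz0, hordz]
    refine lt_of_lt_of_le (lt_of_le_of_lt ?_ hγ) h0
    gcongr
    exact_mod_cast hp.one_lt.le
  have hec : A.valuation (σ (e c) - e c) < A.valuation z := by
    rw [show σ (e c) - e c = σ (e c - φ x₂) + ((σ (φ x₂) - φ x₂) + (φ x₂ - e c)) by
      rw [map_sub]; ring]
    refine A.valuation.map_add_lt ?_ (A.valuation.map_add_lt hfixd hc)
    rw [decomp_isometry (inertia_mem_decomposition hσ), ← Valuation.map_neg, neg_sub]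
    exact hc
  have hσQ : σ • Q c = Q c := by
    by_contra hne
    have hred : redAt hA hgood (σ • Q c) = redAt hA hgood (Q c) :=
      residueRed_inertia_smul hp hA hgood hσ _
    have hpσ : p • (σ • Q c) = 0 := by
      rw [Affine.Point.algEquiv_smul_def, ← map_nsmul, hQp, map_zero]
    have h1 := valuation_xCoord_sub hA hp2 hgood hpσ (by rw [hred, hQred]; exact hP₂red) hred hne
    rw [xCoord_smul] at h1
    have h2 := valuation_zPar_kernel hA hgood hordA (P := σ • Q c - Q c)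
      (by rw [nsmul_sub, hpσ, hQp, sub_zero]) (sub_ne_zero.2 hne)
      (by rw [map_sub, hred, sub_self])
    rw [← h1] at h2
    have h3 := pow_lt_pow_left₀ hec zero_le hp0.ne'
    rw [h2, hzv] at h3
    exact lt_irrefl _ h3
  have hσP₂' : σ • P₂ = P₂ := by
    have h1 : σ • (P₂ + c.val • P₁) = P₂ + c.val • P₁ := hσQ
    rw [Affine.Point.algEquiv_smul_def, map_add, map_nsmul, ← Affine.Point.algEquiv_smul_def,
      ← Affine.Point.algEquiv_smul_def, hσP₁] at h1
    exact add_right_cancel h1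
  refine ⟨hσ, fun R hR => ?_⟩
  obtain ⟨i, j, rfl⟩ := hgen R hR
  rw [Affine.Point.algEquiv_smul_def, map_add, map_nsmul, map_nsmul,
    ← Affine.Point.algEquiv_smul_def, ← Affine.Point.algEquiv_smul_def, hσP₁, hσP₂']

end Fermat.Agent.EllLocal
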