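import Fermat.Agent.EllLocal.UnitRoot
import Fermat.Agent.EllLocal.TameChar

/-!
# Good supersingular reduction at an odd prime

All non-zero `p`-torsion has parameter of value `|p| ^ (1 / (p² - 1))`; the leading residue embeds
`E[p]` into the residue field and inertia acts through the fundamental character of level two.
-/

set_option autoImplicit false

open Polynomial WeierstrassCurve Fermat.Agent.MultRed
open scoped WeierstrassCurve.Affine Pointwise

namespace Fermat.Agent.EllLocal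

local notation "ℚ̄" => AlgebraicClosure ℚ

/-- Good reduction which is not ordinary. -/
def IsGoodSupersingular (W : WeierstrassCurve ℤ) (p : ℕ) : Prop :=
  W.IsGoodPrimeFor p ∧ ¬ IsGoodOrdinary W p

variable {W : WeierstrassCurve ℤ} {A : ValuationSubring ℚ̄} {p : ℕ} [hpF : Fact p.Prime]

omit hpF in
lemma half_sq_sub_one {p : ℕ} (hp2 : Odd p) :
    2 * ((p ^ 2 - 1) / 2) = p ^ 2 - 1 :=
  Nat.mul_div_cancel' (Even.two_dvd (Nat.Odd.sub_odd hp2.pow odd_one))

/-- The coefficients of the `p`-th division polynomial of a supersingular curve. -/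
theorem coeff_preΨ'_supersingular (hp2 : Odd p) (h : IsGoodSupersingular W p) :
    ¬ (p : ℤ) ∣ (W.preΨ' p).coeff 0 ∧ ∀ i, i ≠ 0 → (p : ℤ) ∣ (W.preΨ' p).coeff i := by
  have := isElliptic_reductionMod (p := p) h.1
  have h0 : (W.reductionMod p).ΨSq (p : ℤ) ≠ 0 :=
    EllTorsion.ΨSq_ne_zero_of_isElliptic (W := (W.reductionMod p).toAffine) hpF.out.ne_zero
  have hsq : (W.reductionMod p).ΨSq (p : ℤ) = (W.reductionMod p).preΨ' p ^ 2 := by
    rw [WeierstrassCurve.ΨSq_ofNat, if_neg (Nat.not_even_iff_odd.2 hp2), mul_one]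
  have hd : ((W.reductionMod p).preΨ' p).natDegree = 0 := by
    have h' : ((W.reductionMod p).ΨSq (p : ℤ)).natDegree = 0 := by
      by_contra hc
      exact h.2 ⟨h.1, Nat.pos_of_ne_zero hc⟩
    rw [hsq, natDegree_pow] at h'
    omega
  have hc : ∀ i, ((W.reductionMod p).preΨ' p).coeff i = (((W.preΨ' p).coeff i : ℤ) : ZMod p) := by
    intro i
    rw [WeierstrassCurve.reductionMod, WeierstrassCurve.map_preΨ', coeff_map, eq_intCast]
  refine ⟨fun hdvd => h0 ?_, fun i hi => ?_⟩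
  · rw [hsq, eq_C_of_natDegree_eq_zero hd, hc 0, (ZMod.intCast_zmod_eq_zero_iff_dvd _ p).2 hdvd,
      C_0, zero_pow two_ne_zero]
  · rw [← ZMod.intCast_zmod_eq_zero_iff_dvd, ← hc i]
    exact coeff_eq_zero_of_natDegree_lt (by omega)

variable (hA : A.LiesOverPrime p) (hp2 : Odd p) (h : IsGoodSupersingular W p)
include hA hp2 h

/-- The value of the abscissa of a `p`-torsion point. -/
theorem valuation_x_pow {x y : ℚ̄} {hP : (curveQbar W).toAffine.Nonsingular x y}
    (hpP : p • Affine.Point.some x y hP = 0) :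
    1 < A.valuation x ∧ A.valuation (p : ℚ̄) * A.valuation x ^ ((p ^ 2 - 1) / 2) = 1 := by
  have hp := hpF.out
  set v := A.valuation with hv
  set D := (p ^ 2 - 1) / 2 with hD
  obtain ⟨hc0, hci⟩ := coeff_preΨ'_supersingular hp2 h
  have hdeg : (W.preΨ' p).natDegree = D := by
    rw [W.natDegree_preΨ' (Nat.cast_ne_zero.2 hp.ne_zero), if_neg (Nat.not_even_iff_odd.2 hp2)]
  have hlead : (W.preΨ' p).coeff D = p := by
    rw [hD, ← if_neg (c := Even p) (Nat.not_even_iff_odd.2 hp2) (t := 4) (e := 1), W.coeff_preΨ',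
      if_neg (Nat.not_even_iff_odd.2 hp2)]
  have hD1 : 1 ≤ D := by
    have : 2 ^ 2 ≤ p ^ 2 := Nat.pow_le_pow_left hp.two_le 2
    omega
  -- the equation `∑ cᵢ xⁱ = 0`
  have hroot : ∑ i ∈ Finset.range (D + 1), ((W.preΨ' p).coeff i : ℚ̄) * x ^ i = 0 := by
    have hmap : (curveQbar W).preΨ' p = (W.preΨ' p).map (Int.castRingHom ℚ̄) := by
      rw [← WeierstrassCurve.map_preΨ']
      congr 1
    have h2 := (EllTorsion.nsmul_eq_zero_iff hP p).1 hpP
    rw [WeierstrassCurve.ΨSq_ofNat, if_neg (Nat.not_even_iff_odd.2 hp2), mul_one, eval_pow,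
      pow_eq_zero_iff two_ne_zero, hmap, eval_map, eval₂_eq_sum_range, hdeg] at h2
    simpa using h2
  have hvp : v (p : ℚ̄) < 1 := vq_lt_one hA
  have hv0 : v ((W.preΨ' p).coeff 0 : ℚ̄) = 1 := vint_eq_one hp hA hc0
  have hvi : ∀ i, i ≠ 0 → v ((W.preΨ' p).coeff i : ℚ̄) ≤ v (p : ℚ̄) := fun i hi => by
    obtain ⟨c, hc⟩ := hci i hi
    rw [hc, Int.cast_mul, Int.cast_natCast, map_mul]
    exact mul_le_of_le_one_right zero_le (vint_le c)
  have hx : 1 < v x := by
    by_contra hcon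
    push Not at hcon
    rw [Finset.sum_range_succ', pow_zero, mul_one, add_eq_zero_iff_eq_neg] at hroot
    have hle : v (∑ k ∈ Finset.range D, ((W.preΨ' p).coeff (k + 1) : ℚ̄) * x ^ (k + 1)) ≤
        v (p : ℚ̄) := v.map_sum_le fun k _ => by
      rw [map_mul, map_pow]
      exact (mul_le_of_le_one_right zero_le (pow_le_one₀ zero_le hcon)).trans
        (hvi _ k.succ_ne_zero)
    rw [hroot, Valuation.map_neg, hv0] at hle
    exact absurd hle (not_le.2 hvp)
  refine ⟨hx, ?_⟩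
  set T := v (p : ℚ̄) * v x ^ D with hT
  by_contra hne
  have hsplit : ((W.preΨ' p).coeff 0 : ℚ̄) + (p : ℚ̄) * x ^ D =
      -∑ k ∈ Finset.range (D - 1), ((W.preΨ' p).coeff (k + 1) : ℚ̄) * x ^ (k + 1) := by
    have h1 := hroot
    rw [Finset.sum_range_succ, hlead, Int.cast_natCast,
      show D = D - 1 + 1 from (Nat.sub_add_cancel hD1).symm, Finset.sum_range_succ',
      pow_zero, mul_one] at h1
    rw [Nat.sub_add_cancel hD1] at h1
    linear_combination h1
  have hTpos : 0 < T := mul_pos (vq_pos hp) (pow_pos (lt_trans zero_lt_one hx) D)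
  have hrest : v (∑ k ∈ Finset.range (D - 1), ((W.preΨ' p).coeff (k + 1) : ℚ̄) * x ^ (k + 1)) <
      T := v.map_sum_lt hTpos.ne' fun k hk => by
    rw [map_mul, map_pow]
    refine lt_of_le_of_lt (mul_le_mul_left (hvi _ k.succ_ne_zero) _) ?_
    exact mul_lt_mul_of_pos_left
      (pow_lt_pow_right₀ hx (by have := Finset.mem_range.1 hk; omega)) (vq_pos hp)
  have hsum : v (((W.preΨ' p).coeff 0 : ℚ̄) + (p : ℚ̄) * x ^ D) = max 1 T := by
    rw [Valuation.map_add_of_distinct_val _ (by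
      rw [hv0, map_mul, map_pow]; exact fun e => hne e.symm), hv0, map_mul, map_pow]
  rw [hsplit, Valuation.map_neg] at hsum
  rw [hsum] at hrest
  exact absurd hrest (not_lt.2 (le_max_right _ _))

/-- A `p`-torsion point reduces to the origin. -/
theorem inE1At_of_nsmul {P : PtQ (W.map (Int.castRingHom ℚ))} (hP : p • P = 0) :
    InE1At W A P := by
  rcases P with _ | ⟨x, y, hxy⟩
  · exact (trivial : InE1 A.valuation (curveQbar W) 0)
  · exact (valuation_x_pow hA hp2 h hP).1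

/-- The parameter of a non-zero `p`-torsion point has value `|p| ^ (1 / (p² - 1))`. -/
theorem valuation_zPar_pow {P : PtQ (W.map (Int.castRingHom ℚ))} (hP : p • P = 0) (h0 : P ≠ 0) :
    A.valuation (zPar (curveQbar W) P) ^ (p ^ 2 - 1) = A.valuation (p : ℚ̄) := by
  rcases P with _ | ⟨x, y, hxy⟩
  · exact absurd rfl h0
  obtain ⟨hx, hT⟩ := valuation_x_pow hA hp2 h hP
  obtain ⟨hy, -⟩ := vy_sq_eq (intCoeffs_curveQbar (W := W) (A := A)) hxy.1 hx
  have hx0 : A.valuation x ≠ 0 := (lt_trans zero_lt_one hx).ne'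
  have hz : A.valuation (x / y) ^ 2 = (A.valuation x)⁻¹ := by
    rw [map_div₀, div_pow, hy]; field_simp
  show A.valuation (x / y) ^ (p ^ 2 - 1) = _
  rw [← half_sq_sub_one hp2, pow_mul, hz, inv_pow]
  exact (eq_inv_of_mul_eq_one_left hT).symm

omit hA hp2 h in
lemma not_dvd_sq_sub_one : ¬ p ∣ p ^ 2 - 1 := fun hd => by
  have hp := hpF.out
  have h1 : p ∣ 1 := (Nat.dvd_sub (dvd_pow_self p two_ne_zero) hd).trans (by
    rw [Nat.sub_sub_self (Nat.one_le_pow _ _ hp.pos)])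
  exact hp.one_lt.ne' (Nat.dvd_one.1 h1)

omit hA hp2 h in
lemma sq_sub_one_pos : 0 < p ^ 2 - 1 :=
  Nat.sub_pos_of_lt (Nat.one_lt_pow two_ne_zero hpF.out.one_lt)

/-- The leading residues: an embedding of `E[p]` into the residue field on which the decomposition
group acts semilinearly through the fundamental character of level two. -/
theorem exists_leading_hom [(W.map (Int.castRingHom ℚ)).IsElliptic] {ϖ : ℚ̄}
    (hϖ : ϖ ^ (p ^ 2 - 1) = (p : ℚ̄)) :
    ∃ lead : Submodule.torsionBy ℤ (PtQ (W.map (Int.castRingHom ℚ))) (p : ℤ) →+ kA A,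
      Function.Injective lead ∧
      (∀ σ : ℚ̄ ≃ₐ[ℚ] ℚ̄, ∀ hσ : σ ∈ A.decompositionSubgroup ℚ, ∀ P, lead (σ • P) =
        kummerRes A ϖ σ * ((⟨σ, hσ⟩ : A.decompositionSubgroup ℚ) • lead P)) ∧
      (∀ σ ∈ A.inertiaSubgroupIn ℚ, ∀ P, lead (σ • P) = kummerRes A ϖ σ * lead P) ∧
      (∀ P R, P ≠ 0 → ∃ η : kA A, η ^ p ^ 2 = η ∧ lead R = η * lead P) := by
  classical
  have hp := hpF.out
  have hd := sq_sub_one_pos (p := p)
  have hnd := not_dvd_sq_sub_one (p := p)
  set v := A.valuation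
  have hW : IntCoeffs v (curveQbar W) := intCoeffs_curveQbar
  have hϖ0 := ne_zero_of_pow hp hnd hϖ
  have hvϖ : v ϖ < 1 := by
    by_contra hc
    push Not at hc
    exact absurd (vq_lt_one hA) (not_lt.2 (by rw [← hϖ, map_pow]; exact one_le_pow₀ hc))
  have hϖpos : 0 < v ϖ := lt_of_le_of_ne zero_le (v.ne_zero_iff.2 hϖ0).symm
  let T := Submodule.torsionBy ℤ (PtQ (W.map (Int.castRingHom ℚ))) (p : ℤ)
  have hT : ∀ P : T, p • (P : PtQ (W.map (Int.castRingHom ℚ))) = 0 := fun P => by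
    rw [← natCast_zsmul]; exact (Submodule.mem_torsionBy_iff _ _).1 P.2
  let z : T → ℚ̄ := fun P => zPar (curveQbar W) (P : PtQ (W.map (Int.castRingHom ℚ)))
  have hE : ∀ P : T, InE1 v (curveQbar W) (P : PtQ (W.map (Int.castRingHom ℚ))) :=
    fun P => inE1At_of_nsmul hA hp2 h (hT P)
  have hv : ∀ P : T, P ≠ 0 → v (z P) = v ϖ := fun P hP => by
    refine (pow_left_inj₀ zero_le zero_le hd.ne').1 ?_
    rw [valuation_zPar_pow hA hp2 h (hT P) (fun e => hP (Subtype.ext e)), ← map_pow, hϖ]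
  have hle : ∀ P : T, v (z P) ≤ v ϖ := fun P => by
    rcases eq_or_ne P 0 with rfl | hP
    · show v (zPar (curveQbar W) 0) ≤ _
      rw [zPar_zero, map_zero]; exact zero_le
    · exact (hv P hP).le
  have hmem : ∀ P : T, z P / ϖ ∈ A := fun P => by
    rw [mem_iff_valuation_le, map_div₀, div_le_one₀ hϖpos]; exact hle P
  have hadd : ∀ P R : T,
      resFun A (z (P + R) / ϖ) = resFun A (z P / ϖ) + resFun A (z R / ϖ) := fun P R => by
    obtain ⟨-, -, h3⟩ := inE1_add hW (hE P) (hE R) hvϖ (hle P) (hle R)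
    rw [← resFun_add (hmem P) (hmem R), resFun_eq_iff (hmem _) (A.add_mem _ _ (hmem P) (hmem R)),
      show z (P + R) / ϖ - (z P / ϖ + z R / ϖ) = (z (P + R) - z P - z R) / ϖ by ring, map_div₀,
      div_lt_one₀ hϖpos]
    refine lt_of_le_of_lt h3 ?_
    rw [pow_two]
    exact mul_lt_of_lt_one_left hϖpos hvϖ
  let lead : T →+ kA A := AddMonoidHom.mk' (fun P => resFun A (z P / ϖ)) hadd
  have hinj : Function.Injective lead := (injective_iff_map_eq_zero _).2 fun P hP => by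
    by_contra h0
    have h1 : A.valuation (z P / ϖ) < 1 := (resFun_eq_zero_iff (hmem P)).1 hP
    rw [map_div₀, hv P h0, div_self (v.ne_zero_iff.2 hϖ0)] at h1
    exact lt_irrefl _ h1
  have hz : ∀ (σ : ℚ̄ ≃ₐ[ℚ] ℚ̄) (P : T), z (σ • P) = σ (z P) := by
    intro σ P
    show zPar (curveQbar W) (σ • (P : PtQ (W.map (Int.castRingHom ℚ)))) = σ (zPar (curveQbar W) _)
    rcases (P : PtQ (W.map (Int.castRingHom ℚ))) with _ | ⟨x, y, hxy⟩
    · exact (map_zero σ).symm
    · show σ x / σ y = σ (x / y)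
      rw [map_div₀]
  have hsemi : ∀ σ : ℚ̄ ≃ₐ[ℚ] ℚ̄, ∀ hσ : σ ∈ A.decompositionSubgroup ℚ, ∀ P, lead (σ • P) =
      kummerRes A ϖ σ * ((⟨σ, hσ⟩ : A.decompositionSubgroup ℚ) • lead P) := by
    intro σ hσ P
    show resFun A (z (σ • P) / ϖ) = resFun A (σ ϖ / ϖ) * _
    have h1 : σ (z P / ϖ) ∈ A := by
      rw [mem_iff_valuation_le, decomp_isometry hσ]; exact mem_iff_valuation_le.1 (hmem P)
    rw [hz, show σ (z P) / ϖ = σ ϖ / ϖ * σ (z P / ϖ) by
        have : σ ϖ ≠ 0 := by simpa using hϖ0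
        rw [map_div₀]; field_simp,
      resFun_mul (mem_iff_valuation_le.2 (smul_div_mem hσ hϖ0).le) h1]
    congr 1
    show resFun A (σ (z P / ϖ)) = (⟨σ, hσ⟩ : A.decompositionSubgroup ℚ) • resFun A (z P / ϖ)
    rw [resFun_of_mem h1, resFun_of_mem (hmem P)]
    exact IsLocalRing.ResidueField.residue_smul (R := A) (A.decompositionSubgroup ℚ) ⟨σ, hσ⟩
      (⟨_, hmem P⟩ : A)
  have hin : ∀ σ ∈ A.inertiaSubgroupIn ℚ, ∀ P, lead (σ • P) = kummerRes A ϖ σ * lead P := by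
    intro σ hσ P
    rw [hsemi σ (inertia_mem_decomposition hσ) P]
    congr 1
    obtain ⟨τ, hτ, rfl⟩ := hσ
    exact RingEquiv.congr_fun (MonoidHom.mem_ker.1 hτ) (lead P)
  refine ⟨lead, hinj, hsemi, hin, fun P R hP => ?_⟩
  -- the image is a line over the field with `p²` elements
  have := isAlgClosed_residueField A
  have := charP_kA hp hA
  have := EllTorsion.finite_torsionBy_baseChange (W.map (Int.castRingHom ℚ)) ℚ̄ hp.ne_zero
  have hl0 : lead P ≠ 0 := fun e => hP (hinj (e.trans (map_zero lead).symm))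
  have hcard : Nat.card T = p ^ 2 :=
    EllTorsion.natCard_torsionBy_baseChange (W.map (Int.castRingHom ℚ)) ℚ̄ p
      (Nat.cast_ne_zero.2 hp.ne_zero)
  have : NeZero ((p ^ 2 - 1 : ℕ) : kA A) := ⟨by
    rw [Ne, CharP.cast_eq_zero_iff (kA A) p]; exact hnd⟩
  obtain ⟨ξ, hξ⟩ := HasEnoughRootsOfUnity.exists_primitiveRoot (kA A) (p ^ 2 - 1)
  obtain ⟨τ, hτ, hτξ⟩ := exists_kummerRes_eq hp hA hnd hϖ hξ.pow_eq_one
  let g : Option (Fin (p ^ 2 - 1)) → T := fun i => i.elim 0 fun j => (τ ^ (j : ℕ)) • P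
  have hg : ∀ j : ℕ, lead ((τ ^ j) • P) = ξ ^ j * lead P := by
    intro j
    induction j with
    | zero => simp
    | succ j ih =>
      rw [pow_succ', mul_smul, hin τ hτ, ih, hτξ, pow_succ', mul_assoc]
  have hgi : Function.Injective g := by
    rintro (_ | i) (_ | j) e
    · rfl
    · have := congrArg lead e
      simp only [g, Option.elim, map_zero, hg] at this
      exact absurd this.symm (mul_ne_zero (pow_ne_zero _ (hξ.ne_zero hd.ne')) hl0)
    · have := congrArg lead e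
      simp only [g, Option.elim, map_zero, hg] at this
      exact absurd this (mul_ne_zero (pow_ne_zero _ (hξ.ne_zero hd.ne')) hl0)
    · have := congrArg lead e
      simp only [g, Option.elim, hg] at this
      exact congrArg some (Fin.ext (hξ.pow_inj i.2 j.2 (mul_right_cancel₀ hl0 this)))
  have hgs : Function.Surjective g := (hgi.bijective_of_nat_card_le (by
    rw [hcard, Nat.card_eq_fintype_card, Fintype.card_option, Fintype.card_fin]; omega)).2
  obtain ⟨i, hi⟩ := hgs R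
  rcases i with _ | j
  · exact ⟨0, zero_pow (pow_ne_zero 2 hp.ne_zero), by rw [← hi, zero_mul]; exact map_zero lead⟩
  · refine ⟨ξ ^ (j : ℕ), ?_, by rw [← hi]; exact hg j⟩
    have h1 : ξ ^ p ^ 2 = ξ := by
      conv_rhs => rw [← one_mul ξ, ← hξ.pow_eq_one, ← pow_succ, Nat.sub_add_cancel
        (Nat.one_le_pow _ _ hp.pos)]
    rw [← pow_mul, mul_comm, pow_mul, h1]

/-- An inertia element acts trivially on `E[p]` exactly when its fundamental character is one. -/
theorem inertia_smul_eq_self_iff [(W.map (Int.castRingHom ℚ)).IsElliptic] {ϖ : ℚ̄}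
    (hϖ : ϖ ^ (p ^ 2 - 1) = (p : ℚ̄)) {σ : ℚ̄ ≃ₐ[ℚ] ℚ̄} (hσ : σ ∈ A.inertiaSubgroupIn ℚ) :
    (∀ P : Submodule.torsionBy ℤ (PtQ (W.map (Int.castRingHom ℚ))) (p : ℤ), σ • P = P) ↔
      kummerRes A ϖ σ = 1 := by
  obtain ⟨lead, hinj, -, hin, -⟩ := exists_leading_hom hA hp2 h hϖ
  refine ⟨fun hfix => ?_, fun h1 P => hinj (by rw [hin σ hσ, h1, one_mul])⟩
  have := EllTorsion.finite_torsionBy_baseChange (W.map (Int.castRingHom ℚ)) ℚ̄ hpF.out.ne_zero
  have : Nontrivial (Submodule.torsionBy ℤ (PtQ (W.map (Int.castRingHom ℚ))) (p : ℤ)) := by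
    rw [← Finite.one_lt_card_iff_nontrivial,
      EllTorsion.natCard_torsionBy_baseChange (W.map (Int.castRingHom ℚ)) ℚ̄ p
        (Nat.cast_ne_zero.2 hpF.out.ne_zero)]
    exact Nat.one_lt_pow two_ne_zero hpF.out.one_lt
  obtain ⟨P, hP⟩ := exists_ne (0 : Submodule.torsionBy ℤ (PtQ (W.map (Int.castRingHom ℚ))) (p : ℤ))
  have hl : lead P ≠ 0 := fun e => hP (hinj (e.trans (map_zero lead).symm))
  have := hin σ hσ P
  rw [hfix P] at this
  exact (mul_eq_right₀ hl).1 this.symm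

/-- No line of `E[p]` is stable under inertia. -/
theorem no_inertia_stable_line [(W.map (Int.castRingHom ℚ)).IsElliptic]
    {P : PtQ (W.map (Int.castRingHom ℚ))} (hP : p • P = 0) (h0 : P ≠ 0) :
    ∃ σ ∈ A.inertiaSubgroupIn ℚ, ∀ c : ℕ, σ • P ≠ c • P := by
  have hp := hpF.out
  obtain ⟨ϖ, hϖ⟩ := IsAlgClosed.exists_pow_nat_eq (p : ℚ̄) (sq_sub_one_pos (p := p))
  obtain ⟨lead, hinj, -, hin, -⟩ := exists_leading_hom hA hp2 h hϖ
  have := isAlgClosed_residueField A
  have := charP_kA hp hA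
  have : NeZero ((p ^ 2 - 1 : ℕ) : kA A) := ⟨by
    rw [Ne, CharP.cast_eq_zero_iff (kA A) p]; exact not_dvd_sq_sub_one⟩
  obtain ⟨ξ, hξ⟩ := HasEnoughRootsOfUnity.exists_primitiveRoot (kA A) (p ^ 2 - 1)
  obtain ⟨σ, hσ, hσξ⟩ := exists_kummerRes_eq hp hA not_dvd_sq_sub_one hϖ hξ.pow_eq_one
  refine ⟨σ, hσ, fun c hc => ?_⟩
  let P' : Submodule.torsionBy ℤ (PtQ (W.map (Int.castRingHom ℚ))) (p : ℤ) :=
    ⟨P, by rw [Submodule.mem_torsionBy_iff, natCast_zsmul]; exact hP⟩
  have hl : lead P' ≠ 0 := fun e => h0 (congrArg Subtype.val (hinj (e.trans (map_zero lead).symm)))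
  have h1 : σ • P' = c • P' :=
    Subtype.ext (hc.trans (map_nsmul (Submodule.torsionBy ℤ _ (p : ℤ)).subtype c P').symm)
  have h2 := hin σ hσ P'
  rw [h1, map_nsmul, nsmul_eq_mul] at h2
  have h3 : ξ = (c : kA A) := by rw [← hσξ]; exact (mul_right_cancel₀ hl h2).symm
  have h4 : ξ ^ (p - 1) = 1 := by
    have hc0 : ¬ p ∣ c := fun hd => hξ.ne_zero (sq_sub_one_pos (p := p)).ne'
      (h3.trans ((CharP.cast_eq_zero_iff (kA A) p c).2 hd))
    have := (Nat.ModEq.pow_card_sub_one_eq_one hp ((Nat.Prime.coprime_iff_not_dvd hp).2 hc0).symm)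
    rw [h3, ← Nat.cast_pow, (CharP.natCast_eq_natCast (kA A) p).2 this, Nat.cast_one]
  have hp2' : 2 ≤ p := hp.two_le
  have h5 : p ^ 2 - 1 ≤ p - 1 := Nat.le_of_dvd (by omega) (hξ.dvd_of_pow_eq_one _ h4)
  have h6 : 2 * p ≤ p ^ 2 := by rw [pow_two]; exact Nat.mul_le_mul_right p hp2'
  omega

end Fermat.Agent.EllLocal
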