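import Fermat.Agent.EllLocal.UnitRoot
import Mathlib.FieldTheory.Finite.GaloisField

/-!
# A trace of Frobenius prime to `p` forces ordinary reduction
-/

set_option autoImplicit false

open Polynomial WeierstrassCurve
open scoped WeierstrassCurve.Affine

namespace Fermat.Agent.EllLocal

/-- The traces of the powers of a root of `X² - a X + q`. -/
def lucasSeq (a q : ℤ) : ℕ → ℤ
  | 0 => 2
  | 1 => a
  | r + 2 => a * lucasSeq a q (r + 1) - q * lucasSeq a q r

lemma dvd_pow_sub_lucasSeq (a q : ℤ) : ∀ r : ℕ,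
    (X ^ 2 - C a * X + C q) ∣ X ^ (2 * r) - C (lucasSeq a q r) * X ^ r + C (q ^ r)
  | 0 => ⟨0, by simp [lucasSeq]; norm_num⟩
  | 1 => ⟨1, by simp [lucasSeq]⟩
  | r + 2 => by
    obtain ⟨u, hu⟩ := dvd_pow_sub_lucasSeq a q r
    obtain ⟨v, hv⟩ := dvd_pow_sub_lucasSeq a q (r + 1)
    refine ⟨C a * X * v - C q * X ^ 2 * u + (X ^ (2 * (r + 1)) + C (q ^ (r + 1))), ?_⟩
    simp only [lucasSeq, map_sub, map_mul, map_pow] at *
    linear_combination (C a * X) * hv - (C q * X ^ 2) * hu

lemma lucasSeq_modEq (a q : ℤ) : ∀ r : ℕ, 1 ≤ r → q ∣ lucasSeq a q r - a ^ r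
  | 1, _ => by simp [lucasSeq]
  | r + 2, _ => by
    obtain ⟨c, hc⟩ := lucasSeq_modEq a q (r + 1) (by omega)
    exact ⟨a * c - lucasSeq a q r, by simp only [lucasSeq]; linear_combination a * hc⟩

/-- Powers of an endomorphism satisfy the quadratic relation given by the Lucas sequence. -/
lemma iterate_relation {G : Type*} [AddCommGroup G] (F : G →+ G) {a q : ℤ}
    (h : ∀ x, F (F x) - a • F x + q • x = 0) (r : ℕ) (x : G) :
    F^[r] (F^[r] x) - lucasSeq a q r • F^[r] x + q ^ r • x = 0 := by
  obtain ⟨c, hc⟩ := dvd_pow_sub_lucasSeq a q r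
  let φ : Module.End ℤ G := F.toIntLinearMap
  have h2 : aeval φ (X ^ 2 - C a * X + C q) = 0 := LinearMap.ext fun y => by
    simp [φ, sq, ← h y]
  have h3 := congrArg (fun P => aeval φ P x) hc
  simp only [map_mul, h2, zero_mul, LinearMap.zero_apply] at h3
  have hpow : ∀ (n : ℕ) (y : G), (φ ^ n) y = F^[n] y := fun n y => by
    rw [Module.End.pow_apply]; rfl
  simpa [hpow, two_mul, pow_add, Function.iterate_add_apply, ← Int.cast_pow] using h3

variable {p : ℕ} [hpF : Fact p.Prime]

/-- If the trace of Frobenius is prime to `p`, the `p`-th division polynomial is not constant. -/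
theorem natDegree_ΨSq_pos_of_trace (E : WeierstrassCurve (ZMod p)) [E.IsElliptic]
    (ha : ¬ (p : ℤ) ∣ E.traceOfFrobenius) : 0 < (E.ΨSq (p : ℤ)).natDegree := by
  classical
  have hp := hpF.out
  let r := p - 1
  have hr : r ≠ 0 := by have := hp.two_le; omega
  let k := GaloisField p r
  let K := AlgebraicClosure k
  let := Fintype.ofFinite k
  have hk : Fintype.card k = p ^ r := by
    rw [← Nat.card_eq_fintype_card]; exact GaloisField.card p r hr
  let Ek : WeierstrassCurve k := E.map (algebraMap (ZMod p) k)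
  let F : (E.toAffine⁄K).Point →+ (E.toAffine⁄K).Point :=
    Affine.Point.map (FiniteField.frobeniusAlgHom (ZMod p) K)
  have e : (Ek.toAffine⁄K).toAffine = (E.toAffine⁄K).toAffine := by
    show ((E.map _).map _ : WeierstrassCurve K) = E.map _
    rw [WeierstrassCurve.map_map]
    exact congrArg E.map (RingHom.ext_zmod _ _)
  have hF : ∀ (n : ℕ) (x y : K) (h : (E.toAffine⁄K).Nonsingular x y),
      ∃ h', F^[n] (.some x y h) = .some (x ^ p ^ n) (y ^ p ^ n) h' := by
    intro n
    induction n with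
    | zero => intro x y h; exact ⟨by simpa using h, by simp⟩
    | succ n ih =>
      intro x y h
      obtain ⟨h', he⟩ := ih x y h
      rw [Function.iterate_succ_apply', he]
      simp only [F, Affine.Point.map_some,
        FiniteField.coe_frobeniusAlgHom, ZMod.card, ← pow_mul, ← pow_succ]
      refine ⟨?_, trivial⟩
      simpa [← pow_mul, ← pow_succ] using (E.toAffine.baseChange_nonsingular
        (f := FiniteField.frobeniusAlgHom (ZMod p) K) (RingHom.injective _) _ _).2 h'
  have hc : ∀ T : (Ek.toAffine⁄K).Point,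
      EllTorsion.pointCongr e (Affine.Point.map (FiniteField.frobeniusAlgHom k K) T) =
        F^[r] (EllTorsion.pointCongr e T) := by
    rintro (_ | ⟨x, y, h⟩)
    · rw [← Affine.Point.zero_def, map_zero, map_zero, iterate_map_zero]
    · rw [Affine.Point.map_some, EllTorsion.pointCongr_some, EllTorsion.pointCongr_some]
      obtain ⟨h', he⟩ := hF r x y (Eq.subst (motive :=
        fun V : WeierstrassCurve.Affine K => V.Nonsingular x y) e h)
      rw [he]
      simp only [FiniteField.coe_frobeniusAlgHom, hk]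
  set t := Ek.traceOfFrobenius
  set s := lucasSeq E.traceOfFrobenius p r
  -- the two relations force `t = s`
  have hkill : ∀ x : (E.toAffine⁄K).Point, (t - s) • F^[r] x = 0 := fun x => by
    obtain ⟨T, rfl⟩ := (EllTorsion.pointCongr e).surjective x
    have h1 := congrArg (EllTorsion.pointCongr e) (EllFrobenius.frobenius_relation Ek T)
    rw [map_add, map_sub, map_zsmul, map_zsmul, map_zero, hc, hc, hk, Nat.cast_pow] at h1
    have h2 := iterate_relation F (a := E.traceOfFrobenius) (q := p) (fun y => by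
      have := EllFrobenius.frobenius_relation (K := K) E y
      rwa [ZMod.card] at this) r (EllTorsion.pointCongr e T)
    rw [sub_zsmul]
    linear_combination (norm := abel) h2 - h1
  have hts : t = s := by
    by_contra hne
    obtain ⟨ℓ, hℓle, hℓ⟩ := Nat.exists_infinite_primes ((t - s).natAbs + p + 1)
    have : Fact ℓ.Prime := ⟨hℓ⟩
    have hℓK : ((ℓ : ℕ) : K) ≠ 0 := by
      rw [Ne, CharP.cast_eq_zero_iff K p]
      exact fun hd => by have := (Nat.prime_dvd_prime_iff_eq hp hℓ).1 hd; omega
    have hcard := EllTorsion.natCard_torsionBy (W := (E.toAffine⁄K).toAffine) ℓ hℓK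
    obtain ⟨P, hP⟩ : ∃ P : Submodule.torsionBy ℤ (E.toAffine⁄K).Point (ℓ : ℤ), P ≠ 0 := by
      by_contra hall
      push Not at hall
      have : Subsingleton (Submodule.torsionBy ℤ (E.toAffine⁄K).Point (ℓ : ℤ)) :=
        ⟨fun x y => by rw [hall x, hall y]⟩
      rw [Nat.card_unique] at hcard
      nlinarith [hℓ.two_le]
    have hP0 : (P : (E.toAffine⁄K).Point) ≠ 0 := fun h => hP (Subtype.ext h)
    have hFinj : Function.Injective F^[r] :=
      (Affine.Point.map_injective (FiniteField.frobeniusAlgHom (ZMod p) K)).iterate r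
    have hord : addOrderOf (F^[r] (P : (E.toAffine⁄K).Point)) = ℓ := by
      refine addOrderOf_eq_prime ?_ fun h => hP0 (hFinj (by rw [h, iterate_map_zero]))
      rw [← iterate_map_nsmul, ← natCast_zsmul, (Submodule.mem_torsionBy_iff _ _).1 P.2,
        iterate_map_zero]
    have hdvd := addOrderOf_dvd_iff_zsmul_eq_zero.2 (hkill (P : (E.toAffine⁄K).Point))
    rw [hord, Int.natCast_dvd] at hdvd
    have := Nat.le_of_dvd (Int.natAbs_pos.2 (sub_ne_zero.2 hne)) hdvd
    omega
  -- so the curve has a point of order `p` over the extension of degree `p - 1`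
  have hdvd : p ∣ Nat.card Ek.toAffine.Point := by
    rw [← Int.natCast_dvd_natCast]
    have h1 : (p : ℤ) ∣ s - 1 := by
      have hF : (p : ℤ) ∣ E.traceOfFrobenius ^ r - 1 := by
        refine Int.ModEq.dvd (Int.ModEq.symm ?_)
        exact Int.ModEq.pow_card_sub_one_eq_one hp (IsCoprime.symm
          ((Prime.coprime_iff_not_dvd (Nat.prime_iff_prime_int.1 hp)).2 ha))
      have := dvd_add (lucasSeq_modEq E.traceOfFrobenius p r (Nat.pos_of_ne_zero hr)) hF
      simpa [s] using this
    have h2 : (Nat.card Ek.toAffine.Point : ℤ) = (p : ℤ) ^ r - (s - 1) := by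
      rw [← hts]
      show _ = (p : ℤ) ^ r - ((Nat.card k : ℤ) + 1 - (Ek.card : ℤ) - 1)
      rw [Nat.card_eq_fintype_card (α := k), hk, WeierstrassCurve.card, Nat.cast_pow]
      ring
    rw [h2]
    exact dvd_sub (dvd_pow_self _ hr) h1
  obtain ⟨P, hP⟩ := exists_prime_addOrderOf_dvd_card' p hdvd
  rcases P with _ | ⟨x, y, h⟩
  · rw [← Affine.Point.zero_def, addOrderOf_zero] at hP; exact absurd hP hp.one_lt.ne
  have hx := (EllTorsion.nsmul_eq_zero_iff h p).1 (addOrderOf_dvd_iff_nsmul_eq_zero.1 hP.dvd)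
  by_contra hd
  rw [not_lt, Nat.le_zero] at hd
  have h0 : E.ΨSq (p : ℤ) ≠ 0 :=
    EllTorsion.ΨSq_ne_zero_of_isElliptic (W := E.toAffine) hp.ne_zero
  refine h0 ((Polynomial.map_eq_zero_iff (algebraMap (ZMod p) k).injective).1 ?_)
  rw [← WeierstrassCurve.map_ΨSq] at *
  have hd' : (Ek.ΨSq (p : ℤ)).natDegree = 0 := by
    rw [WeierstrassCurve.map_ΨSq, natDegree_map, hd]
  rw [eq_C_of_natDegree_eq_zero hd', eval_C] at hx
  rw [eq_C_of_natDegree_eq_zero hd', hx, C_0]

/-- Good reduction is ordinary exactly when `p` does not divide the trace of Frobenius. -/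
theorem isGoodOrdinary_of_not_dvd {W : WeierstrassCurve ℤ} (hgood : W.IsGoodPrimeFor p)
    (ha : ¬ (p : ℤ) ∣ W.apOfModel p) : IsGoodOrdinary W p :=
  haveI := isElliptic_reductionMod hgood
  ⟨hgood, natDegree_ΨSq_pos_of_trace _ ha⟩

end Fermat.Agent.EllLocal
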