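import Fermat.Agent.EllLocal.Supersingular
import Fermat.Agent.FlatJ0.Cond

/-!
# Congruences of integers of a ramified field and tame characters

Auxiliary facts for the ramification bound on the torsion of an elliptic curve with good reduction.
-/

set_option autoImplicit false

open Polynomial

namespace Fermat.Agent.EllLocal

open Fermat.Agent.FlatJ0

local notation "ℚ̄" => AlgebraicClosure ℚ

variable {A : ValuationSubring ℚ̄} {p : ℕ} {N : Subgroup (ℚ̄ ≃ₐ[ℚ] ℚ̄)} {γ : ℚ} {φ : ℚ̄ → ℚ̄}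

lemma kummerRes_pow_left {σ : ℚ̄ ≃ₐ[ℚ] ℚ̄} (hσ : σ ∈ A.decompositionSubgroup ℚ) {w : ℚ̄}
    (hw : w ≠ 0) (k : ℕ) : kummerRes A (w ^ k) σ = kummerRes A w σ ^ k := by
  have hm : σ w / w ∈ A := mem_iff_valuation_le.2 (smul_div_mem hσ hw).le
  rw [kummerRes, kummerRes, map_pow, ← div_pow, resFun_of_mem (pow_mem hm k), resFun_of_mem hm,
    ← map_pow]
  rfl

lemma natCast_mem_fixRing (n : ℕ) (H : Subgroup (ℚ̄ ≃ₐ[ℚ] ℚ̄)) : (n : ℚ̄) ∈ fixRing A H :=
  natCast_mem _ n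

lemma fixRing_mono {H H' : Subgroup (ℚ̄ ≃ₐ[ℚ] ℚ̄)} (h : H ≤ H') {x : ℚ̄}
    (hx : x ∈ fixRing A H') : x ∈ fixRing A H :=
  ⟨hx.1, fun σ hσ => hx.2 σ (h hσ)⟩

variable (h : IsOver A p) (hN : N ≤ A.inertiaSubgroupIn ℚ) (hγ : 0 < γ)
  (hφ : IsHomMod A p N γ φ)
include h hN hγ hφ

omit h hN hγ in
lemma hom_zero : Near A p γ (φ 0) := by
  simpa using hφ.fixed 0 (zero_mem _)

omit hN hγ in
lemma hom_pow {x : ℚ̄} (hx : x ∈ fixRing A N) : ∀ n : ℕ, Near A p γ (φ (x ^ n) - φ x ^ n)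
  | 0 => by simpa using hφ.fixed 1 (one_mem _)
  | n + 1 => by
    have h1 := hφ.mul (x ^ n) (pow_mem hx n) x hx
    have h2 := h.near_mul_right (hom_pow hx n) (hφ.mem x hx)
    have h3 := h.near_add h1 h2
    rw [show φ (x ^ n * x) - φ (x ^ n) * φ x + (φ (x ^ n) - φ x ^ n) * φ x =
      φ (x ^ (n + 1)) - φ x ^ (n + 1) by rw [pow_succ, pow_succ]; ring] at h3
    exact h3

omit hN hγ in
lemma hom_sum {ι : Type*} (s : Finset ι) (f : ι → ℚ̄) (hf : ∀ i ∈ s, f i ∈ fixRing A N) :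
    Near A p γ (φ (∑ i ∈ s, f i) - ∑ i ∈ s, φ (f i)) := by
  classical
  induction s using Finset.induction_on with
  | empty => simpa using hom_zero hφ
  | insert a t ha ih =>
    rw [Finset.sum_insert ha, Finset.sum_insert ha]
    have h1 := hφ.add (f a) (hf a (Finset.mem_insert_self a t)) (∑ i ∈ t, f i)
      (sum_mem fun i hi => hf i (Finset.mem_insert_of_mem hi))
    have h2 := h.near_add h1 (ih fun i hi => hf i (Finset.mem_insert_of_mem hi))
    rwa [show φ (f a + ∑ i ∈ t, f i) - φ (f a) - φ (∑ i ∈ t, f i) +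
      (φ (∑ i ∈ t, f i) - ∑ i ∈ t, φ (f i)) =
      φ (f a + ∑ i ∈ t, f i) - (φ (f a) + ∑ i ∈ t, φ (f i)) by ring] at h2

omit hγ in
/-- `φ` commutes with polynomials over the inertia field. -/
lemma hom_eval (g : ℚ̄[X]) (hg : ∀ i, g.coeff i ∈ fixRing A (A.inertiaSubgroupIn ℚ)) {x : ℚ̄}
    (hx : x ∈ fixRing A N) : Near A p γ (φ (g.eval x) - g.eval (φ x)) := by
  rw [eval_eq_sum_range, eval_eq_sum_range]
  refine h.near_trans (hom_sum h hφ _ (fun i => g.coeff i * x ^ i)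
    (fun i _ => mul_mem (fixRing_mono hN (hg i)) (pow_mem hx i))) ?_
  rw [← Finset.sum_sub_distrib]
  refine h.near_sum _ _ fun i _ => ?_
  have h1 := hφ.mul (g.coeff i) (fixRing_mono hN (hg i)) (x ^ i) (pow_mem hx i)
  have h2 := h.near_mul_left (hφ.mem _ (fixRing_mono hN (hg i))) (hom_pow h hφ hx i)
  have h3 := h.near_mul_right (hφ.fixed _ (hg i)) (pow_mem (hφ.mem x hx) i)
  have h4 := h.near_add (h.near_add h1 h2) h3
  rwa [show φ (g.coeff i * x ^ i) - φ (g.coeff i) * φ (x ^ i) +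
    φ (g.coeff i) * (φ (x ^ i) - φ x ^ i) + (φ (g.coeff i) - g.coeff i) * φ x ^ i =
    φ (g.coeff i * x ^ i) - g.coeff i * φ x ^ i by ring] at h4

omit hN in
/-- `φ` maps units to units. -/
lemma hom_valuation_unit {u : ℚ̄} (hu : u ∈ fixRing A N) (hu1 : A.valuation u = 1) :
    A.valuation (φ u) = 1 := by
  have huinv : u⁻¹ ∈ fixRing A N := by
    refine ⟨mem_iff_valuation_le.2 (by rw [map_inv₀, hu1, inv_one]), fun σ hσ => ?_⟩
    rw [map_inv₀, hu.2 σ hσ]
  have hu0 : u ≠ 0 := fun e => by rw [e, map_zero] at hu1; exact zero_ne_one hu1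
  have h1 := hφ.mul u hu u⁻¹ huinv
  rw [mul_inv_cancel₀ hu0] at h1
  have h2 := h.near_sub (hφ.fixed 1 (one_mem _)) h1
  rw [show φ 1 - 1 - (φ 1 - φ u * φ u⁻¹) = φ u * φ u⁻¹ - 1 by ring] at h2
  have h3 : A.valuation (φ u * φ u⁻¹ - 1) < 1 :=
    (ValuationSubring.mem_nonunits_iff A).1 (h.nonunit_of_near h2 hγ)
  have h4 : A.valuation (φ u * φ u⁻¹) = 1 := by
    have := A.valuation.map_add_eq_of_lt_left (x := 1) (y := φ u * φ u⁻¹ - 1)
      (by rw [map_one]; exact h3)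
    rwa [add_sub_cancel, map_one] at this
  refine le_antisymm (mem_iff_valuation_le.1 (hφ.mem u hu)) ?_
  rw [← h4, map_mul]
  exact mul_le_of_le_one_right zero_le (mem_iff_valuation_le.1 (hφ.mem _ huinv))

omit hN in
/-- An inertia element fixing the image of `φ` has trivial tame character at an element of value
`|p| ^ (1 / d)` of the field cut out by `N`. -/
theorem kummerRes_eq_one_of_hom (hγ1 : 1 < γ) {d : ℕ} (hd : 0 < d) {x : ℚ̄}
    (hx : x ∈ fixRing A N) (hxv : A.valuation x ^ d = A.valuation (p : ℚ̄))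
    {σ : ℚ̄ ≃ₐ[ℚ] ℚ̄} (hσ : σ ∈ A.inertiaSubgroupIn ℚ)
    (hfix : ∀ y ∈ fixRing A N, Near A p γ (σ (φ y) - φ y)) :
    kummerRes A x σ = 1 := by
  have hp0 := h.natCast_ne_zero
  have hx0 : x ≠ 0 := fun e => by
    rw [e, map_zero, zero_pow hd.ne'] at hxv; exact h.val_p_pos.ne hxv
  set u := x ^ d / (p : ℚ̄) with hu
  have hu1 : A.valuation u = 1 := by
    rw [hu, map_div₀, map_pow, hxv, div_self h.val_p_pos.ne']
  have huN : u ∈ fixRing A N := ⟨mem_iff_valuation_le.2 hu1.le,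
    fun τ hτ => by rw [hu, map_div₀, map_pow, hx.2 τ hτ, map_natCast]⟩
  have hφu := hom_valuation_unit h hγ hφ huN hu1
  have hφu0 : φ u ≠ 0 := fun e => by rw [e, map_zero] at hφu; exact zero_ne_one hφu
  -- `(φ x) ^ d = p φ(u)` up to higher order
  have hkey : Near A p γ (φ x ^ d - (p : ℚ̄) * φ u) := by
    have h1 := hom_pow h hφ hx d
    have h2 := hφ.mul (p : ℚ̄) (natCast_mem_fixRing p N) u huN
    rw [show (p : ℚ̄) * u = x ^ d by rw [hu]; field_simp] at h2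
    have h3 := h.near_mul_right (hφ.fixed (p : ℚ̄) (natCast_mem_fixRing p _)) (hφ.mem u huN)
    have h4 := h.near_sub (h.near_add h2 h3) h1
    rwa [show φ (x ^ d) - φ (p : ℚ̄) * φ u + (φ (p : ℚ̄) - (p : ℚ̄)) * φ u -
      (φ (x ^ d) - φ x ^ d) = φ x ^ d - (p : ℚ̄) * φ u by ring] at h4
  have hpu : (p : ℚ̄) * φ u ≠ 0 := mul_ne_zero hp0 hφu0
  have hordu : ord A p (φ u) = 0 := by
    rw [h.ord_eq (d := 1) (z := 0) one_pos (by simpa using hφu)]; simp
  have hord : ord A p ((p : ℚ̄) * φ u) = 1 := by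
    rw [h.ord_mul hp0 hφu0, h.ord_p, hordu, add_zero]
  obtain ⟨hne, hoe⟩ := h.ord_add_eq hpu hkey (by rw [hord]; exact hγ1)
  rw [add_sub_cancel] at hne hoe
  have hw0 : φ x ≠ 0 := fun e => hne (by rw [e, zero_pow hd.ne'])
  have hwd : A.valuation (φ x) ^ d = A.valuation x ^ d := by
    rw [hxv, ← map_pow, (h.valuation_eq_iff hne hpu).2 hoe, map_mul, hφu, mul_one]
  have hw : A.valuation (φ x) = A.valuation x := (pow_left_inj₀ zero_le zero_le hd.ne').1 hwd
  rw [← kummerRes_eq_of_valuation_eq hσ hx0 hw0 hw]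
  have hdx : (d : ℚ) * ord A p (φ x) = 1 := by rw [← h.ord_pow hw0, hoe, hord]
  have hlt : A.valuation ((σ (φ x) - φ x) / φ x) < 1 := by
    rw [map_div₀, div_lt_one₀ (lt_of_le_of_ne zero_le (A.valuation.ne_zero_iff.2 hw0).symm)]
    rcases eq_or_ne (σ (φ x) - φ x) 0 with e | e
    · rw [e, map_zero]; exact lt_of_le_of_ne zero_le (A.valuation.ne_zero_iff.2 hw0).symm
    · rw [h.valuation_lt_iff e hw0]
      have h1 : ord A p (φ x) ≤ 1 := by
        rw [← hdx]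
        refine le_mul_of_one_le_left ?_ (by exact_mod_cast hd)
        exact (h.mem_iff hw0).1 (hφ.mem x hx)
      exact lt_of_lt_of_le (h1.trans_lt hγ1) ((hfix x hx).resolve_left e)
  have hm : σ (φ x) / φ x ∈ A :=
    mem_iff_valuation_le.2 (smul_div_mem (MultRed.inertia_mem_decomposition hσ) hw0).le
  rw [kummerRes, show (1 : kA A) = resFun A 1 from by rw [resFun_of_mem A.one_mem]; exact (map_one _).symm,
    resFun_eq_iff hm A.one_mem]
  rwa [sub_div, div_self hw0] at hlt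

end Fermat.Agent.EllLocal
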