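import Fermat.Agent.EllLocal.Tate
import Fermat.Agent.EllLocal.Mult.DetPow
import Fermat.Prelude.Def_GaloisRep_LocalConditions
import Mathlib.RingTheory.RootsOfUnity.AlgebraicallyClosed

/-!
# Coordinates and determinant of the Tate module
-/

set_option autoImplicit false

open WeierstrassCurve
open scoped WeierstrassCurve.Affine

namespace Fermat.Agent.EllLocal

local notation "ℚ̄" => AlgebraicClosure ℚ

variable {W : WeierstrassCurve ℚ} {p : ℕ} [Fact p.Prime]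

/-- A cyclotomic exponent at the next level. -/
theorem exists_exponent_succ (σ : ℚ̄ ≃ₐ[ℚ] ℚ̄) {n a : ℕ}
    (ha : ∀ μ : ℚ̄, μ ^ p ^ n = 1 → σ μ = μ ^ a) :
    ∃ χ : ℕ, (∀ μ : ℚ̄, μ ^ p ^ (n + 1) = 1 → σ μ = μ ^ χ) ∧ (χ : ZMod (p ^ n)) = a := by
  have hp : p.Prime := Fact.out
  have hN : p ^ (n + 1) ≠ 0 := pow_ne_zero _ hp.ne_zero
  have : NeZero (p ^ (n + 1)) := ⟨hN⟩
  have : NeZero ((p ^ (n + 1) : ℕ) : ℚ̄) := ⟨Nat.cast_ne_zero.2 hN⟩
  obtain ⟨ζ, hζ⟩ := HasEnoughRootsOfUnity.exists_primitiveRoot ℚ̄ (p ^ (n + 1))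
  obtain ⟨χ, -, hχζ⟩ := hζ.eq_pow_of_pow_eq_one (show σ ζ ^ p ^ (n + 1) = 1 by
    rw [← map_pow, hζ.pow_eq_one, map_one])
  have hχ : ∀ μ : ℚ̄, μ ^ p ^ (n + 1) = 1 → σ μ = μ ^ χ := fun μ hμ => by
    obtain ⟨i, -, rfl⟩ := hζ.eq_pow_of_pow_eq_one hμ
    rw [map_pow, ← hχζ, ← pow_mul, ← pow_mul, mul_comm]
  refine ⟨χ, hχ, ?_⟩
  have hζn : IsPrimitiveRoot (ζ ^ p) (p ^ n) :=
    hζ.pow (Nat.pos_of_ne_zero hN) (by rw [pow_succ'])
  have e := (ha _ hζn.pow_eq_one).symm.trans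
    (hχ _ (by rw [← pow_mul, mul_comm, pow_mul, hζ.pow_eq_one, one_pow]))
  rw [ZMod.natCast_eq_natCast_iff, hζn.eq_orderOf]
  exact ((hζn.isOfFinOrder (pow_ne_zero n hp.ne_zero)).pow_eq_pow_iff_modEq).1 e.symm

/-- Components in a basis. -/
theorem apply_eq_coords (b : Module.Basis (Fin 2) ℤ_[p] (tateModule W p)) (f : tateModule W p)
    (n : ℕ) :
    f.1 n = coeffNat (b.repr f 0) n • (b 0).1 n + coeffNat (b.repr f 1) n • (b 1).1 n := by
  conv_lhs => rw [← b.sum_repr f, Fin.sum_univ_two]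
  rfl

variable [W.IsElliptic]

lemma pow_coe_apply (b : Module.Basis (Fin 2) ℤ_[p] (tateModule W p)) (n : ℕ) :
    ∀ P : PtQ W, p ^ n • P = 0 → ∃ i j : ℕ, P = i • (b 0).1 n + j • (b 1).1 n := by
  intro P hP
  obtain ⟨f, rfl⟩ := exists_apply_eq (W := W) n hP
  exact ⟨_, _, apply_eq_coords b f n⟩

/-- The determinant in a basis, modulo `pⁿ`, is the cyclotomic exponent. -/
theorem toZModPow_det_coords (b : Module.Basis (Fin 2) ℤ_[p] (tateModule W p)) (σ : ℚ̄ ≃ₐ[ℚ] ℚ̄)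
    {n a : ℕ} (ha : ∀ μ : ℚ̄, μ ^ p ^ n = 1 → σ μ = μ ^ a) :
    PadicInt.toZModPow n (b.repr ((tateRep W p).ρ σ (b 0)) 0 * b.repr ((tateRep W p).ρ σ (b 1)) 1)
      = a + PadicInt.toZModPow n
        (b.repr ((tateRep W p).ρ σ (b 1)) 0 * b.repr ((tateRep W p).ρ σ (b 0)) 1) := by
  obtain ⟨χ, hχ, hχa⟩ := exists_exponent_succ σ ha
  have h0 := apply_eq_coords b ((tateRep W p).ρ σ (b 0)) (n + 1)
  have h1 := apply_eq_coords b ((tateRep W p).ρ σ (b 1)) (n + 1)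
  rw [tateRep_apply, Affine.Point.algEquiv_smul_def] at h0 h1
  have key := Mult.det_prime_pow (W' := W) ℚ̄ (Fact.out : p.Prime)
    (Nat.cast_ne_zero.2 (Fact.out : p.Prime).ne_zero) (tateModule_pow (b 0) (n + 1))
    (tateModule_pow (b 1) (n + 1)) (pow_coe_apply b (n + 1)) σ h0 h1 hχ
  simp only [Nat.cast_mul, coeffNat_cast_succ, hχa, ← map_mul] at key
  exact key

/-- The determinant of the Tate module is the cyclotomic character. -/
theorem tateRep_detIsCyclotomic (W : WeierstrassCurve ℚ) [W.IsElliptic] (p : ℕ) [Fact p.Prime] :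
    (tateRep W p).DetIsCyclotomic p := by
  refine ⟨by rw [PadicInt.maximalIdeal_eq_span_p]; exact Ideal.mem_span_singleton_self _,
    fun n σ a ha => ?_⟩
  obtain ⟨b⟩ := nonempty_basis_tateModule W p
  have hdet : LinearMap.det ((tateRep W p).ρ σ) =
      b.repr ((tateRep W p).ρ σ (b 0)) 0 * b.repr ((tateRep W p).ρ σ (b 1)) 1 -
        b.repr ((tateRep W p).ρ σ (b 1)) 0 * b.repr ((tateRep W p).ρ σ (b 0)) 1 := by
    refine (LinearMap.det_toMatrix b ((tateRep W p).ρ σ : tateModule W p →ₗ[ℤ_[p]] tateModule W p)).symm.trans ?_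
    simp only [Matrix.det_fin_two, LinearMap.toMatrix_apply]
    rfl
  rw [Nat.cast_pow, ← PadicInt.ker_toZModPow, RingHom.mem_ker, hdet, map_sub, map_sub, map_natCast,
    toZModPow_det_coords b σ ha]
  ring

end Fermat.Agent.EllLocal
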