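import Fermat.Agent.EllLocal.IntCurve
import Fermat.Agent.EllLocal.TateDet

/-!
# Good ordinary reduction

At a place over a prime `p` of good reduction whose reduction has a point of order `p`, the Tate
module is an extension of an unramified character by the cyclotomic character times an
unramified one.
-/

set_option autoImplicit false

open WeierstrassCurve
open scoped WeierstrassCurve.Affine Pointwise

namespace Fermat.Agent.EllLocal

local notation "ℚ̄" => AlgebraicClosure ℚ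

attribute [local instance] instDecEqKA

/-- The reduction at the place has a nonzero point of order dividing `p`. -/
def OrdinaryRedAt (W : WeierstrassCurve ℤ) (A : ValuationSubring (AlgebraicClosure ℚ)) (p : ℕ) :
    Prop :=
  ∃ Q : (curveK W A).Point, Q ≠ 0 ∧ p • Q = 0

lemma isElliptic_map_rat {W : WeierstrassCurve ℤ} {p : ℕ} (hgood : W.IsGoodPrimeFor p) :
    (W.map (Int.castRingHom ℚ)).IsElliptic := by
  refine ⟨?_⟩
  rw [WeierstrassCurve.map_Δ, isUnit_iff_ne_zero]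
  simp only [eq_intCast, Ne, Int.cast_eq_zero]
  intro h
  exact hgood (h ▸ dvd_zero _)

lemma isElliptic_curveK {W : WeierstrassCurve ℤ} {A : ValuationSubring ℚ̄} {p : ℕ}
    (hp : p.Prime) (hA : A.LiesOverPrime p) (hgood : W.IsGoodPrimeFor p) :
    (curveK W A).IsElliptic := by
  refine ⟨?_⟩
  show IsUnit (W.map (Int.castRingHom (kA A))).Δ
  have := charP_kA hp hA
  rw [WeierstrassCurve.map_Δ, isUnit_iff_ne_zero, eq_intCast, Ne,
    CharP.intCast_eq_zero_iff (kA A) p]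
  exact hgood

variable {W : WeierstrassCurve ℤ} {A : ValuationSubring ℚ̄} {p : ℕ} [hpF : Fact p.Prime]
  [(W.map (Int.castRingHom ℚ)).IsElliptic]
  (hA : A.LiesOverPrime p) (hgood : W.IsGoodPrimeFor p)

/-- Reduction at the place. -/
noncomputable abbrev redAt :
    PtQ (W.map (Int.castRingHom ℚ)) →+ (curveK W A).Point :=
  residueRed hpF.out hA hgood

omit [(W.map (Int.castRingHom ℚ)).IsElliptic] in
lemma redAt_smul_eq_zero {σ : ℚ̄ ≃ₐ[ℚ] ℚ̄} (hσ : σ ∈ A.decompositionSubgroup ℚ)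
    {P : PtQ (W.map (Int.castRingHom ℚ))} (h : redAt hA hgood P = 0) :
    redAt hA hgood (σ • P) = 0 := by
  rw [redAt, residueRed_smul hpF.out hA hgood hσ, h, map_zero]

/-- The kernel of reduction is divisible by `p` on torsion. -/
theorem exists_nsmul_eq_redAt_eq_zero {P : PtQ (W.map (Int.castRingHom ℚ))}
    (h : redAt hA hgood P = 0) :
    ∃ R, p • R = P ∧ redAt hA hgood R = 0 := by
  obtain ⟨Q, rfl⟩ := exists_nsmul_eq hpF.out.ne_zero P
  obtain ⟨R, hR, hRQ⟩ := exists_residueRed_eq hpF.out hA hgood hpF.out.ne_zero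
    (Q := redAt hA hgood Q) (by rw [← map_nsmul]; exact h)
  exact ⟨Q - R, by rw [nsmul_sub, hR, sub_zero], by rw [map_sub, redAt, hRQ, sub_self]⟩

/-- A compatible system in the kernel of reduction with nonzero first term. -/
theorem exists_kernel_system :
    ∃ f : tateModule (W.map (Int.castRingHom ℚ)) p,
      (∀ n, redAt hA hgood (f.1 n) = 0) ∧ f.1 1 ≠ 0 := by
  classical
  obtain ⟨P, hP0, hP, hPk⟩ :=
    exists_ne_zero_residueRed_eq_zero hpF.out hA hgood hpF.out.ne_zero dvd_rfl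
  let K := {R : PtQ (W.map (Int.castRingHom ℚ)) // redAt hA hgood R = 0}
  choose lift hlift using fun R : K => exists_nsmul_eq_redAt_eq_zero hA hgood R.2
  let g : ℕ → K := fun k => Nat.rec ⟨P, hPk⟩ (fun _ R => ⟨lift R, (hlift R).2⟩) k
  let f : ℕ → PtQ (W.map (Int.castRingHom ℚ)) := fun n => if n = 0 then 0 else (g (n - 1)).1
  have hg : ∀ k, p • (g (k + 1)).1 = (g k).1 := fun k => (hlift (g k)).1
  have hf : ∀ n, p • f (n + 1) = f n := by
    rintro (_ | n)
    · simpa [f, g] using hP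
    · simpa [f] using hg n
  have hfp : ∀ n, p ^ n • f n = 0 := by
    intro n
    induction n with
    | zero => simp [f]
    | succ n ih => rw [pow_succ, mul_nsmul', hf, ih]
  refine ⟨⟨f, fun n => ⟨hfp n, hf n⟩⟩, fun n => ?_, by simpa [f, g] using hP0⟩
  rcases n with _ | n
  · simp [f]
  · simpa [f] using (g n).2

/-- A basis of the Tate module adapted to the kernel of reduction. -/
theorem exists_ordinary_basis (hord : OrdinaryRedAt W A p) :
    ∃ b : Module.Basis (Fin 2) ℤ_[p] (tateModule (W.map (Int.castRingHom ℚ)) p),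
      (∀ n, redAt hA hgood ((b 0).1 n) = 0) ∧ redAt hA hgood ((b 1).1 1) ≠ 0 := by
  classical
  have hp := hpF.out
  obtain ⟨e₁, he₁, he₁0⟩ := exists_kernel_system hA hgood (W := W) (p := p)
  obtain ⟨Q, hQ0, hQ⟩ := hord
  obtain ⟨P₂, hP₂, hP₂Q⟩ := exists_residueRed_eq hp hA hgood hp.ne_zero hQ
  obtain ⟨e₂, he₂⟩ := exists_apply_eq (W := W.map (Int.castRingHom ℚ)) (p := p) 1 (P := P₂)
    (by rw [pow_one]; exact hP₂)
  have hP₁ : p • e₁.1 1 = 0 := by simpa using tateModule_pow e₁ 1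
  have hordQ : addOrderOf Q = p := addOrderOf_eq_prime hQ hQ0
  have hord₁ : addOrderOf (e₁.1 1) = p := addOrderOf_eq_prime hP₁ he₁0
  let F : Fin p × Fin p →
      Submodule.torsionBy ℤ (PtQ (W.map (Int.castRingHom ℚ))) ((p : ℕ) : ℤ) := fun ij =>
    ⟨(ij.1 : ℕ) • e₁.1 1 + (ij.2 : ℕ) • e₂.1 1, by
      rw [Submodule.mem_torsionBy_iff, natCast_zsmul, nsmul_add, smul_comm, hP₁, nsmul_zero,
        zero_add, smul_comm, he₂, hP₂, nsmul_zero]⟩
  have hF : Function.Injective F := by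
    rintro ⟨i, j⟩ ⟨i', j'⟩ h
    have h' : (i : ℕ) • e₁.1 1 + (j : ℕ) • e₂.1 1 = (i' : ℕ) • e₁.1 1 + (j' : ℕ) • e₂.1 1 :=
      congrArg Subtype.val h
    have h'' := congrArg (redAt hA hgood) h'
    simp only [map_add, map_nsmul, he₁, nsmul_zero, zero_add, he₂] at h''
    rw [show redAt hA hgood P₂ = Q from hP₂Q] at h''
    rw [nsmul_eq_nsmul_iff_modEq, hordQ] at h''
    have hj : j = j' := Fin.ext (Nat.ModEq.eq_of_lt_of_lt h'' j.2 j'.2)
    subst hj
    rw [add_left_inj, nsmul_eq_nsmul_iff_modEq, hord₁] at h'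
    exact Prod.ext (Fin.ext (Nat.ModEq.eq_of_lt_of_lt h' i.2 i'.2)) rfl
  have := EllTorsion.finite_torsionBy_baseChange (W.map (Int.castRingHom ℚ)) ℚ̄ hp.ne_zero
  have hFs : Function.Surjective F := (hF.bijective_of_nat_card_le (by
    rw [EllTorsion.natCard_torsionBy_baseChange (W.map (Int.castRingHom ℚ)) ℚ̄ p
      (Nat.cast_ne_zero.mpr hp.ne_zero), Nat.card_prod, Nat.card_fin, sq])).2
  obtain ⟨b, hb₀, hb₁⟩ := exists_basis_of_gen_one e₁ e₂ fun P hP => by
    obtain ⟨⟨i, j⟩, hij⟩ := hFs ⟨P, by rw [Submodule.mem_torsionBy_iff, natCast_zsmul]; exact hP⟩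
    exact ⟨i, j, (congrArg Subtype.val hij).symm⟩
  exact ⟨b, hb₀ ▸ he₁, by rw [hb₁, he₂, redAt, hP₂Q]; exact hQ0⟩

section Adapted

variable {b : Module.Basis (Fin 2) ℤ_[p] (tateModule (W.map (Int.castRingHom ℚ)) p)}
  (hb₀ : ∀ n, redAt hA hgood ((b 0).1 n) = 0) (hb₁ : redAt hA hgood ((b 1).1 1) ≠ 0)

omit [(W.map (Int.castRingHom ℚ)).IsElliptic] in
include hb₀ in
lemma redAt_apply (f : tateModule (W.map (Int.castRingHom ℚ)) p) (n : ℕ) :
    redAt hA hgood (f.1 n) = coeffNat (b.repr f 1) n • redAt hA hgood ((b 1).1 n) := by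
  rw [apply_eq_coords b f n, map_add, map_nsmul, map_nsmul, hb₀, nsmul_zero, zero_add]

omit [(W.map (Int.castRingHom ℚ)).IsElliptic] in
include hb₁ in
lemma addOrderOf_redAt (n : ℕ) : addOrderOf (redAt hA hgood ((b 1).1 n)) = p ^ n := by
  rcases n with _ | n
  · rw [pow_zero, AddMonoid.addOrderOf_eq_one_iff,
      show (b 1).1 0 = 0 by simpa using tateModule_pow (b 1) 0, map_zero]
  refine addOrderOf_eq_prime_pow ?_ (by rw [← map_nsmul, tateModule_pow, map_zero])
  have h := tateModule_pow_add (b 1) 1 n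
  rw [Nat.add_comm 1 n] at h
  rw [← map_nsmul, h]
  exact hb₁

omit [(W.map (Int.castRingHom ℚ)).IsElliptic] in
include hb₀ hb₁ in
/-- The kernel of reduction is the first line. -/
theorem redAt_eq_zero_iff_toZModPow (f : tateModule (W.map (Int.castRingHom ℚ)) p) (n : ℕ) :
    redAt hA hgood (f.1 n) = 0 ↔ PadicInt.toZModPow n (b.repr f 1) = 0 := by
  rw [redAt_apply hA hgood hb₀, ← addOrderOf_dvd_iff_nsmul_eq_zero,
    addOrderOf_redAt hA hgood hb₁, ← ZMod.natCast_eq_zero_iff, coeffNat_cast]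

omit [(W.map (Int.castRingHom ℚ)).IsElliptic] in
include hb₀ hb₁ in
theorem repr_one_eq_zero_iff (f : tateModule (W.map (Int.castRingHom ℚ)) p) :
    b.repr f 1 = 0 ↔ ∀ n, redAt hA hgood (f.1 n) = 0 := by
  refine ⟨fun h n => (redAt_eq_zero_iff_toZModPow hA hgood hb₀ hb₁ f n).2 (by rw [h, map_zero]),
    fun h => PadicInt.ext_of_toZModPow.1 fun n => ?_⟩
  rw [(redAt_eq_zero_iff_toZModPow hA hgood hb₀ hb₁ f n).1 (h n), map_zero]

omit [(W.map (Int.castRingHom ℚ)).IsElliptic] in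
include hb₀ hb₁ in
/-- Decomposition automorphisms preserve the line. -/
theorem repr_rho_zero_one {σ : ℚ̄ ≃ₐ[ℚ] ℚ̄} (hσ : σ ∈ A.decompositionSubgroup ℚ) :
    b.repr (tateAct σ (b 0)) 1 = 0 :=
  (repr_one_eq_zero_iff hA hgood hb₀ hb₁ _).2 fun n => redAt_smul_eq_zero hA hgood hσ (hb₀ n)

omit [(W.map (Int.castRingHom ℚ)).IsElliptic] in
include hb₀ hb₁ in
/-- Inertia is trivial on the quotient. -/
theorem repr_rho_sub_one {σ : ℚ̄ ≃ₐ[ℚ] ℚ̄} (hσ : σ ∈ A.inertiaSubgroupIn ℚ)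
    (f : tateModule (W.map (Int.castRingHom ℚ)) p) :
    b.repr (tateAct σ f - f) 1 = 0 :=
  (repr_one_eq_zero_iff hA hgood hb₀ hb₁ _).2 fun n => by
    show redAt hA hgood (σ • f.1 n - f.1 n) = 0
    rw [map_sub, redAt, residueRed_inertia_smul hpF.out hA hgood hσ, sub_self]

include hb₀ hb₁ in
/-- The product of the two diagonal characters is cyclotomic. -/
theorem toZModPow_diagonal {σ : ℚ̄ ≃ₐ[ℚ] ℚ̄} (hσ : σ ∈ A.decompositionSubgroup ℚ) {n a : ℕ}
    (ha : ∀ μ : ℚ̄, μ ^ p ^ n = 1 → σ μ = μ ^ a) :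
    PadicInt.toZModPow n (b.repr (tateAct σ (b 0)) 0 *
      b.repr (tateAct σ (b 1)) 1) = a := by
  refine (toZModPow_det_coords b σ ha).trans ?_
  show (a : ZMod (p ^ n)) + PadicInt.toZModPow n
    (b.repr (tateAct σ (b 1)) 0 * b.repr (tateAct σ (b 0)) 1) = a
  rw [repr_rho_zero_one hA hgood hb₀ hb₁ hσ, mul_zero, map_zero, add_zero]

end Adapted

end Fermat.Agent.EllLocal
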