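import Fermat.Agent.MultRed.Basic
import Mathlib.RingTheory.Valuation.ValuationSubring
import Mathlib.RingTheory.Valuation.RamificationGroup
import Mathlib.RingTheory.LocalRing.ResidueField.Basic

/-!
# Reduction at a place of good reduction

`W₀` is a Weierstrass curve over a valuation subring `A` of a field `L` with unit discriminant.
`redHom` sends a point with non-integral abscissa to the origin and an integral point to its
residues; it is a homomorphism, with kernel the points reducing to the origin.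
-/

set_option autoImplicit false

open WeierstrassCurve
open scoped Pointwise

namespace Fermat.Agent.EllLocal

variable {L : Type*} [Field L]

section Residue

variable (A : ValuationSubring L)

open Classical in
/-- Residue of an element, zero outside `A`. -/
noncomputable def resFun (x : L) : IsLocalRing.ResidueField A :=
  if h : x ∈ A then IsLocalRing.residue A ⟨x, h⟩ else 0

variable {A}

lemma resFun_of_mem {x : L} (h : x ∈ A) : resFun A x = IsLocalRing.residue A ⟨x, h⟩ :=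
  dif_pos h

lemma resFun_coe (a : A) : resFun A (a : L) = IsLocalRing.residue A a :=
  resFun_of_mem a.2

lemma mem_iff_valuation_le {x : L} : x ∈ A ↔ A.valuation x ≤ 1 :=
  (A.valuation_le_one_iff x).symm

lemma not_mem_iff_one_lt {x : L} : x ∉ A ↔ 1 < A.valuation x := by
  rw [mem_iff_valuation_le, not_le]

lemma resFun_eq_zero_iff {x : L} (h : x ∈ A) : resFun A x = 0 ↔ A.valuation x < 1 := by
  rw [resFun_of_mem h, IsLocalRing.residue_eq_zero_iff, A.valuation_lt_one_iff]

lemma resFun_add {x y : L} (hx : x ∈ A) (hy : y ∈ A) :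
    resFun A (x + y) = resFun A x + resFun A y := by
  rw [resFun_of_mem hx, resFun_of_mem hy, resFun_of_mem (add_mem hx hy), ← map_add]; rfl

lemma resFun_sub {x y : L} (hx : x ∈ A) (hy : y ∈ A) :
    resFun A (x - y) = resFun A x - resFun A y := by
  rw [resFun_of_mem hx, resFun_of_mem hy, resFun_of_mem (sub_mem hx hy), ← map_sub]; rfl

lemma resFun_mul {x y : L} (hx : x ∈ A) (hy : y ∈ A) :
    resFun A (x * y) = resFun A x * resFun A y := by
  rw [resFun_of_mem hx, resFun_of_mem hy, resFun_of_mem (mul_mem hx hy), ← map_mul]; rfl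

lemma resFun_eq_iff {x y : L} (hx : x ∈ A) (hy : y ∈ A) :
    resFun A x = resFun A y ↔ A.valuation (x - y) < 1 := by
  rw [← sub_eq_zero, ← resFun_sub hx hy, resFun_eq_zero_iff (sub_mem hx hy)]

lemma div_mem_of_unit {a b : L} (ha : a ∈ A) (hb : A.valuation b = 1) : a / b ∈ A := by
  rw [mem_iff_valuation_le, map_div₀, hb, div_one]; exact mem_iff_valuation_le.1 ha

lemma resFun_div_of_unit {a b : L} (ha : a ∈ A) (hb : A.valuation b = 1) :
    resFun A (a / b) = resFun A a / resFun A b := by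
  have hb' : b ∈ A := mem_iff_valuation_le.2 hb.le
  have hne : resFun A b ≠ 0 := fun h => ((resFun_eq_zero_iff hb').1 h).ne hb
  rw [eq_div_iff hne, ← resFun_mul (div_mem_of_unit ha hb) hb',
    div_mul_cancel₀ _ (A.valuation.ne_zero_iff.1 (by rw [hb]; exact one_ne_zero))]

lemma valuation_eq_one_of_resFun_ne_zero {x : L} (h : x ∈ A) (hne : resFun A x ≠ 0) :
    A.valuation x = 1 :=
  le_antisymm (mem_iff_valuation_le.1 h) (not_lt.1 fun hlt => hne ((resFun_eq_zero_iff h).2 hlt))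

end Residue

variable {A : ValuationSubring L} (W₀ : WeierstrassCurve A)

/-- Generic fibre of a curve over a valuation subring. -/
abbrev genericFibre : WeierstrassCurve.Affine L := (W₀.map A.subtype).toAffine

/-- Special fibre of a curve over a valuation subring. -/
abbrev specialFibre : WeierstrassCurve.Affine (IsLocalRing.ResidueField A) :=
  (W₀.map (IsLocalRing.residue A)).toAffine

lemma intCoeffs_genericFibre : MultRed.IntCoeffs A.valuation (genericFibre W₀) := by
  constructor <;> exact mem_iff_valuation_le.1 (SetLike.coe_mem _)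

lemma resFun_a₁ : resFun A (genericFibre W₀).a₁ = (specialFibre W₀).a₁ := resFun_coe _
lemma resFun_a₂ : resFun A (genericFibre W₀).a₂ = (specialFibre W₀).a₂ := resFun_coe _
lemma resFun_a₃ : resFun A (genericFibre W₀).a₃ = (specialFibre W₀).a₃ := resFun_coe _
lemma resFun_a₄ : resFun A (genericFibre W₀).a₄ = (specialFibre W₀).a₄ := resFun_coe _
variable {W₀}

lemma y_mem_of_x_mem {x y : L} (h : (genericFibre W₀).Equation x y) (hx : x ∈ A) : y ∈ A :=
  mem_iff_valuation_le.2
    (MultRed.vy_le (intCoeffs_genericFibre W₀) h (mem_iff_valuation_le.1 hx))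

lemma equation_resFun {x y : L} (h : (genericFibre W₀).Equation x y) (hx : x ∈ A) :
    (specialFibre W₀).Equation (resFun A x) (resFun A y) := by
  have hy := y_mem_of_x_mem h hx
  rw [resFun_of_mem hx, resFun_of_mem hy]
  refine Affine.Equation.map _ ?_
  exact (Affine.map_equation (W := W₀.toAffine) (f := A.subtype) Subtype.val_injective ⟨x, hx⟩ ⟨y, hy⟩).1 h

variable [W₀.IsElliptic]

lemma inE0_genericFibre (P : (genericFibre W₀).Point) :
    MultRed.InE0 A.valuation (genericFibre W₀) P := by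
  refine MultRed.inE0_of_vΔ_eq_one (intCoeffs_genericFibre W₀) ?_ P
  rw [WeierstrassCurve.map_Δ]
  exact (A.valuation_eq_one_iff _).1 W₀.isUnit_Δ

open Classical in
/-- Reduction of a point. -/
noncomputable def redPoint : (genericFibre W₀).Point → (specialFibre W₀).Point
  | .zero => 0
  | .some x _ h => if hx : x ∈ A then Affine.Point.mk (equation_resFun h.1 hx) else 0

lemma redPoint_zero : redPoint (0 : (genericFibre W₀).Point) = 0 := rfl

lemma redPoint_some_of_mem {x y : L} (h : (genericFibre W₀).Nonsingular x y) (hx : x ∈ A) :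
    redPoint (.some x y h) = Affine.Point.mk (equation_resFun h.1 hx) := by
  simp [redPoint, hx]

lemma redPoint_some_of_not_mem {x y : L} (h : (genericFibre W₀).Nonsingular x y) (hx : x ∉ A) :
    redPoint (.some x y h) = 0 := by
  simp [redPoint, hx]

/-- The kernel of reduction consists of the points reducing to the origin. -/
lemma redPoint_eq_zero_iff (P : (genericFibre W₀).Point) :
    redPoint P = 0 ↔ MultRed.InE1 A.valuation (genericFibre W₀) P := by
  rcases P with _ | ⟨x, y, h⟩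
  · exact iff_of_true rfl trivial
  by_cases hx : x ∈ A
  · rw [redPoint_some_of_mem h hx]
    exact iff_of_false (Affine.Point.some_ne_zero _) (not_lt.2 (mem_iff_valuation_le.1 hx))
  · rw [redPoint_some_of_not_mem h hx]
    exact iff_of_true rfl (not_mem_iff_one_lt.1 hx)

omit [W₀.IsElliptic] in
lemma resFun_negY {x y : L} (hx : x ∈ A) (hy : y ∈ A) :
    resFun A ((genericFibre W₀).negY x y) = (specialFibre W₀).negY (resFun A x) (resFun A y) := by
  have h1 : (genericFibre W₀).a₁ ∈ A := SetLike.coe_mem _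
  have h3 : (genericFibre W₀).a₃ ∈ A := SetLike.coe_mem _
  simp only [Affine.negY]
  rw [resFun_sub (sub_mem (neg_mem hy) (mul_mem h1 hx)) h3,
    resFun_sub (neg_mem hy) (mul_mem h1 hx), resFun_mul h1 hx, resFun_a₁, resFun_a₃]
  congr 2
  rw [show (-y : L) = 0 - y by ring, resFun_sub (zero_mem _) hy,
    (resFun_eq_zero_iff (zero_mem _)).2 (by simp), zero_sub]

lemma redPoint_neg (P : (genericFibre W₀).Point) : redPoint (-P) = -redPoint P := by
  rcases P with _ | ⟨x, y, h⟩
  · rfl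
  rw [Affine.Point.neg_some]
  by_cases hx : x ∈ A
  · rw [redPoint_some_of_mem _ hx, redPoint_some_of_mem h hx, Affine.Point.mk, Affine.Point.mk,
      Affine.Point.neg_some]
    congr 1
    exact resFun_negY hx (y_mem_of_x_mem h.1 hx)
  · rw [redPoint_some_of_not_mem _ hx, redPoint_some_of_not_mem h hx]; rfl

variable [DecidableEq L] [DecidableEq (IsLocalRing.ResidueField A)]

omit [W₀.IsElliptic] in
/-- The slope of two integral points with non-opposite residues is integral and reduces to the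
slope of the residues. -/
lemma slope_mem_and_resFun {x₁ y₁ x₂ y₂ : L}
    (h₁ : (genericFibre W₀).Equation x₁ y₁) (h₂ : (genericFibre W₀).Equation x₂ y₂)
    (hx₁ : x₁ ∈ A) (hx₂ : x₂ ∈ A)
    (hop : ¬(resFun A x₁ = resFun A x₂ ∧
      resFun A y₁ = (specialFibre W₀).negY (resFun A x₂) (resFun A y₂))) :
    (genericFibre W₀).slope x₁ x₂ y₁ y₂ ∈ A ∧
      resFun A ((genericFibre W₀).slope x₁ x₂ y₁ y₂) =
        (specialFibre W₀).slope (resFun A x₁) (resFun A x₂) (resFun A y₁) (resFun A y₂) := by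
  have hy₁ : y₁ ∈ A := y_mem_of_x_mem h₁ hx₁
  have hy₂ : y₂ ∈ A := y_mem_of_x_mem h₂ hx₂
  have m1 : (genericFibre W₀).a₁ ∈ A := SetLike.coe_mem _
  have m2 : (genericFibre W₀).a₂ ∈ A := SetLike.coe_mem _
  have m3 : (genericFibre W₀).a₃ ∈ A := SetLike.coe_mem _
  have m4 : (genericFibre W₀).a₄ ∈ A := SetLike.coe_mem _
  by_cases hxk : resFun A x₁ = resFun A x₂
  · have hyk : resFun A y₁ ≠ (specialFibre W₀).negY (resFun A x₂) (resFun A y₂) :=
      fun h => hop ⟨hxk, h⟩
    have hyy : resFun A y₁ = resFun A y₂ :=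
      Affine.Y_eq_of_Y_ne (equation_resFun h₁ hx₁) (equation_resFun h₂ hx₂) hxk hyk
    have hxy : ¬(x₁ = x₂ ∧ y₁ = (genericFibre W₀).negY x₂ y₂) := fun ⟨e₁, e₂⟩ =>
      hop ⟨by rw [e₁], by rw [e₂, resFun_negY hx₂ hy₂]⟩
    obtain ⟨D, hD⟩ : ∃ D, D = y₁ - (genericFibre W₀).negY x₂ y₂ := ⟨_, rfl⟩
    obtain ⟨N, hN⟩ : ∃ N, N = x₁ * x₁ + x₁ * x₂ + x₂ * x₂ + (genericFibre W₀).a₂ * (x₁ + x₂) +
        (genericFibre W₀).a₄ - (genericFibre W₀).a₁ * y₁ := ⟨_, rfl⟩
    have hnY : (genericFibre W₀).negY x₂ y₂ ∈ A :=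
      sub_mem (sub_mem (neg_mem hy₂) (mul_mem m1 hx₂)) m3
    have hDm : D ∈ A := hD ▸ sub_mem hy₁ hnY
    have hN0 : x₁ * x₁ + x₁ * x₂ ∈ A := add_mem (mul_mem hx₁ hx₁) (mul_mem hx₁ hx₂)
    have hN1 : x₁ * x₁ + x₁ * x₂ + x₂ * x₂ ∈ A := add_mem hN0 (mul_mem hx₂ hx₂)
    have hN2 := add_mem hN1 (mul_mem m2 (add_mem hx₁ hx₂))
    have hNm : N ∈ A := hN ▸ sub_mem (add_mem hN2 m4) (mul_mem m1 hy₁)
    have hDk : resFun A D =
        resFun A y₁ - (specialFibre W₀).negY (resFun A x₁) (resFun A y₁) := by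
      rw [hD, resFun_sub hy₁ hnY, resFun_negY hx₂ hy₂, ← hyy, ← hxk]
    have hne : resFun A y₁ - (specialFibre W₀).negY (resFun A x₁) (resFun A y₁) ≠ 0 :=
      sub_ne_zero.2 (by rwa [← hxk, ← hyy] at hyk)
    have hDv : A.valuation D = 1 := valuation_eq_one_of_resFun_ne_zero hDm (hDk ▸ hne)
    have hD0 : D ≠ 0 := A.valuation.ne_zero_iff.1 (by rw [hDv]; exact one_ne_zero)
    have hs : (genericFibre W₀).slope x₁ x₂ y₁ y₂ = N / D := by
      rw [eq_div_iff hD0]
      by_cases hxx : x₁ = x₂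
      · have hyne : y₁ ≠ (genericFibre W₀).negY x₂ y₂ := fun h => hxy ⟨hxx, h⟩
        obtain rfl := Affine.Y_eq_of_Y_ne h₁ h₂ hxx hyne
        subst hxx
        rw [Affine.slope_of_Y_ne rfl hyne, hD, div_mul_cancel₀ _ (sub_ne_zero.2 hyne), hN]
        ring
      · rw [Affine.slope_of_X_ne hxx, div_mul_eq_mul_div, div_eq_iff (sub_ne_zero.2 hxx), hD, hN]
        simp only [Affine.negY]
        linear_combination (Affine.equation_iff _ _).1 h₁ - (Affine.equation_iff _ _).1 h₂
    refine ⟨hs ▸ div_mem_of_unit hNm hDv, ?_⟩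
    rw [hs, resFun_div_of_unit hNm hDv, hDk, Affine.slope_of_Y_ne hxk hyk, hN,
      resFun_sub (add_mem hN2 m4) (mul_mem m1 hy₁), resFun_add hN2 m4,
      resFun_add hN1 (mul_mem m2 (add_mem hx₁ hx₂)), resFun_add hN0 (mul_mem hx₂ hx₂),
      resFun_add (mul_mem hx₁ hx₁) (mul_mem hx₁ hx₂), resFun_mul m2 (add_mem hx₁ hx₂),
      resFun_add hx₁ hx₂, resFun_mul m1 hy₁, resFun_mul hx₁ hx₂, resFun_mul hx₁ hx₁,
      resFun_mul hx₂ hx₂, resFun_a₁, resFun_a₂, resFun_a₄, ← hxk]
    ring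
  · have hxne : x₁ ≠ x₂ := fun h => hxk (by rw [h])
    have hv : A.valuation (x₁ - x₂) = 1 :=
      valuation_eq_one_of_resFun_ne_zero (sub_mem hx₁ hx₂)
        (by rw [resFun_sub hx₁ hx₂]; exact sub_ne_zero.2 hxk)
    rw [Affine.slope_of_X_ne hxne, Affine.slope_of_X_ne hxk]
    exact ⟨div_mem_of_unit (sub_mem hy₁ hy₂) hv, by
      rw [resFun_div_of_unit (sub_mem hy₁ hy₂) hv, resFun_sub hy₁ hy₂, resFun_sub hx₁ hx₂]⟩

/-- Two integral points with non-opposite residues. -/
lemma redPoint_add_of_not_opposite {x₁ y₁ x₂ y₂ : L}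
    (h₁ : (genericFibre W₀).Nonsingular x₁ y₁) (h₂ : (genericFibre W₀).Nonsingular x₂ y₂)
    (hx₁ : x₁ ∈ A) (hx₂ : x₂ ∈ A)
    (hop : ¬(resFun A x₁ = resFun A x₂ ∧
      resFun A y₁ = (specialFibre W₀).negY (resFun A x₂) (resFun A y₂))) :
    redPoint (.some x₁ y₁ h₁ + .some x₂ y₂ h₂) =
      redPoint (.some x₁ y₁ h₁) + redPoint (.some x₂ y₂ h₂) := by
  have hy₁ : y₁ ∈ A := y_mem_of_x_mem h₁.1 hx₁
  have hxy : ¬(x₁ = x₂ ∧ y₁ = (genericFibre W₀).negY x₂ y₂) := fun ⟨e₁, e₂⟩ =>
    hop ⟨by rw [e₁], by rw [e₂, resFun_negY hx₂ (y_mem_of_x_mem h₂.1 hx₂)]⟩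
  obtain ⟨hsm, hsk⟩ := slope_mem_and_resFun h₁.1 h₂.1 hx₁ hx₂ hop
  rw [Affine.Point.add_some hxy, redPoint_some_of_mem h₁ hx₁, redPoint_some_of_mem h₂ hx₂]
  obtain ⟨sA, hsA⟩ : ∃ s : A, A.subtype s = (genericFibre W₀).slope x₁ x₂ y₁ y₂ :=
    ⟨⟨_, hsm⟩, rfl⟩
  have ex : (genericFibre W₀).addX x₁ x₂ ((genericFibre W₀).slope x₁ x₂ y₁ y₂) =
      A.subtype (W₀.toAffine.addX ⟨x₁, hx₁⟩ ⟨x₂, hx₂⟩ sA) := by
    rw [← hsA, ← Affine.map_addX]; rfl
  have ey : (genericFibre W₀).addY x₁ x₂ y₁ ((genericFibre W₀).slope x₁ x₂ y₁ y₂) =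
      A.subtype (W₀.toAffine.addY ⟨x₁, hx₁⟩ ⟨x₂, hx₂⟩ ⟨y₁, hy₁⟩ sA) := by
    rw [← hsA, ← Affine.map_addY]; rfl
  have es : (specialFibre W₀).slope (resFun A x₁) (resFun A x₂) (resFun A y₁) (resFun A y₂) =
      IsLocalRing.residue A sA := by
    rw [← hsk, ← hsA]; exact resFun_coe sA
  have hX : (genericFibre W₀).addX x₁ x₂ ((genericFibre W₀).slope x₁ x₂ y₁ y₂) ∈ A :=
    ex ▸ SetLike.coe_mem _
  rw [redPoint_some_of_mem _ hX, Affine.Point.mk, Affine.Point.mk, Affine.Point.mk,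
    Affine.Point.add_some hop, Affine.Point.some.injEq, ex, ey, es]
  refine ⟨?_, ?_⟩
  · rw [resFun_of_mem hx₁, resFun_of_mem hx₂, Affine.map_addX]; exact resFun_coe _
  · rw [resFun_of_mem hx₁, resFun_of_mem hx₂, resFun_of_mem hy₁, Affine.map_addY]
    exact resFun_coe _

omit [DecidableEq (IsLocalRing.ResidueField A)] in
lemma inE1_of_opposite {x₁ y₁ x₂ y₂ : L}
    (h₁ : (genericFibre W₀).Nonsingular x₁ y₁) (h₂ : (genericFibre W₀).Nonsingular x₂ y₂)
    (hx₁ : x₁ ∈ A) (hx₂ : x₂ ∈ A) (hxe : resFun A x₁ = resFun A x₂)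
    (hye : resFun A y₁ = (specialFibre W₀).negY (resFun A x₂) (resFun A y₂)) :
    MultRed.InE1 A.valuation (genericFibre W₀) (.some x₁ y₁ h₁ + .some x₂ y₂ h₂) := by
  have hy₁ := y_mem_of_x_mem h₁.1 hx₁
  have hn := redPoint_neg (W₀ := W₀) (.some x₂ y₂ h₂)
  rw [Affine.Point.neg_some, redPoint_some_of_mem _ hx₂, redPoint_some_of_mem h₂ hx₂,
    Affine.Point.mk, Affine.Point.mk, Affine.Point.neg_some] at hn
  have hny : resFun A y₁ = resFun A ((genericFibre W₀).negY x₂ y₂) :=
    hye.trans (Affine.Point.some.inj hn).2.symm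
  have h := MultRed.inE1_sub_of_near (intCoeffs_genericFibre W₀) (h₁ := h₁)
    (h₂ := (Affine.nonsingular_neg ..).mpr h₂) (mem_iff_valuation_le.1 hx₁) (inE0_genericFibre _)
    ((resFun_eq_iff hx₁ hx₂).1 hxe)
    ((resFun_eq_iff hy₁ (y_mem_of_x_mem ((Affine.nonsingular_neg ..).mpr h₂).1 hx₂)).1 hny)
  rw [← Affine.Point.neg_some h₂, sub_neg_eq_add] at h
  exact h

/-- Reduction is additive. -/
theorem redPoint_add (P R : (genericFibre W₀).Point) :
    redPoint (P + R) = redPoint P + redPoint R := by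
  have hI := intCoeffs_genericFibre W₀
  -- integral points
  have key : ∀ {x₁ y₁ x₂ y₂ : L} (h₁ : (genericFibre W₀).Nonsingular x₁ y₁)
      (h₂ : (genericFibre W₀).Nonsingular x₂ y₂), x₁ ∈ A → x₂ ∈ A →
      redPoint (.some x₁ y₁ h₁ + .some x₂ y₂ h₂) =
        redPoint (.some x₁ y₁ h₁) + redPoint (.some x₂ y₂ h₂) := by
    intro x₁ y₁ x₂ y₂ h₁ h₂ hx₁ hx₂
    by_cases hop : resFun A x₁ = resFun A x₂ ∧
        resFun A y₁ = (specialFibre W₀).negY (resFun A x₂) (resFun A y₂)
    · rw [(redPoint_eq_zero_iff _).2 (inE1_of_opposite h₁ h₂ hx₁ hx₂ hop.1 hop.2),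
        redPoint_some_of_mem h₁ hx₁, redPoint_some_of_mem h₂ hx₂, Affine.Point.mk, Affine.Point.mk,
        Affine.Point.add_of_Y_eq hop.1 hop.2]
    · exact redPoint_add_of_not_opposite h₁ h₂ hx₁ hx₂ hop
  -- adding a point of the kernel
  have key' : ∀ P R : (genericFibre W₀).Point, redPoint R = 0 →
      redPoint (P + R) = redPoint P := by
    intro P R hR
    rw [redPoint_eq_zero_iff] at hR
    by_cases hP : MultRed.InE1 A.valuation (genericFibre W₀) P
    · rw [(redPoint_eq_zero_iff _).2 hP, (redPoint_eq_zero_iff _).2 (hP.add hI hR)]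
    have hS : ¬ MultRed.InE1 A.valuation (genericFibre W₀) (P + R) := fun h =>
      hP (by simpa using h.sub hI hR)
    rcases P with _ | ⟨x₁, y₁, h₁⟩
    · exact absurd trivial hP
    generalize hSdef : Affine.Point.some x₁ y₁ h₁ + R = S at hS
    rcases S with _ | ⟨x₂, y₂, h₂⟩
    · exact absurd trivial hS
    have hx₁ : x₁ ∈ A := mem_iff_valuation_le.2 (not_lt.1 hP)
    have hx₂ : x₂ ∈ A := mem_iff_valuation_le.2 (not_lt.1 hS)
    have hsum : redPoint (.some x₂ y₂ h₂ + -Affine.Point.some x₁ y₁ h₁) = 0 := by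
      rw [← hSdef, show Affine.Point.some x₁ y₁ h₁ + R + -Affine.Point.some x₁ y₁ h₁ = R by abel]
      exact (redPoint_eq_zero_iff _).2 hR
    rw [Affine.Point.neg_some, key _ _ hx₂ hx₁, ← Affine.Point.neg_some h₁, redPoint_neg,
      ← sub_eq_add_neg, sub_eq_zero] at hsum
    exact hsum
  by_cases hP : redPoint P = 0
  · rw [add_comm P R, key' R P hP, hP, zero_add]
  by_cases hR : redPoint R = 0
  · rw [key' P R hR, hR, add_zero]
  rcases P with _ | ⟨x₁, y₁, h₁⟩
  · exact absurd rfl hP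
  rcases R with _ | ⟨x₂, y₂, h₂⟩
  · exact absurd rfl hR
  exact key h₁ h₂
    (by_contra fun h => hP (redPoint_some_of_not_mem h₁ h))
    (by_contra fun h => hR (redPoint_some_of_not_mem h₂ h))

variable (W₀) in
/-- Reduction as a group homomorphism. -/
noncomputable def redHom : (genericFibre W₀).Point →+ (specialFibre W₀).Point where
  toFun := redPoint
  map_zero' := redPoint_zero
  map_add' := redPoint_add

@[simp] lemma redHom_apply (P : (genericFibre W₀).Point) : redHom W₀ P = redPoint P := rfl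

end Fermat.Agent.EllLocal
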