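import Fermat.Agent.EllLocal.Reduction
import Fermat.Agent.EllTorsion.Count
import Mathlib.RingTheory.Polynomial.Basic

/-!
# Surjectivity of reduction on torsion
-/

set_option autoImplicit false

open Polynomial WeierstrassCurve

namespace Fermat.Agent.EllLocal

variable {L : Type*} [Field L] {A : ValuationSubring L}

/-- Roots of the reduction of a split polynomial over a valuation subring: residues of its integral
roots; there are fewer of them when some root is not integral. -/
theorem reduction_roots_of_splits [DecidableEq L] (p : A[X]) (hsplit : (p.map A.subtype).Splits)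
    (hp : p.map (IsLocalRing.residue A) ≠ 0) :
    (∀ a, (p.map (IsLocalRing.residue A)).IsRoot a →
      ∃ r : A, (p.map A.subtype).IsRoot (r : L) ∧ IsLocalRing.residue A r = a) ∧
    ((∀ r : L, (p.map A.subtype).IsRoot r → r ∈ A) →
      (p.map (IsLocalRing.residue A)).natDegree = (p.map A.subtype).natDegree) := by
  classical
  set k := IsLocalRing.residue A
  set q := p.map A.subtype with hq
  have hq0 : q ≠ 0 := by
    intro h0
    rw [hq, Polynomial.map_eq_zero_iff Subtype.val_injective] at h0
    exact hp (by rw [h0, Polynomial.map_zero])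
  set S := q.roots.filter (· ∈ A) with hS
  set T := q.roots.filter (· ∉ A) with hT
  have hST : S + T = q.roots := Multiset.filter_add_not _ _
  -- lift both parts to `A`
  let SA : Multiset A := S.pmap (fun r hr => ⟨r, hr⟩) fun r hr => (Multiset.mem_filter.1 hr).2
  let TA : Multiset A := T.pmap (fun r hr => ⟨r⁻¹, (A.mem_or_inv_mem r).resolve_left hr⟩)
    fun r hr => (Multiset.mem_filter.1 hr).2
  let P : A[X] := (SA.map fun r => X - C r).prod * (TA.map fun u => 1 - C u * X).prod
  have hPS : (SA.map fun r : A => X - C (r : L)) = S.map fun r => X - C r := by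
    simp only [SA, Multiset.map_pmap]; exact Multiset.pmap_eq_map _ _ _ _
  have hPT : (TA.map fun u : A => 1 - C (u : L) * X) = T.map fun r => 1 - C r⁻¹ * X := by
    simp only [TA, Multiset.map_pmap]; exact Multiset.pmap_eq_map _ _ _ _
  have hPmap : P.map A.subtype =
      (S.map fun r => X - C r).prod * (T.map fun r => 1 - C r⁻¹ * X).prod := by
    rw [Polynomial.map_mul, Polynomial.map_multiset_prod, Polynomial.map_multiset_prod,
      Multiset.map_map, Multiset.map_map, ← hPS, ← hPT]
    congr 2 <;> (congr 1; funext r; simp)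
  obtain ⟨c, hc⟩ : ∃ c : L, c = q.leadingCoeff * (T.map fun r => -r).prod := ⟨_, rfl⟩
  have hqP : q = C c * P.map A.subtype := by
    rw [hPmap, hc, C_mul]
    conv_lhs => rw [hsplit.eq_prod_roots, ← hST, Multiset.map_add, Multiset.prod_add]
    have hT0 : (T.map fun r => X - C r).prod =
        C (T.map fun r => -r).prod * (T.map fun r => 1 - C r⁻¹ * X).prod := by
      rw [map_multiset_prod, Multiset.map_map, ← Multiset.prod_map_mul]
      refine congrArg Multiset.prod (Multiset.map_congr rfl fun r hr => ?_)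
      have hr0 : r ≠ 0 := fun h0 => (Multiset.mem_filter.1 hr).2 (h0 ▸ A.zero_mem)
      simp only [Function.comp_apply, C_neg]
      rw [mul_sub, mul_one, ← mul_assoc, neg_mul, ← C_mul, mul_inv_cancel₀ hr0, C_1, neg_mul,
        one_mul, sub_neg_eq_add, neg_add_eq_sub]
    rw [hT0]
    ring
  have hPk : P.map k = (SA.map fun r => X - C (k r)).prod := by
    rw [Polynomial.map_mul, Polynomial.map_multiset_prod, Polynomial.map_multiset_prod,
      Multiset.map_map, Multiset.map_map]
    have h1 : (TA.map ((Polynomial.map k) ∘ fun u => 1 - C u * X)).prod = 1 := by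
      refine Multiset.prod_eq_one fun g hg => ?_
      obtain ⟨u, hu, rfl⟩ := Multiset.mem_map.1 hg
      obtain ⟨r, hr, rfl⟩ := Multiset.mem_pmap.1 hu
      have hlt : A.valuation r⁻¹ < 1 := by
        rw [map_inv₀]
        exact inv_lt_one_of_one_lt₀ (not_mem_iff_one_lt.1 (Multiset.mem_filter.1 hr).2)
      have hz : k ⟨r⁻¹, (A.mem_or_inv_mem r).resolve_left (Multiset.mem_filter.1 hr).2⟩ = 0 :=
        (IsLocalRing.residue_eq_zero_iff _).2 ((A.valuation_lt_one_iff _).2 hlt)
      simp [hz]
    rw [h1, mul_one]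
    congr 1
    exact Multiset.map_congr rfl fun r _ => by simp
  have hPk0 : P.map k ≠ 0 := by
    rw [hPk]
    exact Monic.ne_zero (monic_multiset_prod_of_monic _ _ fun r _ => monic_X_sub_C _)
  have hcA : c ∈ A := by
    by_contra hcA
    have hci : c⁻¹ ∈ A := (A.mem_or_inv_mem c).resolve_left hcA
    have : P = C ⟨c⁻¹, hci⟩ * p := by
      apply Polynomial.map_injective A.subtype Subtype.val_injective
      rw [Polynomial.map_mul (p := C _), map_C, ← hq, hqP, ← mul_assoc, ← C_mul]
      have hc0 : c ≠ 0 := fun h => hcA (h ▸ A.zero_mem)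
      rw [show A.subtype ⟨c⁻¹, hci⟩ = c⁻¹ from rfl, inv_mul_cancel₀ hc0, C_1, one_mul]
    apply hPk0
    rw [this, Polynomial.map_mul, map_C]
    have hz : k ⟨c⁻¹, hci⟩ = 0 :=
      (IsLocalRing.residue_eq_zero_iff _).2 ((A.valuation_lt_one_iff _).2 (by
        rw [map_inv₀]; exact inv_lt_one_of_one_lt₀ (not_mem_iff_one_lt.1 hcA)))
    rw [hz, C_0, zero_mul]
  have hpP : p = C ⟨c, hcA⟩ * P := by
    apply Polynomial.map_injective A.subtype Subtype.val_injective
    rw [Polynomial.map_mul, map_C]
    exact hqP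
  have hck : k ⟨c, hcA⟩ ≠ 0 := fun h => hp (by rw [hpP, Polynomial.map_mul, map_C, h, C_0, zero_mul])
  refine ⟨fun a ha => ?_, fun hall => ?_⟩
  · rw [hpP, Polynomial.map_mul, map_C, IsRoot, eval_mul, eval_C, mul_eq_zero, hPk] at ha
    have ha := ha.resolve_left hck
    rw [eval_multiset_prod, Multiset.prod_eq_zero_iff, Multiset.map_map, Multiset.mem_map] at ha
    obtain ⟨r, hr, hr'⟩ := ha
    simp only [Function.comp_apply, eval_sub, eval_X, eval_C] at hr'
    refine ⟨r, ?_, (sub_eq_zero.1 hr').symm⟩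
    obtain ⟨r', hr'', rfl⟩ := Multiset.mem_pmap.1 hr
    exact isRoot_of_mem_roots (Multiset.mem_filter.1 hr'').1
  · have hT : T = 0 := Multiset.eq_zero_of_forall_notMem fun r hr =>
      (Multiset.mem_filter.1 hr).2 (hall r (isRoot_of_mem_roots (Multiset.mem_filter.1 hr).1))
    rw [hpP, Polynomial.map_mul, map_C, natDegree_C_mul hck, hPk,
      show (SA.map fun r => X - C (k r)) = (SA.map k).map fun a => X - C a from by
        rw [Multiset.map_map]; rfl,
      natDegree_multiset_prod_X_sub_C_eq_card, Multiset.card_map, hsplit.natDegree_eq_card_roots,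
      show Multiset.card SA = Multiset.card S from Multiset.card_pmap _ _ _, ← hST, hT, add_zero]

variable (W₀ : WeierstrassCurve A) [W₀.IsElliptic]

instance isElliptic_genericFibre : WeierstrassCurve.IsElliptic (genericFibre W₀) :=
  inferInstanceAs (W₀.map A.subtype).IsElliptic

instance isElliptic_specialFibre : WeierstrassCurve.IsElliptic (specialFibre W₀) :=
  inferInstanceAs (W₀.map (IsLocalRing.residue A)).IsElliptic

variable [IsAlgClosed L] [DecidableEq L] [DecidableEq (IsLocalRing.ResidueField A)]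

/-- Every torsion point of the special fibre lifts to a torsion point of the same order. -/
theorem exists_redHom_eq_of_nsmul_eq_zero {n : ℕ} (hn : n ≠ 0)
    {Q : (specialFibre W₀).Point} (hQ : n • Q = 0) :
    ∃ P : (genericFibre W₀).Point, n • P = 0 ∧ redHom W₀ P = Q := by
  rcases Q with _ | ⟨a, b, hab⟩
  · exact ⟨0, smul_zero _, map_zero _⟩
  have hred : (W₀.ΨSq (n : ℤ)).map (IsLocalRing.residue A) ≠ 0 := by
    rw [← WeierstrassCurve.map_ΨSq]
    exact EllTorsion.ΨSq_ne_zero_of_isElliptic (W := specialFibre W₀) hn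
  have hroot : ((W₀.ΨSq (n : ℤ)).map (IsLocalRing.residue A)).IsRoot a := by
    rw [← WeierstrassCurve.map_ΨSq]
    exact (EllTorsion.nsmul_eq_zero_iff hab n).1 hQ
  obtain ⟨r, hr, hra⟩ := (reduction_roots_of_splits _ (IsAlgClosed.splits _) hred).1 a hroot
  obtain ⟨y, hy⟩ := EllTorsion.exists_point (W := genericFibre W₀) (r : L)
  have hP : n • Affine.Point.some (r : L) y hy = 0 := by
    refine (EllTorsion.nsmul_eq_zero_iff hy n).2 ?_
    rw [WeierstrassCurve.map_ΨSq]; exact hr
  have hx : resFun A (r : L) = a := (resFun_coe r).trans hra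
  rcases (Affine.Point.X_eq_iff (h₁ := Affine.equation_iff_nonsingular.mp
      (equation_resFun hy.1 r.2)) (h₂ := hab)).mp hx with h | h
  · exact ⟨_, hP, (redPoint_some_of_mem hy r.2).trans h⟩
  · refine ⟨-Affine.Point.some (r : L) y hy, by rw [neg_nsmul, hP, neg_zero], ?_⟩
    rw [map_neg, redHom_apply, redPoint_some_of_mem hy r.2, Affine.Point.mk, h, neg_neg]

/-- When `n` is not invertible in the residue field, some nonzero `n`-torsion point reduces to the
origin (characteristic zero generic fibre). -/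
theorem exists_ne_zero_redHom_eq_zero {n : ℕ} (hn : 2 ≤ n) (hnL : (n : L) ≠ 0)
    (hnk : (n : IsLocalRing.ResidueField A) = 0) :
    ∃ P : (genericFibre W₀).Point, P ≠ 0 ∧ n • P = 0 ∧ redHom W₀ P = 0 := by
  have hred : (W₀.ΨSq (n : ℤ)).map (IsLocalRing.residue A) ≠ 0 := by
    rw [← WeierstrassCurve.map_ΨSq]
    exact EllTorsion.ΨSq_ne_zero_of_isElliptic (W := specialFibre W₀) (by omega)
  obtain ⟨-, hdeg⟩ := reduction_roots_of_splits _ (IsAlgClosed.splits _) hred
  by_contra hcon
  push Not at hcon
  have hall : ∀ r : L, ((W₀.ΨSq (n : ℤ)).map A.subtype).IsRoot r → r ∈ A := by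
    intro r hr
    by_contra hrA
    obtain ⟨y, hy⟩ := EllTorsion.exists_point (W := genericFibre W₀) r
    refine hcon _ (Affine.Point.some_ne_zero hy) ?_ (redPoint_some_of_not_mem hy hrA)
    refine (EllTorsion.nsmul_eq_zero_iff hy n).2 ?_
    rw [WeierstrassCurve.map_ΨSq]; exact hr
  have h2 : 2 ^ 2 ≤ n ^ 2 := Nat.pow_le_pow_left hn 2
  have h1 : ((W₀.ΨSq (n : ℤ)).map A.subtype).natDegree = n ^ 2 - 1 := by
    rw [← WeierstrassCurve.map_ΨSq, natDegree_ΨSq _ (by rwa [Int.cast_natCast]),
      Int.natAbs_natCast]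
  have h3 := hdeg hall
  rw [h1] at h3
  have h4 := coeff_ΨSq (W₀.map (IsLocalRing.residue A)) (n : ℤ)
  rw [Int.natAbs_natCast, WeierstrassCurve.map_ΨSq, ← h3] at h4
  refine hred (leadingCoeff_eq_zero.1 ?_)
  rw [leadingCoeff, h4, Int.cast_natCast, hnk, zero_pow two_ne_zero]

end Fermat.Agent.EllLocal
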